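import Fermat.Agent.S14.Artin.Main
import Fermat.Agent.S14.Core
import Fermat.Agent.S14.Kernel
import Fermat.Agent.S14.Field
import Fermat.Agent.S14.Stick

/-!
# S14 via Route A, modulo the two remaining Route A contracts

`extVanishingCts_of_core_fi : 3 ≤ p → XCoreStmt p → FIStmt p → ExtVanishingCts p`.
-/

set_option autoImplicit false

namespace Fermat.Agent.S14.Artin.Assemble

open Fermat.Agent.S14 Fermat.Agent.S14.Artin

theorem extVanishingCts_of_core_fi {p : ℕ} [Fact p.Prime] (h3 : 3 ≤ p) (hX : XCoreStmt p)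
    (hFI : FIStmt p) : ExtCitation.ExtVanishingCts p :=
  Plan.extVanishingCts_of_plan_cyc h3
    (Plan.bridgeStmt_of_kernel_of_field (Kernel.kernelStmt p) (Field.fieldStmt p))
    (Core.coreCycStmt p) (Main.artinCycStmt_of_core_fi p hX hFI) (Stick.stickStmt p)

end Fermat.Agent.S14.Artin.Assemble
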