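import Mathlib

/-!
# S14, Route A: contracts for Artin reciprocity of an unramified extension of prime degree

Setting: `p` an odd prime, `F` a number field, `M / F` a Galois extension of degree `p` which is
unramified at every finite prime.  `art` is the Artin map on nonzero integral ideals
(`IsArt`), `nmClasses p F M` is the subgroup of the class group generated by the classes of the
primes that split completely in `M` and by all `p`-th powers (the image of the ideal norm group).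

Chain.  `FIStmt` (first inequality: `nmClasses ≠ ⊤`), `SIStmt` (second inequality with a tame
modulus, in the form "kernel of `art` on ideals prime to `r` lies in `nmClasses`", under the
cyclotomic hypothesis `CycHyp`), `CRStmt` (explicit reciprocity inside `F(ζ_r)` gives `CycHyp`),
`XPairStmt` (crossing over `ℚ(ζ_p)`), and the assembly gives the Artin map on the class group.

This file contains definitions and `Prop`-valued contracts only.
-/

set_option autoImplicit false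

open scoped NumberField nonZeroDivisors

namespace Fermat.Agent.S14.Artin

section Vocabulary

variable (F M : Type) [Field F] [Field M] [NumberField F] [NumberField M] [Algebra F M]
  [IsGalois F M]

/-- `M / F` is unramified at every finite prime: all inertia groups are trivial. -/
def IsUnram : Prop :=
  ∀ Q : Ideal (𝓞 M), Q.IsPrime → Q ≠ ⊥ → Q.inertia (M ≃ₐ[F] M) = ⊥

/-- The nonzero prime `P` of `F` splits completely in `M`: the identity is a Frobenius element
at every prime above `P`. -/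
def IsSplit (P : Ideal (𝓞 F)) : Prop :=
  ∀ Q : Ideal (𝓞 M), Q.IsPrime → Q.under (𝓞 F) = P → IsArithFrobAt (𝓞 F) (1 : M ≃ₐ[F] M) Q

/-- `art` is the Artin map on nonzero integral ideals: multiplicative, and a Frobenius element
at every prime. -/
def IsArt (art : (Ideal (𝓞 F))⁰ →* (M ≃ₐ[F] M)) : Prop :=
  ∀ (P : (Ideal (𝓞 F))⁰) (Q : Ideal (𝓞 M)), (P : Ideal (𝓞 F)).IsPrime → Q.IsPrime →
    Q.under (𝓞 F) = P → IsArithFrobAt (𝓞 F) (art P) Q

/-- The norm classes: the subgroup of the class group of `F` generated by the classes of the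
primes that split completely in `M` and by all `p`-th powers. -/
noncomputable def nmClasses (p : ℕ) : Subgroup (ClassGroup (𝓞 F)) :=
  Subgroup.closure
    ({c | ∃ P : (Ideal (𝓞 F))⁰, (P : Ideal (𝓞 F)).IsPrime ∧ IsSplit F M P ∧
        c = ClassGroup.mk0 P} ∪ {c | ∃ d : ClassGroup (𝓞 F), c = d ^ p})

variable {F M}

/-- The cyclotomic hypothesis at the prime number `r`: `art` is trivial on the principal ideals
generated by elements which are units and `p`-th power residues at every prime above `r`. -/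
def CycHyp (p : ℕ) (art : (Ideal (𝓞 F))⁰ →* (M ≃ₐ[F] M)) (r : ℕ) : Prop :=
  ∀ (x : 𝓞 F) (hx : x ≠ 0),
    (∀ v : Ideal (𝓞 F), v.IsPrime → (r : 𝓞 F) ∈ v → x ∉ v ∧ ∃ z : 𝓞 F, x - z ^ p ∈ v) →
    art ⟨Ideal.span {x}, mem_nonZeroDivisors_iff_ne_zero.2
      (by simpa [Ideal.span_singleton_eq_bot] using hx)⟩ = 1

end Vocabulary

section Local

variable {F : Type} [Field F] [NumberField F]

/-- `x` is locally a `p`-th power at `v`, in global terms: `x = y ^ p * u` with `y ≠ 0` and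
`ord_v (u - 1) > p * ord_v (1 - ζ)` (for `v ∤ p` this reads `u ≡ 1 mod v`). -/
def IsLocalPow (p : ℕ) (ζ : F) (v : IsDedekindDomain.HeightOneSpectrum (𝓞 F)) (x : F) : Prop :=
  ∃ y : F, y ≠ 0 ∧ v.valuation F (x / y ^ p - 1) < v.valuation F (1 - ζ) ^ p

end Local

/-- Local index count: the elements of `Fˣ` that are locally `p`-th powers at every prime of
the finite set `S` form a subgroup of index at most `p ^ (2 * |S| + [F : ℚ])`. -/
def LvIndexStmt (p : ℕ) : Prop :=
  p.Prime → ∀ (F : Type) [Field F] [NumberField F] (ζ : F), IsPrimitiveRoot ζ p →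
    ∀ S : Finset (IsDedekindDomain.HeightOneSpectrum (𝓞 F)),
    ∃ H : Subgroup Fˣ, (∀ x : Fˣ, x ∈ H ↔ ∀ v ∈ S, IsLocalPow p ζ v (x : F)) ∧
      H.index ≠ 0 ∧ H.index ≤ p ^ (2 * S.card + Module.finrank ℚ F)

/-- Existence of the Artin map on ideals. -/
def ArtExistsStmt (p : ℕ) : Prop :=
  p.Prime → ∀ (F M : Type) [Field F] [Field M] [NumberField F] [NumberField M] [Algebra F M]
    [IsGalois F M], Module.finrank F M = p → IsUnram F M →
    ∃ art : (Ideal (𝓞 F))⁰ →* (M ≃ₐ[F] M), IsArt F M art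

/-- Non-split primes exist outside every finite set. -/
def NSStmt (p : ℕ) : Prop :=
  p.Prime → ∀ (F M : Type) [Field F] [Field M] [NumberField F] [NumberField M] [Algebra F M]
    [IsGalois F M], Module.finrank F M = p → IsUnram F M →
    ∀ art : (Ideal (𝓞 F))⁰ →* (M ≃ₐ[F] M), IsArt F M art →
    ∀ T : Set (Ideal (𝓞 F)), T.Finite →
    ∃ P : (Ideal (𝓞 F))⁰, (P : Ideal (𝓞 F)).IsPrime ∧ (P : Ideal (𝓞 F)) ∉ T ∧ art P ≠ 1

/-- Kummer form of the non-split statement: an integer of `F ∋ ζ_p` which is not a `p`-th power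
in `F` is a `p`-th power non-residue at a prime outside every finite set. -/
def NSKummerStmt (p : ℕ) : Prop :=
  p.Prime → ∀ (F : Type) [Field F] [NumberField F], (∃ ζ : F, IsPrimitiveRoot ζ p) →
    ∀ ε : 𝓞 F, (¬ ∃ y : F, y ^ p = (ε : F)) →
    ∀ T : Set (Ideal (𝓞 F)), T.Finite →
    ∃ v : Ideal (𝓞 F), v.IsPrime ∧ v ≠ ⊥ ∧ v ∉ T ∧ ¬ ∃ z : 𝓞 F, ε - z ^ p ∈ v

/-- First inequality: the norm classes do not fill the class group. -/
def FIStmt (p : ℕ) : Prop :=
  p.Prime → 3 ≤ p → ∀ (F M : Type) [Field F] [Field M] [NumberField F] [NumberField M] [Algebra F M]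
    [IsGalois F M], Module.finrank F M = p → IsUnram F M → nmClasses F M p ≠ ⊤

/-- Second inequality with the tame modulus `r`, consumer form: under the cyclotomic hypothesis,
an ideal prime to `r` with trivial Artin symbol has its class in the norm classes. -/
def SIStmt (p : ℕ) : Prop :=
  p.Prime → 3 ≤ p → ∀ (F M : Type) [Field F] [Field M] [NumberField F] [NumberField M] [Algebra F M]
    [IsGalois F M], (∃ ζ : F, IsPrimitiveRoot ζ p) → Module.finrank F M = p → IsUnram F M →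
    ∀ art : (Ideal (𝓞 F))⁰ →* (M ≃ₐ[F] M), IsArt F M art →
    ∀ r : ℕ, r.Prime → r ≠ p → CycHyp p art r →
    ∀ 𝔞 : (Ideal (𝓞 F))⁰,
      (∀ v : Ideal (𝓞 F), v.IsPrime → (r : 𝓞 F) ∈ v → ¬ (𝔞 : Ideal (𝓞 F)) ≤ v) →
      art 𝔞 = 1 → ClassGroup.mk0 𝔞 ∈ nmClasses F M p

/-- Explicit cyclotomic reciprocity: if `M ⊆ F(ζ_r)` inside a Galois extension `E / F`
(every automorphism of `E / F` fixing the `r`-th roots of unity fixes `M`), then the cyclotomic
hypothesis at `r` holds. -/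
def CRStmt (p : ℕ) : Prop :=
  p.Prime → 3 ≤ p → ∀ (F M E : Type) [Field F] [Field M] [Field E] [NumberField F] [NumberField M]
    [NumberField E] [Algebra F M] [Algebra M E] [Algebra F E] [IsScalarTower F M E]
    [IsGalois F M] [IsGalois F E], Module.finrank F M = p →
    ∀ art : (Ideal (𝓞 F))⁰ →* (M ≃ₐ[F] M), IsArt F M art →
    ∀ r : ℕ, r.Prime →
    (∀ σ : E ≃ₐ[F] E, (∀ t : E, t ^ r = 1 → σ t = t) →
      ∀ x : M, σ (algebraMap M E x) = algebraMap M E x) →
    CycHyp p art r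

/-- Functoriality of the Artin map under the ideal norm: `art_{M/F} (N_{F'/F} 𝔞)` is the
restriction of `art_{M'/F'} 𝔞`. -/
def NormStmt : Prop :=
  ∀ (F F' M M' : Type) [Field F] [Field F'] [Field M] [Field M'] [NumberField F]
    [NumberField F'] [NumberField M] [NumberField M'] [Algebra F F'] [Algebra F M]
    [Algebra F' M'] [Algebra M M'] [Algebra F M'] [IsScalarTower F F' M']
    [IsScalarTower F M M'] [IsGalois F M] [IsGalois F' M'], IsUnram F M →
    ∀ (art : (Ideal (𝓞 F))⁰ →* (M ≃ₐ[F] M)) (art' : (Ideal (𝓞 F'))⁰ →* (M' ≃ₐ[F'] M')),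
    IsArt F M art → IsArt F' M' art' →
    ∀ (𝔞 : (Ideal (𝓞 F'))⁰) (𝔟 : (Ideal (𝓞 F))⁰),
      (𝔟 : Ideal (𝓞 F)) = Ideal.relNorm (𝓞 F) (𝔞 : Ideal (𝓞 F')) →
      ∀ m : M, algebraMap M M' (art 𝔟 m) = art' 𝔞 (algebraMap M M' m)

/-- Crossing, pairwise form, over the `p`-th cyclotomic field. -/
def XPairStmt (p : ℕ) : Prop :=
  p.Prime → 3 ≤ p → ∀ (K L : Type) [Field K] [Field L] [NumberField K] [NumberField L] [Algebra K L]
    [IsGalois K L] [IsCyclotomicExtension {p} ℚ K], Module.finrank K L = p → IsUnram K L →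
    ∀ art : (Ideal (𝓞 K))⁰ →* (L ≃ₐ[K] L), IsArt K L art →
    ∀ P₁ P₂ : (Ideal (𝓞 K))⁰, (P₁ : Ideal (𝓞 K)).IsPrime → (P₂ : Ideal (𝓞 K)).IsPrime →
    ∀ a b : ℕ, art P₁ ^ a * art P₂ ^ b = 1 →
      ClassGroup.mk0 P₁ ^ a * ClassGroup.mk0 P₂ ^ b ∈ nmClasses K L p

/-- The auxiliary prime of the crossing (a purely rational statement): for distinct primes
`ℓ₁ ≠ ℓ₂` and `p ∤ m₁` there is a prime `r` outside any finite set such that `ℓ₁ ^ m₁ * ℓ₂ ^ m₂`
is a `p`-th power modulo `r` while `ℓ₂` is not. -/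
def AuxPrimeStmt (p : ℕ) : Prop :=
  p.Prime → ∀ ℓ₁ ℓ₂ : ℕ, ℓ₁.Prime → ℓ₂.Prime → ℓ₁ ≠ ℓ₂ → ∀ m₁ m₂ : ℕ, ¬ p ∣ m₁ →
    ∀ T : Finset ℕ, ∃ r : ℕ, r.Prime ∧ r ∉ T ∧
      (∃ w : ZMod r, w ^ p = (ℓ₁ : ZMod r) ^ m₁ * (ℓ₂ : ZMod r) ^ m₂) ∧
      ¬ ∃ z : ZMod r, z ^ p = (ℓ₂ : ZMod r)

/-- Crossing, core case: two non-split primes of different residue characteristics, exponent one
at the first prime. -/
def XCoreStmt (p : ℕ) : Prop :=
  p.Prime → 3 ≤ p → ∀ (K L : Type) [Field K] [Field L] [NumberField K] [NumberField L] [Algebra K L]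
    [IsGalois K L] [IsCyclotomicExtension {p} ℚ K], Module.finrank K L = p → IsUnram K L →
    ∀ art : (Ideal (𝓞 K))⁰ →* (L ≃ₐ[K] L), IsArt K L art →
    ∀ P₁ P₂ : (Ideal (𝓞 K))⁰, (P₁ : Ideal (𝓞 K)).IsPrime → (P₂ : Ideal (𝓞 K)).IsPrime →
    art P₁ ≠ 1 → art P₂ ≠ 1 →
    (∀ ℓ : ℕ, ℓ.Prime → (ℓ : 𝓞 K) ∈ (P₁ : Ideal (𝓞 K)) → (ℓ : 𝓞 K) ∉ (P₂ : Ideal (𝓞 K))) →
    ∀ b : ℕ, art P₁ * art P₂ ^ b = 1 →
      ClassGroup.mk0 P₁ * ClassGroup.mk0 P₂ ^ b ∈ nmClasses K L p

/-- Crossing: over the `p`-th cyclotomic field the kernel of the Artin map lies in the norm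
classes. -/
def XStmt (p : ℕ) : Prop :=
  p.Prime → 3 ≤ p → ∀ (K L : Type) [Field K] [Field L] [NumberField K] [NumberField L] [Algebra K L]
    [IsGalois K L] [IsCyclotomicExtension {p} ℚ K], Module.finrank K L = p → IsUnram K L →
    ∀ art : (Ideal (𝓞 K))⁰ →* (L ≃ₐ[K] L), IsArt K L art →
    ∀ 𝔞 : (Ideal (𝓞 K))⁰, art 𝔞 = 1 → ClassGroup.mk0 𝔞 ∈ nmClasses K L p

/-- The goal: Artin reciprocity for an unramified Galois extension of degree `p` of the `p`-th
cyclotomic field. -/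
def ArtinStmt (p : ℕ) : Prop :=
  p.Prime → 3 ≤ p → ∀ (K L : Type) [Field K] [Field L] [NumberField K] [NumberField L] [Algebra K L]
    [IsGalois K L] [IsCyclotomicExtension {p} ℚ K], Module.finrank K L = p → IsUnram K L →
    ∃ Art : ClassGroup (𝓞 K) →* (L ≃ₐ[K] L), Function.Surjective Art ∧
      ∀ (P : (Ideal (𝓞 K))⁰) (Q : Ideal (𝓞 L)), (P : Ideal (𝓞 K)).IsPrime → Q.IsPrime →
        Q.under (𝓞 K) = P → IsArithFrobAt (𝓞 K) (Art (ClassGroup.mk0 P)) Q

end Fermat.Agent.S14.Artin
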