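/-
S14, Route A: the auxiliary prime of the crossing (`AuxPrimeStmt`).

For distinct primes `ℓ₁ ≠ ℓ₂`, exponents `m₁, m₂` with `p ∤ m₁` and a finite set `T` there is a
prime `r ∉ T` such that `ℓ₁ ^ m₁ * ℓ₂ ^ m₂` is a `p`-th power modulo `r` while `ℓ₂` is not.

Proof.  `K = ℚ(ζ_p)`.  `ℓ₂ ∉ ⟨ℓ₁ ^ m₁ ℓ₂ ^ m₂⟩ · K ^ p` by taking norms to `ℚ` (`[K : ℚ] = p - 1`
is prime to `p`) and comparing `ℓ₁`- and `ℓ₂`-adic valuations.  The prescribed residue pattern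
(`Lib.KummerNonResidue.exists_prime_pow_residue_pattern`) gives a prime `Q` of `𝓞 K` outside the
primes over `T`; its residue characteristic `r` works: the non-residue descends trivially, the
residue descends by the norm of the residue field extension, whose degree is `< p`.
-/
import Mathlib
import Fermat.Agent.Lib.KummerNonResidue
import Fermat.Agent.S14.Artin.Plan

open scoped NumberField

namespace Fermat.Agent.S14.Artin.AuxPrime

/-- Kummer independence by norms: if `p ∤ [K : ℚ]`, `ℓ₁ ≠ ℓ₂` primes and `p ∤ m₁`, then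
`ℓ₂ * (ℓ₁ ^ m₁ * ℓ₂ ^ m₂) ^ e` is not a `p`-th power in `K`. -/
theorem mul_pow_ne_pow {K : Type*} [Field K] [NumberField K] {p : ℕ} (hp : p.Prime)
    (hdeg : ¬ p ∣ Module.finrank ℚ K) {ℓ₁ ℓ₂ : ℕ} (h₁ : ℓ₁.Prime) (h₂ : ℓ₂.Prime) (hne : ℓ₁ ≠ ℓ₂)
    {m₁ m₂ : ℕ} (hm : ¬ p ∣ m₁) (e : ℕ) (v : K) :
    (ℓ₂ : K) * ((ℓ₁ : K) ^ m₁ * (ℓ₂ : K) ^ m₂) ^ e ≠ v ^ p := by
  intro h
  have : Fact ℓ₁.Prime := ⟨h₁⟩
  have : Fact ℓ₂.Prime := ⟨h₂⟩
  set n := Module.finrank ℚ K with hn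
  have hcast : (ℓ₂ : K) * ((ℓ₁ : K) ^ m₁ * (ℓ₂ : K) ^ m₂) ^ e
      = algebraMap ℚ K ((ℓ₂ : ℚ) * ((ℓ₁ : ℚ) ^ m₁ * (ℓ₂ : ℚ) ^ m₂) ^ e) := by
    simp
  have hN := congrArg (Algebra.norm ℚ) h
  rw [hcast, Algebra.norm_algebraMap, map_pow, ← hn] at hN
  set q := Algebra.norm ℚ v with hq
  have hℓ₁0 : (ℓ₁ : ℚ) ≠ 0 := Nat.cast_ne_zero.mpr h₁.ne_zero
  have hℓ₂0 : (ℓ₂ : ℚ) ≠ 0 := Nat.cast_ne_zero.mpr h₂.ne_zero
  have hprod0 : (ℓ₁ : ℚ) ^ m₁ * (ℓ₂ : ℚ) ^ m₂ ≠ 0 :=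
    mul_ne_zero (pow_ne_zero _ hℓ₁0) (pow_ne_zero _ hℓ₂0)
  have hA0 : (ℓ₂ : ℚ) * ((ℓ₁ : ℚ) ^ m₁ * (ℓ₂ : ℚ) ^ m₂) ^ e ≠ 0 :=
    mul_ne_zero hℓ₂0 (pow_ne_zero _ hprod0)
  have hq0 : q ≠ 0 := by
    intro h0
    rw [h0, zero_pow hp.ne_zero] at hN
    exact pow_ne_zero n hA0 hN
  have hval : ∀ (ℓ : ℕ) [Fact ℓ.Prime],
      (n : ℤ) * (padicValRat ℓ ℓ₂ + e * (m₁ * padicValRat ℓ ℓ₁ + m₂ * padicValRat ℓ ℓ₂))
        = p * padicValRat ℓ q := by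
    intro ℓ _
    have := congrArg (padicValRat ℓ) hN
    rw [padicValRat.pow, padicValRat.mul hℓ₂0 (pow_ne_zero _ hprod0),
      padicValRat.pow, padicValRat.mul (pow_ne_zero _ hℓ₁0) (pow_ne_zero _ hℓ₂0),
      padicValRat.pow, padicValRat.pow, padicValRat.pow] at this
    exact this
  have e11 : padicValRat ℓ₁ (ℓ₁ : ℚ) = 1 := by
    rw [padicValRat.of_nat, padicValNat_self]; rfl
  have e12 : padicValRat ℓ₁ (ℓ₂ : ℚ) = 0 := by
    rw [padicValRat.of_nat, padicValNat_primes hne]; rfl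
  have e21 : padicValRat ℓ₂ (ℓ₁ : ℚ) = 0 := by
    rw [padicValRat.of_nat, padicValNat_primes hne.symm]; rfl
  have e22 : padicValRat ℓ₂ (ℓ₂ : ℚ) = 1 := by
    rw [padicValRat.of_nat, padicValNat_self]; rfl
  have hv1 := hval ℓ₁
  have hv2 := hval ℓ₂
  rw [e11, e12] at hv1
  rw [e21, e22] at hv2
  -- `p ∣ n * (e * m₁)` and `p ∣ n * (1 + e * m₂)`
  have hd1 : p ∣ n * (e * m₁) := by
    rw [← Int.natCast_dvd_natCast]
    refine ⟨padicValRat ℓ₁ q, ?_⟩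
    rw [← hv1]
    push_cast
    ring
  have hd2 : p ∣ n * (1 + e * m₂) := by
    rw [← Int.natCast_dvd_natCast]
    refine ⟨padicValRat ℓ₂ q, ?_⟩
    rw [← hv2]
    push_cast
    ring
  have he : p ∣ e := by
    rcases (Nat.Prime.dvd_mul hp).mp hd1 with h' | h'
    · exact absurd h' hdeg
    · rcases (Nat.Prime.dvd_mul hp).mp h' with h'' | h''
      · exact h''
      · exact absurd h'' hm
  have h1 : p ∣ 1 + e * m₂ := by
    rcases (Nat.Prime.dvd_mul hp).mp hd2 with h' | h'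
    · exact absurd h' hdeg
    · exact h'
  have h2 : p ∣ 1 := (Nat.dvd_add_left (Dvd.dvd.mul_right he m₂)).mp h1
  exact hp.one_lt.ne' (Nat.dvd_one.mp h2)

/-- Descent to the residue characteristic: if `[K : ℚ] < p`, `Q` a nonzero prime of `𝓞 K`, the
natural number `u` is a `p`-th power modulo `Q` and the natural number `x` is not, then the same
holds modulo the residue characteristic `r` of `Q`. -/
theorem exists_prime_of_ideal {K : Type*} [Field K] [NumberField K] {p : ℕ} (hp : p.Prime)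
    (hdeg : Module.finrank ℚ K < p) {Q : Ideal (𝓞 K)} (hQ : Q.IsPrime) (hQ0 : Q ≠ ⊥)
    (u x : ℕ) (hu : ∃ c : 𝓞 K, (u : 𝓞 K) - c ^ p ∈ Q)
    (hx : ¬ ∃ c : 𝓞 K, (x : 𝓞 K) - c ^ p ∈ Q) :
    ∃ r : ℕ, r.Prime ∧ (r : 𝓞 K) ∈ Q ∧ (∃ w : ZMod r, w ^ p = (u : ZMod r)) ∧
      ¬ ∃ z : ZMod r, z ^ p = (x : ZMod r) := by
  classical
  have hmax : Q.IsMaximal := hQ.isMaximal hQ0
  let _ : Field (𝓞 K ⧸ Q) := Ideal.Quotient.field Q
  have hfin : Finite (𝓞 K ⧸ Q) := Ideal.finiteQuotientOfFreeOfNeBot Q hQ0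
  obtain ⟨r, hr⟩ := CharP.exists (𝓞 K ⧸ Q)
  have hrp : r.Prime := CharP.char_is_prime (𝓞 K ⧸ Q) r
  have : Fact r.Prime := ⟨hrp⟩
  have hrQ : (r : 𝓞 K) ∈ Q := by
    rw [← Ideal.Quotient.eq_zero_iff_mem, map_natCast]
    exact CharP.cast_eq_zero _ r
  let _ : Algebra (ZMod r) (𝓞 K ⧸ Q) := ZMod.algebra _ r
  refine ⟨r, hrp, hrQ, ?_, ?_⟩
  · -- the residue descends by the norm
    obtain ⟨c, hc⟩ := hu
    have h1 : (Ideal.Quotient.mk Q c) ^ p = algebraMap (ZMod r) (𝓞 K ⧸ Q) (u : ZMod r) := by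
      rw [map_natCast, ← map_natCast (Ideal.Quotient.mk Q), ← map_pow, eq_comm,
        Ideal.Quotient.eq]
      exact hc
    set f := Module.finrank (ZMod r) (𝓞 K ⧸ Q) with hf
    have h2 : (Algebra.norm (ZMod r) (Ideal.Quotient.mk Q c)) ^ p = (u : ZMod r) ^ f := by
      rw [← map_pow, h1, Algebra.norm_algebraMap]
    -- `f < p`
    have hfp : f < p := by
      have hcard : Nat.card (𝓞 K ⧸ Q) = r ^ f := by
        have := Fintype.ofFinite (𝓞 K ⧸ Q)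
        rw [Nat.card_eq_fintype_card, Module.card_eq_pow_finrank (K := ZMod r), ZMod.card]
      have hdvd : Nat.card (𝓞 K ⧸ Q) ∣ r ^ Module.finrank ℚ K := by
        have h3 := Ideal.absNorm_dvd_absNorm_of_le
          ((Ideal.span_singleton_le_iff_mem Q).mpr hrQ)
        rwa [Ideal.absNorm_span_natCast, NumberField.RingOfIntegers.rank, Ideal.absNorm_apply,
          Submodule.cardQuot_apply] at h3
      rw [hcard] at hdvd
      exact lt_of_le_of_lt ((Nat.pow_dvd_pow_iff_le_right hrp.one_lt).mp hdvd) hdeg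
    have hf0 : 0 < f := Module.finrank_pos
    have hcop : Nat.Coprime f p :=
      (Nat.coprime_comm.mp ((Nat.Prime.coprime_iff_not_dvd hp).mpr
        (Nat.not_dvd_of_pos_of_lt hf0 hfp)))
    obtain ⟨a, -, ha⟩ := Nat.exists_mul_mod_eq_one_of_coprime hcop hp.one_lt
    -- `f * a = p * b + 1`
    have hfa : f * a = p * (f * a / p) + 1 := by
      have := Nat.div_add_mod (f * a) p
      omega
    set b := f * a / p with hb
    by_cases hu0 : (u : ZMod r) = 0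
    · exact ⟨0, by rw [hu0, zero_pow hp.ne_zero]⟩
    · refine ⟨(Algebra.norm (ZMod r) (Ideal.Quotient.mk Q c)) ^ a * ((u : ZMod r) ^ b)⁻¹, ?_⟩
      have h3 : ((Algebra.norm (ZMod r) (Ideal.Quotient.mk Q c)) ^ a) ^ p
          = ((u : ZMod r) ^ b) ^ p * (u : ZMod r) := by
        rw [← pow_mul, mul_comm a p, pow_mul, h2, ← pow_mul, hfa, pow_succ, pow_mul,
          pow_right_comm]
      rw [mul_pow, h3, inv_pow]
      field_simp
  · -- the non-residue descends trivially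
    rintro ⟨z, hz⟩
    apply hx
    obtain ⟨c, hc⟩ := Ideal.Quotient.mk_surjective (algebraMap (ZMod r) (𝓞 K ⧸ Q) z)
    refine ⟨c, ?_⟩
    rw [← Ideal.Quotient.eq, map_pow, hc, ← map_pow, hz, map_natCast, map_natCast]

/-- The auxiliary prime, from any `p`-th cyclotomic field. -/
theorem exists_auxPrime (K : Type*) [Field K] [NumberField K] {p : ℕ} (hp : p.Prime)
    [IsCyclotomicExtension {p} ℚ K] {ℓ₁ ℓ₂ : ℕ} (h₁ : ℓ₁.Prime) (h₂ : ℓ₂.Prime) (hne : ℓ₁ ≠ ℓ₂)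
    (m₁ m₂ : ℕ) (hm : ¬ p ∣ m₁) (T : Finset ℕ) :
    ∃ r : ℕ, r.Prime ∧ r ∉ T ∧
      (∃ w : ZMod r, w ^ p = (ℓ₁ : ZMod r) ^ m₁ * (ℓ₂ : ZMod r) ^ m₂) ∧
      ¬ ∃ z : ZMod r, z ^ p = (ℓ₂ : ZMod r) := by
  classical
  have : Fact p.Prime := ⟨hp⟩
  have : NeZero p := ⟨hp.ne_zero⟩
  have hfinrank : Module.finrank ℚ K = p - 1 := by
    rw [IsCyclotomicExtension.Rat.finrank p K, Nat.totient_prime hp]
  have hdeg : Module.finrank ℚ K < p := by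
    rw [hfinrank]
    exact Nat.sub_lt hp.pos Nat.one_pos
  have hdeg' : ¬ p ∣ Module.finrank ℚ K := by
    rw [hfinrank]
    exact Nat.not_dvd_of_pos_of_lt (Nat.sub_pos_of_lt hp.one_lt) (Nat.sub_lt hp.pos Nat.one_pos)
  have hζ : IsPrimitiveRoot (IsCyclotomicExtension.zeta_spec p ℚ K).toInteger p :=
    (IsCyclotomicExtension.zeta_spec p ℚ K).toInteger_isPrimitiveRoot
  -- the excluded primes of `𝓞 K`
  set T' : Set (Ideal (𝓞 K)) :=
    ⋃ t ∈ (T.filter (· ≠ 0) : Finset ℕ), {Q : Ideal (𝓞 K) | Q.IsPrime ∧ (t : 𝓞 K) ∈ Q} with hT'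
  have hT'fin : T'.Finite := by
    refine Set.Finite.biUnion (Finset.finite_toSet _) fun t ht => ?_
    refine Fermat.Agent.Lib.KummerNonResidue.finite_primes_of_mem ?_
    exact Nat.cast_ne_zero.mpr (Finset.mem_filter.mp ht).2
  obtain ⟨Q, hQ, hQ0, hQT, -, -, hres, hall⟩ :=
    Fermat.Agent.Lib.KummerNonResidue.exists_prime_pow_residue_pattern p hζ
      (fun _ : Fin 1 => ((ℓ₁ ^ m₁ * ℓ₂ ^ m₂ : ℕ) : 𝓞 K)) ((ℓ₂ : ℕ) : 𝓞 K)
      (by
        intro e v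
        have := mul_pow_ne_pow hp hdeg' h₁ h₂ hne hm (e 0) v (m₂ := m₂)
        simpa using this)
      T' hT'fin
  obtain ⟨r, hrp, hrQ, hw, hz⟩ := exists_prime_of_ideal hp hdeg hQ hQ0 (ℓ₁ ^ m₁ * ℓ₂ ^ m₂) ℓ₂
    (hall 0).2 hres
  refine ⟨r, hrp, ?_, ?_, hz⟩
  · intro hrT
    apply hQT
    rw [hT']
    exact Set.mem_biUnion (Finset.mem_coe.mpr (Finset.mem_filter.mpr ⟨hrT, hrp.ne_zero⟩))
      ⟨hQ, hrQ⟩
  · obtain ⟨w, hw⟩ := hw
    exact ⟨w, by rw [hw]; push_cast; ring⟩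

/-- **The auxiliary prime of the crossing** (Route A contract `AuxPrimeStmt`). -/
theorem auxPrimeStmt (p : ℕ) : AuxPrimeStmt p := by
  intro hp ℓ₁ ℓ₂ h₁ h₂ hne m₁ m₂ hm T
  have : NeZero p := ⟨hp.ne_zero⟩
  have : IsCyclotomicExtension {p} ℚ (CyclotomicField p ℚ) :=
    CyclotomicField.isCyclotomicExtension p ℚ
  exact exists_auxPrime (CyclotomicField p ℚ) hp h₁ h₂ hne m₁ m₂ hm T

end Fermat.Agent.S14.Artin.AuxPrime
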