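import Fermat.Agent.S14.Artin.Plan

/-!
# S14, Route A: basic facts on the Artin map of an unramified extension of prime degree

* `gal_comm`, `gal_pow_eq_one`, `gal_eq_pow_of_ne_one`: the Galois group has prime order.
* `frob_unique`: uniqueness of Frobenius elements at unramified primes.
* `artExistsStmt : ArtExistsStmt p`, `IsArt.ext`.
* `art_eq_one_iff_isSplit`.
* `IsNmIdeal`, `mem_nmClasses_iff`: ideal-level description of the norm classes.
-/

set_option autoImplicit false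
set_option linter.style.haveILetI false
set_option linter.unusedSectionVars false

open scoped NumberField nonZeroDivisors Pointwise

namespace Fermat.Agent.S14.Artin.Basic

open Fermat.Agent.S14.Artin

variable {F M : Type} [Field F] [Field M] [NumberField F] [NumberField M] [Algebra F M]
  [IsGalois F M]

section Group

theorem card_gal {p : ℕ} (hdeg : Module.finrank F M = p) : Nat.card (M ≃ₐ[F] M) = p := by
  rw [IsGalois.card_aut_eq_finrank, hdeg]

theorem gal_pow_eq_one {p : ℕ} (hdeg : Module.finrank F M = p) (σ : M ≃ₐ[F] M) : σ ^ p = 1 := by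
  rw [← card_gal hdeg]
  exact pow_card_eq_one'

theorem gal_eq_pow_of_ne_one {p : ℕ} (hp : p.Prime) (hdeg : Module.finrank F M = p)
    {τ : M ≃ₐ[F] M} (hτ : τ ≠ 1) (σ : M ≃ₐ[F] M) : ∃ k : ℕ, σ = τ ^ k := by
  haveI : Fact p.Prime := ⟨hp⟩
  have h := mem_zpowers_of_prime_card (card_gal hdeg) hτ (g := τ) (g' := σ)
  obtain ⟨k, hk⟩ := (Submonoid.mem_powers_iff _ _).1 (mem_powers_iff_mem_zpowers.2 h)
  exact ⟨k, hk.symm⟩

theorem gal_comm {p : ℕ} (hp : p.Prime) (hdeg : Module.finrank F M = p) (σ τ : M ≃ₐ[F] M) :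
    σ * τ = τ * σ := by
  by_cases hτ : τ = 1
  · subst hτ; simp
  obtain ⟨k, rfl⟩ := gal_eq_pow_of_ne_one hp hdeg hτ σ
  exact (Commute.pow_self τ k).symm.eq.symm ▸ rfl

end Group

section Frob

theorem frob_unique (hun : IsUnram F M) {Q : Ideal (𝓞 M)} (hQ : Q.IsPrime) (hQ0 : Q ≠ ⊥)
    {σ τ : M ≃ₐ[F] M} (hσ : IsArithFrobAt (𝓞 F) σ Q) (hτ : IsArithFrobAt (𝓞 F) τ Q) : σ = τ := by
  have h := hσ.mul_inv_mem_inertia hτ
  rw [hun Q hQ hQ0, Subgroup.mem_bot] at h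
  exact mul_inv_eq_one.1 h

theorem exists_prime_over {P : Ideal (𝓞 F)} (hP : P.IsPrime) (hP0 : P ≠ ⊥) :
    ∃ Q : Ideal (𝓞 M), Q.IsPrime ∧ Q ≠ ⊥ ∧ Q.under (𝓞 F) = P := by
  haveI := hP
  obtain ⟨Q, -, hQ, hQP⟩ := Ideal.exists_ideal_over_prime_of_isIntegral P (⊥ : Ideal (𝓞 M))
    (by
      rw [Ideal.comap_bot_of_injective _ (FaithfulSMul.algebraMap_injective (𝓞 F) (𝓞 M))]
      exact bot_le)
  refine ⟨Q, hQ, ?_, hQP⟩
  rintro rfl
  apply hP0
  rw [← hQP, Ideal.comap_bot_of_injective _ (FaithfulSMul.algebraMap_injective (𝓞 F) (𝓞 M))]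

theorem ne_bot_of_under {P : Ideal (𝓞 F)} (hP0 : P ≠ ⊥) {Q : Ideal (𝓞 M)}
    (hQP : Q.under (𝓞 F) = P) : Q ≠ ⊥ := by
  rintro rfl
  apply hP0
  rw [← hQP, Ideal.under_def,
    Ideal.comap_bot_of_injective _ (FaithfulSMul.algebraMap_injective (𝓞 F) (𝓞 M))]

/-- in the commutative case a Frobenius at one prime above `P` is a Frobenius at all of them -/
theorem frob_of_under_eq (hc : ∀ σ τ : M ≃ₐ[F] M, σ * τ = τ * σ) {Q Q' : Ideal (𝓞 M)}
    (hQ : Q.IsPrime) (hQ' : Q'.IsPrime) (h : Q.under (𝓞 F) = Q'.under (𝓞 F)) {σ : M ≃ₐ[F] M}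
    (hσ : IsArithFrobAt (𝓞 F) σ Q) : IsArithFrobAt (𝓞 F) σ Q' := by
  haveI := hQ
  haveI := hQ'
  obtain ⟨τ, hτ⟩ := Algebra.IsInvariant.exists_smul_of_under_eq (𝓞 F) (𝓞 M) (M ≃ₐ[F] M) Q Q' h
  have h2 := hσ.conj τ
  rw [← hτ] at h2
  rwa [hc τ σ, mul_inv_cancel_right] at h2

end Frob

section Art

open Classical in
/-- a Frobenius element above `P` (or `1`) -/
noncomputable def frobP (P : Ideal (𝓞 F)) : M ≃ₐ[F] M :=
  if h : ∃ σ : M ≃ₐ[F] M, ∃ Q : Ideal (𝓞 M), Q.IsPrime ∧ Q.under (𝓞 F) = P ∧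
      IsArithFrobAt (𝓞 F) σ Q then h.choose else 1

theorem frobP_spec (hc : ∀ σ τ : M ≃ₐ[F] M, σ * τ = τ * σ) {P : Ideal (𝓞 F)} (hP : P.IsPrime)
    (hP0 : P ≠ ⊥) {Q : Ideal (𝓞 M)} (hQ : Q.IsPrime) (hQP : Q.under (𝓞 F) = P) :
    IsArithFrobAt (𝓞 F) (frobP (M := M) P) Q := by
  haveI := hQ
  haveI : Finite (𝓞 M ⧸ Q) := Ideal.finiteQuotientOfFreeOfNeBot Q (ne_bot_of_under hP0 hQP)
  have hex : ∃ σ : M ≃ₐ[F] M, ∃ Q : Ideal (𝓞 M), Q.IsPrime ∧ Q.under (𝓞 F) = P ∧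
      IsArithFrobAt (𝓞 F) σ Q := by
    obtain ⟨σ, hσ⟩ := IsArithFrobAt.exists_of_isInvariant (𝓞 F) (M ≃ₐ[F] M) Q
    exact ⟨σ, Q, hQ, hQP, hσ⟩
  rw [frobP, dif_pos hex]
  obtain ⟨Q', hQ', hQ'P, hσ⟩ := hex.choose_spec
  exact frob_of_under_eq hc hQ' hQ (hQ'P.trans hQP.symm) hσ

/-- the multiplicative extension of a function on ideals with values in a commutative monoid -/
noncomputable def factorHom {R : Type*} [CommRing R] [IsDedekindDomain R] {G : Type*}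
    [CommMonoid G] (f : Ideal R → G) : (Ideal R)⁰ →* G where
  toFun I := ((UniqueFactorizationMonoid.normalizedFactors (I : Ideal R)).map f).prod
  map_one' := by
    show ((UniqueFactorizationMonoid.normalizedFactors (1 : Ideal R)).map f).prod = 1
    rw [UniqueFactorizationMonoid.normalizedFactors_one, Multiset.map_zero, Multiset.prod_zero]
  map_mul' I J := by
    show ((UniqueFactorizationMonoid.normalizedFactors ((I : Ideal R) * (J : Ideal R))).map
      f).prod = _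
    rw [UniqueFactorizationMonoid.normalizedFactors_mul
        (nonZeroDivisors.coe_ne_zero I) (nonZeroDivisors.coe_ne_zero J), Multiset.map_add,
        Multiset.prod_add]

theorem factorHom_prime {R : Type*} [CommRing R] [IsDedekindDomain R] {G : Type*}
    [CommMonoid G] (f : Ideal R → G) (P : (Ideal R)⁰) (hP : (P : Ideal R).IsPrime) :
    factorHom f P = f (P : Ideal R) := by
  have hprime : Prime (P : Ideal R) := Ideal.prime_of_isPrime (nonZeroDivisors.coe_ne_zero P) hP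
  show ((UniqueFactorizationMonoid.normalizedFactors (P : Ideal R)).map f).prod = _
  rw [UniqueFactorizationMonoid.normalizedFactors_irreducible hprime.irreducible, normalize_eq,
    Multiset.map_singleton, Multiset.prod_singleton]

/-- the Artin map on nonzero ideals, for a commutative Galois group -/
noncomputable def artMap (hc : ∀ σ τ : M ≃ₐ[F] M, σ * τ = τ * σ) :
    (Ideal (𝓞 F))⁰ →* (M ≃ₐ[F] M) :=
  letI : CommGroup (M ≃ₐ[F] M) := { (inferInstance : Group (M ≃ₐ[F] M)) with mul_comm := hc }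
  factorHom (frobP (M := M))

theorem artMap_prime (hc : ∀ σ τ : M ≃ₐ[F] M, σ * τ = τ * σ) (P : (Ideal (𝓞 F))⁰)
    (hP : (P : Ideal (𝓞 F)).IsPrime) : artMap hc P = frobP (M := M) (P : Ideal (𝓞 F)) := by
  letI : CommGroup (M ≃ₐ[F] M) := { (inferInstance : Group (M ≃ₐ[F] M)) with mul_comm := hc }
  exact factorHom_prime (frobP (M := M)) P hP

theorem isArt_artMap (hc : ∀ σ τ : M ≃ₐ[F] M, σ * τ = τ * σ) : IsArt F M (artMap hc) := by
  intro P Q hP hQ hQP
  rw [artMap_prime hc P hP]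
  exact frobP_spec hc hP (nonZeroDivisors.coe_ne_zero P) hQ hQP

theorem artExistsStmt (p : ℕ) : ArtExistsStmt p := by
  intro hp F M _ _ _ _ _ _ hdeg _
  exact ⟨artMap (gal_comm hp hdeg), isArt_artMap _⟩

end Art

section Split

theorem art_eq_one_iff_isSplit (hun : IsUnram F M) {art : (Ideal (𝓞 F))⁰ →* (M ≃ₐ[F] M)}
    (hart : IsArt F M art) (P : (Ideal (𝓞 F))⁰) (hP : (P : Ideal (𝓞 F)).IsPrime) :
    art P = 1 ↔ IsSplit F M (P : Ideal (𝓞 F)) := by
  constructor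
  · intro h Q hQ hQP
    rw [← h]
    exact hart P Q hP hQ hQP
  · intro h
    obtain ⟨Q, hQ, hQ0, hQP⟩ := exists_prime_over (M := M) hP (nonZeroDivisors.coe_ne_zero P)
    exact frob_unique hun hQ hQ0 (hart P Q hP hQ hQP) (h Q hQ hQP)

end Split

section Induction

/-- induction on nonzero ideals of a Dedekind domain along prime factors -/
theorem ideal_induction {R : Type*} [CommRing R] [IsDedekindDomain R]
    (C : (Ideal R)⁰ → Prop) (h1 : C 1)
    (hmul : ∀ (P I : (Ideal R)⁰), (P : Ideal R).IsPrime → C I → C (P * I)) (I : (Ideal R)⁰) :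
    C I := by
  obtain ⟨I, hI⟩ := I
  have hI0 : I ≠ 0 := nonZeroDivisors.ne_zero hI
  revert hI
  induction I using UniqueFactorizationMonoid.induction_on_prime with
  | h₁ => exact absurd rfl hI0
  | h₂ x hx =>
    intro hI
    have : (⟨x, hI⟩ : (Ideal R)⁰) = 1 := by
      apply Subtype.ext
      exact Ideal.isUnit_iff.1 hx ▸ Ideal.one_eq_top.symm
    rw [this]
    exact h1
  | h₃ a q ha hq ih =>
    intro hI
    have hq0 : q ≠ 0 := hq.ne_zero
    have hqm : q ∈ (Ideal R)⁰ := mem_nonZeroDivisors_iff_ne_zero.2 hq0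
    have ham : a ∈ (Ideal R)⁰ := mem_nonZeroDivisors_iff_ne_zero.2 ha
    have := hmul ⟨q, hqm⟩ ⟨a, ham⟩ (Ideal.isPrime_of_prime hq) (ih ha ham)
    exact this

end Induction

section Nm

variable (F M) in
/-- the submonoid of ideals generated by the split primes and the `p`-th powers -/
def nmIdeals (p : ℕ) : Submonoid (Ideal (𝓞 F))⁰ :=
  Submonoid.closure ({P | (P : Ideal (𝓞 F)).IsPrime ∧ IsSplit F M (P : Ideal (𝓞 F))} ∪
    {I | ∃ J : (Ideal (𝓞 F))⁰, I = J ^ p})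

theorem mk0_mem_nmClasses_of_mem_nmIdeals {p : ℕ} {𝔫 : (Ideal (𝓞 F))⁰}
    (h : 𝔫 ∈ nmIdeals F M p) : ClassGroup.mk0 𝔫 ∈ nmClasses F M p := by
  induction h using Submonoid.closure_induction with
  | mem x hx =>
    rcases hx with ⟨hP, hs⟩ | ⟨J, rfl⟩
    · exact Subgroup.subset_closure (Or.inl ⟨x, hP, hs, rfl⟩)
    · exact Subgroup.subset_closure (Or.inr ⟨ClassGroup.mk0 J, map_pow _ _ _⟩)
  | one => rw [map_one]; exact one_mem _
  | mul x y _ _ hx hy => rw [map_mul]; exact mul_mem hx hy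

theorem art_eq_one_of_mem_nmIdeals {p : ℕ} (hdeg : Module.finrank F M = p) (hun : IsUnram F M)
    {art : (Ideal (𝓞 F))⁰ →* (M ≃ₐ[F] M)} (hart : IsArt F M art) {𝔫 : (Ideal (𝓞 F))⁰}
    (h : 𝔫 ∈ nmIdeals F M p) : art 𝔫 = 1 := by
  induction h using Submonoid.closure_induction with
  | mem x hx =>
    rcases hx with ⟨hP, hs⟩ | ⟨J, rfl⟩
    · exact (art_eq_one_iff_isSplit hun hart x hP).2 hs
    · rw [map_pow]; exact gal_pow_eq_one hdeg _
  | one => exact map_one _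
  | mul x y _ _ hx hy => rw [map_mul, hx, hy, one_mul]

/-- every norm class is the class of an ideal of `nmIdeals` -/
theorem exists_mem_nmIdeals_of_mem_nmClasses {p : ℕ} {c : ClassGroup (𝓞 F)}
    (h : c ∈ nmClasses F M p) : ∃ 𝔫 ∈ nmIdeals F M p, ClassGroup.mk0 𝔫 = c := by
  classical
  induction h using Subgroup.closure_induction with
  | mem x hx =>
    rcases hx with ⟨P, hP, hs, rfl⟩ | ⟨d, rfl⟩
    · exact ⟨P, Submonoid.subset_closure (Or.inl ⟨hP, hs⟩), rfl⟩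
    · obtain ⟨J, rfl⟩ := ClassGroup.mk0_surjective d
      exact ⟨J ^ p, Submonoid.subset_closure (Or.inr ⟨J, rfl⟩), map_pow _ _ _⟩
  | one => exact ⟨1, one_mem _, map_one _⟩
  | mul x y _ _ hx hy =>
    obtain ⟨a, ha, rfl⟩ := hx
    obtain ⟨b, hb, rfl⟩ := hy
    exact ⟨a * b, mul_mem ha hb, map_mul _ _ _⟩
  | inv x _ hx =>
    obtain ⟨a, ha, rfl⟩ := hx
    refine ⟨a ^ (Fintype.card (ClassGroup (𝓞 F)) - 1), pow_mem ha _, ?_⟩
    rw [map_pow]
    have hc : 0 < Fintype.card (ClassGroup (𝓞 F)) := Fintype.card_pos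
    apply eq_inv_of_mul_eq_one_left
    rw [← pow_succ, Nat.sub_add_cancel hc, pow_card_eq_one]

/-- ideal-level description of the norm classes -/
theorem mk0_mem_nmClasses_iff {p : ℕ} (𝔞 : (Ideal (𝓞 F))⁰) :
    ClassGroup.mk0 𝔞 ∈ nmClasses F M p ↔
      ∃ 𝔫 ∈ nmIdeals F M p, ∃ x y : 𝓞 F, x ≠ 0 ∧ y ≠ 0 ∧
        Ideal.span {x} * (𝔞 : Ideal (𝓞 F)) = Ideal.span {y} * (𝔫 : Ideal (𝓞 F)) := by
  constructor
  · intro h
    obtain ⟨𝔫, h𝔫, he⟩ := exists_mem_nmIdeals_of_mem_nmClasses h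
    obtain ⟨x, y, hx, hy, hxy⟩ := ClassGroup.mk0_eq_mk0_iff.1 he.symm
    exact ⟨𝔫, h𝔫, x, y, hx, hy, hxy⟩
  · rintro ⟨𝔫, h𝔫, x, y, hx, hy, hxy⟩
    have : ClassGroup.mk0 𝔞 = ClassGroup.mk0 𝔫 := ClassGroup.mk0_eq_mk0_iff.2 ⟨x, y, hx, hy, hxy⟩
    rw [this]
    exact mk0_mem_nmClasses_of_mem_nmIdeals h𝔫

end Nm

end Fermat.Agent.S14.Artin.Basic
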