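import Fermat.Agent.S14.Artin.Plan
import Fermat.Agent.Lib.CycloRecip
import Fermat.Agent.Lib.InertiaTower

/-!
# S14, Route A: explicit cyclotomic reciprocity (`CRStmt`)

`F ⊆ M ⊆ E` number fields, `E / F` and `M / F` Galois, `[M : F] = p` odd, and every automorphism
of `E / F` fixing the `r`-th roots of unity fixes `M` (so `M ⊆ F(ζ_r)`).  Then the Artin map of
`M / F` is trivial on the principal ideals generated by elements that are units and `p`-th power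
residues at every prime above `r`.
-/

set_option autoImplicit false

open scoped NumberField nonZeroDivisors

namespace Fermat.Agent.S14.Artin.CR

open Fermat.Agent.Lib.CycloRecip

section Core

variable {F M E : Type*} [Field F] [NumberField F] [Field M] [NumberField M] [Field E]
  [NumberField E] [Algebra F M] [Algebra M E] [Algebra F E] [IsScalarTower F M E]
  [IsGalois F M] [IsGalois F E]

omit [NumberField F] [NumberField M] [NumberField E] [IsGalois F E] in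
/-- An automorphism of `E / F` fixing `M` pointwise restricts to the identity of `M`. -/
theorem restrict_eq_one_of_fix (σ : E ≃ₐ[F] E)
    (h : ∀ x : M, σ (algebraMap M E x) = algebraMap M E x) :
    AlgEquiv.restrictNormalHom M σ = 1 := by
  ext x
  apply (algebraMap M E).injective
  have h1 : algebraMap M E (AlgEquiv.restrictNormalHom M σ x) = σ (algebraMap M E x) :=
    AlgEquiv.restrictNormal_commutes σ M x
  rw [h1, h]
  rfl

omit [NumberField F] [NumberField M] [NumberField E] [Algebra F M] [Algebra M E] [Algebra F E]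
  [IsScalarTower F M E] [IsGalois F M] [IsGalois F E] [Field F] [Field M] in
/-- For a prime `r`, either there is a primitive `r`-th root of unity or `1` is the only `r`-th
root of unity. -/
theorem root_dichotomy (r : ℕ) (hr : r.Prime) :
    (∃ ζ : E, IsPrimitiveRoot ζ r) ∨ ∀ t : E, t ^ r = 1 → t = 1 := by
  by_cases h : ∃ t : E, t ^ r = 1 ∧ t ≠ 1
  · left
    obtain ⟨t, ht, ht1⟩ := h
    refine ⟨t, ?_⟩
    have hord : orderOf t ∣ r := orderOf_dvd_of_pow_eq_one ht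
    rcases (Nat.dvd_prime hr).mp hord with h1 | h1
    · exact absurd (orderOf_eq_one_iff.mp h1) ht1
    · rw [← h1]; exact IsPrimitiveRoot.orderOf t
  · right
    intro t ht
    by_contra ht1
    exact h ⟨t, ht, ht1⟩

/-- **Cyclotomic reciprocity**, inside a Galois extension `E / F` in which the automorphisms
fixing the `r`-th roots of unity fix `M`; `M / F` unramified outside `r`. -/
theorem artin_span_eq_one_of_pow (p r : ℕ) [Fact r.Prime] (hp : Odd p)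
    (hdeg : Module.finrank F M = p)
    (hfix : ∀ σ : E ≃ₐ[F] E, (∀ t : E, t ^ r = 1 → σ t = t) →
      ∀ x : M, σ (algebraMap M E x) = algebraMap M E x)
    (φ : Ideal (𝓞 F) → (M ≃ₐ[F] M)) (hφ1 : φ ⊤ = 1)
    (hφmul : ∀ I J : Ideal (𝓞 F), I ≠ ⊥ → J ≠ ⊥ → φ (I * J) = φ I * φ J)
    (hφ : ∀ (P : Ideal (𝓞 F)) (Q : Ideal (𝓞 M)), P.IsPrime → P ≠ ⊥ → (r : 𝓞 F) ∉ P →
      Q.IsPrime → Q.under (𝓞 F) = P → IsArithFrobAt (𝓞 F) (φ P) Q)
    (hunr : ∀ Q : Ideal (𝓞 M), Q.IsPrime → Q ≠ ⊥ → (r : 𝓞 M) ∉ Q →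
      Q.inertia (M ≃ₐ[F] M) = ⊥)
    (x z : 𝓞 F)
    (hx : ∀ v : Ideal (𝓞 F), v.IsPrime → (r : 𝓞 F) ∈ v → x ∉ v ∧ x - z ^ p ∈ v) :
    φ (Ideal.span {x}) = 1 := by
  have hr : r.Prime := Fact.out
  have hp0 : p ≠ 0 := by rintro rfl; simp at hp
  have hcard : Nat.card (M ≃ₐ[F] M) = p := by
    rw [IsGalois.card_aut_eq_finrank, hdeg]
  have hpow : ∀ g : M ≃ₐ[F] M, g ^ p = 1 := fun g => by
    rw [← hcard]; exact pow_card_eq_one'
  rcases root_dichotomy (E := E) r hr with ⟨ζ, hζ⟩ | hno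
  · -- a primitive root exists
    obtain ⟨v₀, hv₀, hrv₀⟩ := exists_prime_mem_natCast (F := F) r hr
    have hx0 : x ≠ 0 := by rintro rfl; exact (hx v₀ hv₀ hrv₀).1 (zero_mem _)
    have hzv : ∀ v : Ideal (𝓞 F), v.IsPrime → (r : 𝓞 F) ∈ v → z ∉ v := by
      intro v hv hrv hz
      obtain ⟨h1, h2⟩ := hx v hv hrv
      apply h1
      have : x = (x - z ^ p) + z ^ p := by ring
      rw [this]
      exact Ideal.add_mem _ h2 (Ideal.pow_mem_of_mem _ hz p (Nat.pos_of_ne_zero hp0))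
    have hz0 : z ≠ 0 := by rintro rfl; exact hzv v₀ hv₀ hrv₀ (zero_mem _)
    have hIx : Ideal.span {x} ≠ ⊥ := by simpa [Ideal.span_singleton_eq_bot] using hx0
    have hIz : Ideal.span {z} ≠ ⊥ := by simpa [Ideal.span_singleton_eq_bot] using hz0
    obtain ⟨σx, hσx, hσxζ⟩ := exists_lift_of_coprime (N := E) r ζ hζ.pow_eq_one φ hφ1 hφmul hφ
      hunr (Ideal.span {x}) hIx
      (fun v hv hrv hle => (hx v hv hrv).1 (hle (Ideal.subset_span rfl)))
    obtain ⟨σz, hσz, hσzζ⟩ := exists_lift_of_coprime (N := E) r ζ hζ.pow_eq_one φ hφ1 hφmul hφ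
      hunr (Ideal.span {z}) hIz
      (fun v hv hrv hle => hzv v hv hrv (hle (Ideal.subset_span rfl)))
    rw [Ideal.absNorm_span_singleton] at hσxζ hσzζ
    have hnorm : ((Algebra.norm ℤ x : ℤ) : ZMod r) = ((Algebra.norm ℤ z : ℤ) : ZMod r) ^ p := by
      have := norm_congr_of_forall_prime r x (z ^ p) (fun v hv hrv => (hx v hv hrv).2)
      rw [this, map_pow, Int.cast_pow]
    have hexp : (((Algebra.norm ℤ x).natAbs ^ 2 : ℕ) : ZMod r) =
        ((((Algebra.norm ℤ z).natAbs ^ p) ^ 2 : ℕ) : ZMod r) := by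
      push_cast
      rw [natAbs_sq_cast, hnorm, pow_right_comm, pow_right_comm _ p 2, natAbs_sq_cast]
    have hζpow : ζ ^ ((Algebra.norm ℤ x).natAbs ^ 2) =
        ζ ^ (((Algebra.norm ℤ z).natAbs ^ p) ^ 2) := by
      rw [pow_eq_pow_mod _ hζ.pow_eq_one,
        pow_eq_pow_mod (((Algebra.norm ℤ z).natAbs ^ p) ^ 2) hζ.pow_eq_one]
      congr 1
      exact (ZMod.natCast_eq_natCast_iff' _ _ _).mp hexp
    have h1 : (σx ^ 2) ζ = ((σz ^ p) ^ 2) ζ := by
      rw [pow_apply_root σx hσxζ 2, pow_apply_root (σz ^ p) (pow_apply_root σz hσzζ p) 2]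
      exact hζpow
    have h2 : AlgEquiv.restrictNormalHom M (((σz ^ p) ^ 2)⁻¹ * σx ^ 2) = 1 := by
      apply restrict_eq_one_of_fix
      apply hfix
      have hfixζ : (((σz ^ p) ^ 2)⁻¹ * σx ^ 2) ζ = ζ := by
        rw [AlgEquiv.mul_apply, h1]
        exact ((σz ^ p) ^ 2).symm_apply_apply ζ
      intro t ht
      obtain ⟨i, -, rfl⟩ := hζ.eq_pow_of_pow_eq_one ht
      rw [map_pow, hfixζ]
    have h3 : (φ (Ideal.span {x})) ^ 2 = 1 := by
      rw [map_mul, map_inv, inv_mul_eq_one, map_pow, map_pow, map_pow, hσx, hσz, hpow,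
        one_pow] at h2
      exact h2.symm
    obtain ⟨k, hk⟩ := hp
    have h4 := hpow (φ (Ideal.span {x}))
    rw [hk, pow_succ, pow_mul, h3, one_pow, one_mul] at h4
    exact h4
  · -- no nontrivial root of unity: the Galois group of `M / F` is trivial
    have hall : ∀ σ : E ≃ₐ[F] E, AlgEquiv.restrictNormalHom M σ = 1 := fun σ =>
      restrict_eq_one_of_fix σ (hfix σ (fun t ht => by rw [hno t ht, map_one]))
    obtain ⟨σ, hσ⟩ := AlgEquiv.restrictNormalHom_surjective (F := F) (K₁ := M) E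
      (φ (Ideal.span {x}))
    rw [← hσ, hall]

/-- **Cyclotomic reciprocity** for a homomorphism on the monoid of nonzero ideals, inside a
Galois extension `E / F` in which the automorphisms fixing the `r`-th roots of unity fix `M`;
`M / F` unramified outside `r`. -/
theorem artinHom_span_eq_one (p r : ℕ) [Fact r.Prime] (hp : Odd p)
    (hdeg : Module.finrank F M = p)
    (hfix : ∀ σ : E ≃ₐ[F] E, (∀ t : E, t ^ r = 1 → σ t = t) →
      ∀ x : M, σ (algebraMap M E x) = algebraMap M E x)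
    (φ : (Ideal (𝓞 F))⁰ →* (M ≃ₐ[F] M))
    (hφ : ∀ (P : (Ideal (𝓞 F))⁰) (Q : Ideal (𝓞 M)), (P : Ideal (𝓞 F)).IsPrime →
      (r : 𝓞 F) ∉ (P : Ideal (𝓞 F)) → Q.IsPrime → Q.under (𝓞 F) = P →
      IsArithFrobAt (𝓞 F) (φ P) Q)
    (hunr : ∀ Q : Ideal (𝓞 M), Q.IsPrime → Q ≠ ⊥ → (r : 𝓞 M) ∉ Q →
      Q.inertia (M ≃ₐ[F] M) = ⊥)
    (x : 𝓞 F)
    (hx : ∀ v : Ideal (𝓞 F), v.IsPrime → (r : 𝓞 F) ∈ v → x ∉ v ∧ ∃ z : 𝓞 F, x - z ^ p ∈ v)
    (I : (Ideal (𝓞 F))⁰) (hI : (I : Ideal (𝓞 F)) = Ideal.span {x}) : φ I = 1 := by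
  classical
  obtain ⟨z, hz⟩ := exists_global_root p r x (fun v hv hrv => (hx v hv hrv).2)
  let φ' : Ideal (𝓞 F) → (M ≃ₐ[F] M) := fun J =>
    if h : J ≠ ⊥ then φ ⟨J, mem_nonZeroDivisors_of_ne_zero h⟩ else 1
  have hφ'def : ∀ J : (Ideal (𝓞 F))⁰, φ' J = φ J := by
    intro J
    have hJ : (J : Ideal (𝓞 F)) ≠ ⊥ := nonZeroDivisors.coe_ne_zero J
    simp only [φ', dif_pos hJ]
  have h1 : φ' ⊤ = 1 := by
    have := hφ'def 1
    rw [map_one] at this
    rw [← Ideal.one_eq_top]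
    exact this
  have hmul : ∀ I J : Ideal (𝓞 F), I ≠ ⊥ → J ≠ ⊥ → φ' (I * J) = φ' I * φ' J := by
    intro I J hI hJ
    have := hφ'def (⟨I, mem_nonZeroDivisors_of_ne_zero hI⟩ *
      ⟨J, mem_nonZeroDivisors_of_ne_zero hJ⟩)
    rw [map_mul, ← hφ'def, ← hφ'def] at this
    exact this
  have hfrob : ∀ (P : Ideal (𝓞 F)) (Q : Ideal (𝓞 M)), P.IsPrime → P ≠ ⊥ → (r : 𝓞 F) ∉ P →
      Q.IsPrime → Q.under (𝓞 F) = P → IsArithFrobAt (𝓞 F) (φ' P) Q := by
    intro P Q hP hP0 hrP hQ hQP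
    have := hφ ⟨P, mem_nonZeroDivisors_of_ne_zero hP0⟩ Q hP hrP hQ hQP
    rwa [← hφ'def] at this
  have := artin_span_eq_one_of_pow (E := E) p r hp hdeg hfix φ' h1 hmul hfrob hunr x z
    (fun v hv hrv => ⟨(hx v hv hrv).1, hz v hv hrv⟩)
  rw [← hI, hφ'def] at this
  exact this

/-- An element of the inertia group of a prime `𝔔` of `E` not containing `r` fixes the `r`-th
roots of unity. -/
theorem inertia_apply_root {r : ℕ} (hr0 : r ≠ 0) (τ : E ≃ₐ[F] E) (𝔔 : Ideal (𝓞 E))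
    [𝔔.IsPrime] (h𝔔0 : 𝔔 ≠ ⊥) (hτ : τ ∈ 𝔔.inertia (E ≃ₐ[F] E)) (hr𝔔 : (r : 𝓞 E) ∉ 𝔔)
    (t : E) (ht : t ^ r = 1) : τ t = t := by
  have hfin : Finite (𝓞 E ⧸ 𝔔) := Ideal.finiteQuotientOfFreeOfNeBot 𝔔 h𝔔0
  obtain ⟨σ, hσ⟩ := IsArithFrobAt.exists_of_isInvariant (𝓞 F) (E ≃ₐ[F] E) 𝔔
  have hτσ : IsArithFrobAt (𝓞 F) (τ * σ) 𝔔 := by
    intro x
    have h1 := hσ x
    have h2 : τ • (σ • x) - σ • x ∈ 𝔔 := hτ (σ • x)
    simp only [MulSemiringAction.toAlgHom_apply] at h1 ⊢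
    rw [mul_smul]
    have h3 := add_mem h2 h1
    rwa [sub_add_sub_cancel] at h3
  have ht1 : (σ.symm t) ^ r = 1 := by rw [← map_pow, ht, map_one]
  have e1 := frob_apply_root ht1 hr0 σ 𝔔 hσ hr𝔔
  have e2 := frob_apply_root ht1 hr0 (τ * σ) 𝔔 hτσ hr𝔔
  rw [AlgEquiv.mul_apply, AlgEquiv.apply_symm_apply] at e2
  rw [AlgEquiv.apply_symm_apply] at e1
  rw [e2, ← e1]

/-- If every automorphism of `E / F` fixing the `r`-th roots of unity fixes `M`, then `M / F` is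
unramified at the primes not containing `r`. -/
theorem inertia_eq_bot_of_fix (r : ℕ) (hr0 : r ≠ 0)
    (hfix : ∀ σ : E ≃ₐ[F] E, (∀ t : E, t ^ r = 1 → σ t = t) →
      ∀ x : M, σ (algebraMap M E x) = algebraMap M E x)
    (Q : Ideal (𝓞 M)) (hQ : Q.IsPrime) (hQ0 : Q ≠ ⊥) (hrQ : (r : 𝓞 M) ∉ Q) :
    Q.inertia (M ≃ₐ[F] M) = ⊥ := by
  obtain ⟨𝔔, -, h𝔔p, h𝔔Q⟩ :=
    Ideal.exists_ideal_over_prime_of_isIntegral Q (⊥ : Ideal (𝓞 E)) (by simp)
  have h𝔔0 : 𝔔 ≠ ⊥ := by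
    rintro rfl
    apply hQ0
    rw [← h𝔔Q]
    exact Ideal.comap_bot_of_injective _ (FaithfulSMul.algebraMap_injective (𝓞 M) (𝓞 E))
  have hr𝔔 : (r : 𝓞 E) ∉ 𝔔 := by
    intro h
    apply hrQ
    rw [← h𝔔Q, Ideal.mem_comap, map_natCast]
    exact h
  rw [Subgroup.eq_bot_iff_forall]
  intro τ hτ
  have hτ' : τ ∈ (𝔔.under (𝓞 M)).inertia (M ≃ₐ[F] M) := by
    rw [Ideal.under_def, h𝔔Q]; exact hτ
  obtain ⟨τ', hτ'res, hτ'in⟩ := Fermat.Agent.Lib.InertiaTower.exists_inertia_lift 𝔔 τ hτ'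
  rw [← hτ'res]
  exact restrict_eq_one_of_fix τ'
    (hfix τ' (fun t ht => inertia_apply_root hr0 τ' 𝔔 h𝔔0 hτ'in hr𝔔 t ht))

end Core

section Plan

variable {F M E : Type} [Field F] [Field M] [Field E] [NumberField F] [NumberField M]
  [NumberField E] [Algebra F M] [Algebra M E] [Algebra F E] [IsScalarTower F M E]
  [IsGalois F M] [IsGalois F E]

/-- `CycHyp` when `M / F` is unramified outside `r`. -/
theorem cycHyp_of_unram_outside (p r : ℕ) (hr : r.Prime) (hp : Odd p)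
    (hdeg : Module.finrank F M = p)
    (art : (Ideal (𝓞 F))⁰ →* (M ≃ₐ[F] M)) (hart : IsArt F M art)
    (hfix : ∀ σ : E ≃ₐ[F] E, (∀ t : E, t ^ r = 1 → σ t = t) →
      ∀ x : M, σ (algebraMap M E x) = algebraMap M E x)
    (hunr : ∀ Q : Ideal (𝓞 M), Q.IsPrime → Q ≠ ⊥ → (r : 𝓞 M) ∉ Q →
      Q.inertia (M ≃ₐ[F] M) = ⊥) :
    CycHyp p art r := by
  have : Fact r.Prime := ⟨hr⟩
  intro x hx0 hx
  exact artinHom_span_eq_one (E := E) p r hp hdeg hfix art
    (fun P Q hP _ hQ hQP => hart P Q hP hQ hQP) hunr x hx _ rfl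

/-- `CycHyp` when `M / F` is unramified. -/
theorem cycHyp_of_isUnram (p r : ℕ) (hr : r.Prime) (hp : Odd p)
    (hdeg : Module.finrank F M = p)
    (art : (Ideal (𝓞 F))⁰ →* (M ≃ₐ[F] M)) (hart : IsArt F M art)
    (hfix : ∀ σ : E ≃ₐ[F] E, (∀ t : E, t ^ r = 1 → σ t = t) →
      ∀ x : M, σ (algebraMap M E x) = algebraMap M E x)
    (hunr : IsUnram F M) : CycHyp p art r :=
  cycHyp_of_unram_outside (E := E) p r hr hp hdeg art hart hfix
    (fun Q hQ hQ0 _ => hunr Q hQ hQ0)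

/-- **Explicit cyclotomic reciprocity**, the contract of the plan. -/
theorem crStmt (p : ℕ) : CRStmt p := by
  intro hp h3 F M E _ _ _ _ _ _ _ _ _ _ _ _ hdeg art hart r hr hfix
  have hodd : Odd p := hp.odd_of_ne_two (by omega)
  exact cycHyp_of_unram_outside (E := E) p r hr hodd hdeg art hart hfix
    (fun Q hQ hQ0 hrQ => inertia_eq_bot_of_fix r hr.ne_zero hfix Q hQ hQ0 hrQ)

end Plan

end Fermat.Agent.S14.Artin.CR
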