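import Mathlib
import Fermat.Agent.S14.Artin.Plan

/-!
# S14, Route A: the crossing step, abstract part

`cross_of_fields`: given towers `K ⊆ L ⊆ M`, `K ⊆ F ⊆ M ⊆ E` of number fields where `L / K` and
`M / F` are unramified Galois of degree `p`, `Gal(M/F) → Gal(L/K)` is injective and `M` is
cyclotomic over `F` at the prime `r` (in the sense of `CRStmt`), an ideal of `K` which is the
norm of an ideal of `F` prime to `r` and has trivial Artin symbol has its class in the norm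
classes of `L / K`.  The inputs `ArtExistsStmt`, `SIStmt`, `CRStmt`, `NormStmt` are hypotheses.
-/

set_option autoImplicit false

open scoped NumberField nonZeroDivisors

namespace Fermat.Agent.S14.Artin.Cross

open Fermat.Agent.S14.Artin

section ClassGroupLift

variable {R : Type*} [CommRing R] [IsDedekindDomain R]

/-- The principal nonzero ideal generated by a nonzero element. -/
noncomputable def spanNZ (x : R) (hx : x ≠ 0) : (Ideal R)⁰ :=
  ⟨Ideal.span {x}, mem_nonZeroDivisors_iff_ne_zero.2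
    (by simpa [Ideal.span_singleton_eq_bot] using hx)⟩

@[simp] theorem coe_spanNZ (x : R) (hx : x ≠ 0) : ((spanNZ x hx : (Ideal R)⁰) : Ideal R) =
    Ideal.span {x} := rfl

/-- A monoid hom from the nonzero ideals to a commutative group which kills the principal ideals
factors through the class group. -/
theorem exists_classGroup_lift {A : Type*} [CommGroup A] (φ : (Ideal R)⁰ →* A)
    (hφ : ∀ (x : R) (hx : x ≠ 0), φ (spanNZ x hx) = 1) :
    ∃ ψ : ClassGroup R →* A, ∀ I : (Ideal R)⁰, ψ (ClassGroup.mk0 I) = φ I := by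
  classical
  have hwd : ∀ I J : (Ideal R)⁰, ClassGroup.mk0 I = ClassGroup.mk0 J → φ I = φ J := by
    intro I J h
    obtain ⟨x, y, hx, hy, hxy⟩ := ClassGroup.mk0_eq_mk0_iff.1 h
    have h2 : spanNZ x hx * I = spanNZ y hy * J := Subtype.ext (by simpa using hxy)
    have h3 := congrArg φ h2
    rw [map_mul, map_mul, hφ, hφ, one_mul, one_mul] at h3
    exact h3
  let rep : ClassGroup R → (Ideal R)⁰ := fun c => (ClassGroup.mk0_surjective c).choose
  have hrep : ∀ c, ClassGroup.mk0 (rep c) = c := fun c => (ClassGroup.mk0_surjective c).choose_spec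
  refine ⟨⟨⟨fun c => φ (rep c), ?_⟩, ?_⟩, ?_⟩
  · rw [← map_one φ]
    exact hwd _ _ (by rw [hrep, map_one])
  · intro c d
    show φ (rep (c * d)) = φ (rep c) * φ (rep d)
    rw [← map_mul]
    exact hwd _ _ (by rw [hrep, map_mul, hrep, hrep])
  · intro I
    exact hwd _ _ (hrep _)

end ClassGroupLift

section RelNorm

variable (K F : Type) [Field K] [Field F] [NumberField K] [NumberField F] [Algebra K F]

/-- The relative ideal norm as a monoid hom on nonzero ideals. -/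
noncomputable def relNorm0 : (Ideal (𝓞 F))⁰ →* (Ideal (𝓞 K))⁰ where
  toFun I := ⟨Ideal.relNorm (𝓞 K) (I : Ideal (𝓞 F)), mem_nonZeroDivisors_iff_ne_zero.2 (by
    rw [Ne, Ideal.zero_eq_bot, Ideal.relNorm_eq_bot_iff]
    exact mem_nonZeroDivisors_iff_ne_zero.1 I.2)⟩
  map_one' := Subtype.ext (by simp)
  map_mul' I J := Subtype.ext (by simp)

@[simp] theorem coe_relNorm0 (I : (Ideal (𝓞 F))⁰) :
    ((relNorm0 K F I : (Ideal (𝓞 K))⁰) : Ideal (𝓞 K)) =
      Ideal.relNorm (𝓞 K) (I : Ideal (𝓞 F)) := rfl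

/-- The norm map on class groups. -/
theorem exists_classGroup_norm :
    ∃ ψ : ClassGroup (𝓞 F) →* ClassGroup (𝓞 K),
      ∀ I : (Ideal (𝓞 F))⁰, ψ (ClassGroup.mk0 I) = ClassGroup.mk0 (relNorm0 K F I) := by
  refine exists_classGroup_lift ((ClassGroup.mk0).comp (relNorm0 K F)) ?_
  intro x hx
  rw [MonoidHom.comp_apply, ClassGroup.mk0_eq_one_iff]
  rw [coe_relNorm0, coe_spanNZ, Ideal.relNorm_singleton]
  exact ⟨⟨_, rfl⟩⟩

end RelNorm

section Basic

variable {F M : Type} [Field F] [Field M] [NumberField F] [NumberField M] [Algebra F M]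
  [IsGalois F M]

/-- In an unramified extension, the Artin symbol of a split prime is trivial. -/
theorem art_eq_one_of_isSplit (hunr : IsUnram F M) (art : (Ideal (𝓞 F))⁰ →* (M ≃ₐ[F] M))
    (hart : IsArt F M art) (P : (Ideal (𝓞 F))⁰) (hP : (P : Ideal (𝓞 F)).IsPrime)
    (hs : IsSplit F M P) : art P = 1 := by
  have hP0 : (P : Ideal (𝓞 F)) ≠ ⊥ := mem_nonZeroDivisors_iff_ne_zero.1 P.2
  obtain ⟨⟨Q, hQp, hQP⟩⟩ := (P : Ideal (𝓞 F)).nonempty_primesOver (S := 𝓞 M)
  have hQ0 : Q ≠ ⊥ := Ideal.ne_bot_of_liesOver_of_ne_bot hP0 Q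
  have h1 := hart P Q hP hQp hQP.over.symm
  have h2 := hs Q hQp hQP.over.symm
  have h3 := IsArithFrobAt.mul_inv_mem_inertia h1 h2
  rw [hunr Q hQp hQ0, Subgroup.mem_bot] at h3
  simpa using h3

/-- A prime with trivial Artin symbol splits. -/
theorem isSplit_of_art_eq_one (art : (Ideal (𝓞 F))⁰ →* (M ≃ₐ[F] M))
    (hart : IsArt F M art) (P : (Ideal (𝓞 F))⁰) (hP : (P : Ideal (𝓞 F)).IsPrime)
    (h : art P = 1) : IsSplit F M P := by
  intro Q hQ hQP
  have := hart P Q hP hQ hQP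
  rwa [h] at this

theorem mk0_mem_nmClasses_of_isSplit (p : ℕ) (P : (Ideal (𝓞 F))⁰)
    (hP : (P : Ideal (𝓞 F)).IsPrime) (hs : IsSplit F M P) :
    ClassGroup.mk0 P ∈ nmClasses F M p :=
  Subgroup.subset_closure (Or.inl ⟨P, hP, hs, rfl⟩)

theorem pow_mem_nmClasses (p : ℕ) (d : ClassGroup (𝓞 F)) : d ^ p ∈ nmClasses F M p :=
  Subgroup.subset_closure (Or.inr ⟨d, rfl⟩)

end Basic

section Push

variable (p : ℕ) (K L F M : Type) [Field K] [Field L] [Field F] [Field M]
  [NumberField K] [NumberField L] [NumberField F] [NumberField M]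
  [Algebra K L] [Algebra K F] [Algebra F M] [Algebra L M] [Algebra K M]
  [IsScalarTower K F M] [IsScalarTower K L M] [IsGalois K L] [IsGalois F M]

/-- Push-down: the norm of an ideal of `F` whose class lies in the norm classes of `M / F` has
its class in the norm classes of `L / K`. -/
theorem mk0_relNorm0_mem_nmClasses (hp : p.Prime) (hNorm : NormStmt)
    (hdegK : Module.finrank K L = p) (hunrK : IsUnram K L)
    (art : (Ideal (𝓞 K))⁰ →* (L ≃ₐ[K] L)) (hart : IsArt K L art)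
    (hunr : IsUnram F M) (art' : (Ideal (𝓞 F))⁰ →* (M ≃ₐ[F] M)) (hart' : IsArt F M art')
    (𝔄 : (Ideal (𝓞 F))⁰) (h : ClassGroup.mk0 𝔄 ∈ nmClasses F M p) :
    ClassGroup.mk0 (relNorm0 K F 𝔄) ∈ nmClasses K L p := by
  obtain ⟨ψ, hψ⟩ := exists_classGroup_norm K F
  rw [← hψ]
  have hle : nmClasses F M p ≤ (nmClasses K L p).comap ψ := by
    refine (Subgroup.closure_le _).2 ?_
    rintro c (⟨𝔓, h𝔓, hs, rfl⟩ | ⟨d, rfl⟩)
    · show ψ (ClassGroup.mk0 𝔓) ∈ nmClasses K L p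
      rw [hψ]
      have h𝔓0 : (𝔓 : Ideal (𝓞 F)) ≠ ⊥ := mem_nonZeroDivisors_iff_ne_zero.1 𝔓.2
      have h𝔓max : (𝔓 : Ideal (𝓞 F)).IsMaximal := h𝔓.isMaximal h𝔓0
      set P : Ideal (𝓞 K) := (𝔓 : Ideal (𝓞 F)).under (𝓞 K) with hPdef
      have hPprime : P.IsPrime := Ideal.IsPrime.under (𝓞 K) _
      have hP0 : P ≠ ⊥ := Ideal.IsIntegral.comap_ne_bot (𝓞 K) h𝔓0
      have hPmax : P.IsMaximal := hPprime.isMaximal hP0
      have hlo : (𝔓 : Ideal (𝓞 F)).LiesOver P := ⟨rfl⟩
      let 𝔭 : (Ideal (𝓞 K))⁰ := ⟨P, mem_nonZeroDivisors_iff_ne_zero.2 hP0⟩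
      have hrel : relNorm0 K F 𝔓 = 𝔭 ^ (𝔓 : Ideal (𝓞 F)).inertiaDeg (𝓞 K) := by
        apply Subtype.ext
        rw [coe_relNorm0, Ideal.relNorm_eq_pow_of_isMaximal (𝔓 : Ideal (𝓞 F)) P]
        simp [𝔭]
      set f := (𝔓 : Ideal (𝓞 F)).inertiaDeg (𝓞 K) with hf
      -- the Artin symbol of the norm is trivial
      have h1 : art' 𝔓 = 1 := art_eq_one_of_isSplit hunr art' hart' 𝔓 h𝔓 hs
      have h2 : art (relNorm0 K F 𝔓) = 1 := by
        ext m
        have := hNorm K F L M hunrK art art' hart hart' 𝔓 (relNorm0 K F 𝔓) rfl m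
        rw [h1] at this
        exact (algebraMap L M).injective this
      rw [hrel, map_pow] at h2
      rw [hrel, map_pow]
      have hcard : Nat.card (L ≃ₐ[K] L) = p := by
        rw [IsGalois.card_aut_eq_finrank, hdegK]
      have hord : orderOf (art 𝔭) ∣ p := hcard ▸ orderOf_dvd_natCard (art 𝔭)
      rcases (Nat.dvd_prime hp).1 hord with h1' | hp'
      · have : art 𝔭 = 1 := orderOf_eq_one_iff.1 h1'
        exact Subgroup.pow_mem _ (mk0_mem_nmClasses_of_isSplit p 𝔭 hPprime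
          (isSplit_of_art_eq_one art hart 𝔭 hPprime this)) _
      · have hpf : p ∣ f := hp' ▸ orderOf_dvd_of_pow_eq_one h2
        obtain ⟨k, hk⟩ := hpf
        rw [hk, mul_comm, pow_mul]
        exact pow_mem_nmClasses p _
    · show ψ (d ^ p) ∈ nmClasses K L p
      rw [map_pow]
      exact pow_mem_nmClasses p _
  exact hle h

end Push

section Fields

/-- **Crossing, abstract form.** -/
theorem cross_of_fields (p : ℕ) (hp : p.Prime) (h3 : 3 ≤ p)
    (hArt : ArtExistsStmt p) (hSI : SIStmt p) (hCR : CRStmt p) (hNorm : NormStmt)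
    (K L F M E : Type) [Field K] [Field L] [Field F] [Field M] [Field E]
    [NumberField K] [NumberField L] [NumberField F] [NumberField M] [NumberField E]
    [Algebra K L] [Algebra K F] [Algebra F M] [Algebra L M] [Algebra K M] [Algebra M E]
    [Algebra F E] [IsScalarTower K F M] [IsScalarTower K L M] [IsScalarTower F M E]
    [IsGalois K L] [IsGalois F M] [IsGalois F E]
    (hζ : ∃ ζ : F, IsPrimitiveRoot ζ p)
    (hdegK : Module.finrank K L = p) (hunrK : IsUnram K L)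
    (art : (Ideal (𝓞 K))⁰ →* (L ≃ₐ[K] L)) (hart : IsArt K L art)
    (hdeg : Module.finrank F M = p) (hunr : IsUnram F M)
    (hinj : ∀ τ : M ≃ₐ[F] M, (∀ x : L, τ (algebraMap L M x) = algebraMap L M x) → τ = 1)
    (r : ℕ) (hr : r.Prime) (hrp : r ≠ p)
    (hcyc : ∀ σ : E ≃ₐ[F] E, (∀ t : E, t ^ r = 1 → σ t = t) →
      ∀ x : M, σ (algebraMap M E x) = algebraMap M E x)
    (𝔄 : (Ideal (𝓞 F))⁰)
    (h𝔄r : ∀ v : Ideal (𝓞 F), v.IsPrime → (r : 𝓞 F) ∈ v → ¬ (𝔄 : Ideal (𝓞 F)) ≤ v)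
    (𝔞 : (Ideal (𝓞 K))⁰)
    (h𝔞 : (𝔞 : Ideal (𝓞 K)) = Ideal.relNorm (𝓞 K) (𝔄 : Ideal (𝓞 F)))
    (hker : art 𝔞 = 1) :
    ClassGroup.mk0 𝔞 ∈ nmClasses K L p := by
  obtain ⟨art', hart'⟩ := hArt hp F M hdeg hunr
  have hcychyp : CycHyp p art' r := hCR hp h3 F M E hdeg art' hart' r hr hcyc
  have h𝔞' : 𝔞 = relNorm0 K F 𝔄 := Subtype.ext h𝔞
  have h1 : art' 𝔄 = 1 := by
    apply hinj
    intro x
    have := hNorm K F L M hunrK art art' hart hart' 𝔄 𝔞 h𝔞 x
    rw [hker] at this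
    exact this.symm
  have h2 : ClassGroup.mk0 𝔄 ∈ nmClasses F M p :=
    hSI hp h3 F M hζ hdeg hunr art' hart' r hr hrp hcychyp 𝔄 h𝔄r h1
  rw [h𝔞']
  exact mk0_relNorm0_mem_nmClasses p K L F M hp hNorm hdegK hunrK art hart hunr art' hart' 𝔄 h2

end Fields

end Fermat.Agent.S14.Artin.Cross
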