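import Mathlib
import Fermat.Agent.Lib.NoTotalSplit

/-!
# S14, Route A: the crossing step, Galois-theoretic part

Mathlib-only ingredients of the crossing argument (`Fermat/Agent/S14/Artin/CrossPair.lean`):

* `key_exponent`: the exponent argument in `Gal(L/K) × (ℤ/r)ˣ`;
* fixed fields: for `H ≤ Gal(Ω/K)`, `F := Ω^H` and `M := L·F` (as the fixed field of the kernel of
  the restriction to `L`): `M / F` is Galois, `Gal(M/F) → Gal(L/K)` is injective, degree formula;
* Frobenius elements: restriction to a subextension, action on roots of unity, and the relative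
  norm of the prime of `F` under a prime whose Frobenius fixes `F`;
* `Ω = L(ζ_r)`: it is Galois over `K`, and `Gal(Ω/K) → Gal(L/K) × (ℤ/r)ˣ` is injective.
-/

set_option autoImplicit false
set_option linter.unusedSectionVars false

open scoped NumberField nonZeroDivisors

namespace Fermat.Agent.S14.Artin.Cross

section Group

/-- The exponent argument of the crossing. -/
theorem key_exponent {G A : Type*} [Group G] [CommGroup A] (p : ℕ) (hp : p.Prime)
    (hG : ∀ g : G, g ^ p = 1) (hcomm : ∀ x y : G, x * y = y * x)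
    (g₁ g₂ : G) (a₁ a₂ : A) (a b : ℕ) (hpa : ¬ p ∣ a)
    (hg : g₁ ^ a * g₂ ^ b = 1) (w : A) (hw : w ^ p = a₁ ^ a * a₂ ^ b)
    (hn : ¬ ∃ z : A, z ^ p = a₂) (j k : ℤ) (h : a₁ ^ j * a₂ ^ k = 1) :
    g₁ ^ j * g₂ ^ k = 1 := by
  -- step 1
  have e1 : a₁ ^ (j * a) * a₂ ^ (k * a) = 1 := by
    rw [zpow_mul, zpow_mul, ← mul_zpow, h, one_zpow]
  have e2 : a₁ ^ ((a : ℤ) * j) * a₂ ^ ((b : ℤ) * j) = w ^ ((p : ℤ) * j) := by
    rw [zpow_mul, zpow_mul, zpow_mul, ← mul_zpow, zpow_natCast, zpow_natCast, zpow_natCast, hw]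
  have e3 : a₂ ^ (k * a - b * j) * w ^ ((p : ℤ) * j) = 1 := by
    rw [zpow_sub, ← e2, mul_comm (a₁ ^ ((a : ℤ) * j)), ← mul_assoc, inv_mul_cancel_right,
      mul_comm, mul_comm (a : ℤ) j]
    exact e1
  -- step 2
  have hdvd : (p : ℤ) ∣ k * a - b * j := by
    by_contra hnd
    have hcop : IsCoprime (p : ℤ) (k * a - b * j) :=
      ((Nat.prime_iff_prime_int.1 hp).irreducible.coprime_iff_not_dvd).2 hnd
    obtain ⟨s, t, hst⟩ := hcop
    apply hn
    refine ⟨a₂ ^ s * w ^ (-(j * t)), ?_⟩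
    have e4 : a₂ ^ (k * a - b * j) = w ^ (-((p : ℤ) * j)) := by
      rw [zpow_neg]
      exact eq_inv_of_mul_eq_one_left e3
    calc (a₂ ^ s * w ^ (-(j * t))) ^ p = (a₂ ^ s * w ^ (-(j * t))) ^ (p : ℤ) := (zpow_natCast _ _).symm
      _ = a₂ ^ (s * p) * (w ^ (-((p : ℤ) * j))) ^ t := by
          rw [mul_zpow, ← zpow_mul, ← zpow_mul, ← zpow_mul]
          congr 2
          ring
      _ = a₂ ^ (s * p) * a₂ ^ (t * (k * a - b * j)) := by
          rw [← e4, ← zpow_mul, mul_comm t]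
      _ = a₂ ^ (s * p + t * (k * a - b * j)) := (zpow_add _ _ _).symm
      _ = a₂ := by rw [hst, zpow_one]
  obtain ⟨m, hm⟩ := hdvd
  -- step 3
  have hc : Commute (g₁ ^ j) (g₂ ^ k) := hcomm _ _
  have e5 : (g₁ ^ j * g₂ ^ k) ^ a = 1 := by
    have hka : k * a = b * j + p * m := by linarith
    calc (g₁ ^ j * g₂ ^ k) ^ a = (g₁ ^ j * g₂ ^ k) ^ (a : ℤ) := (zpow_natCast _ _).symm
      _ = g₁ ^ (j * a) * g₂ ^ (k * a) := by rw [hc.mul_zpow, ← zpow_mul, ← zpow_mul]
      _ = g₁ ^ ((a : ℤ) * j) * g₂ ^ ((b : ℤ) * j) * g₂ ^ ((p : ℤ) * m) := by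
          rw [hka, zpow_add, mul_assoc, mul_comm j]
      _ = (g₁ ^ a * g₂ ^ b) ^ j * (g₂ ^ p) ^ m := by
          have hc' : Commute (g₁ ^ a) (g₂ ^ b) := hcomm _ _
          rw [hc'.mul_zpow, zpow_mul, zpow_mul, zpow_mul, zpow_natCast, zpow_natCast,
            zpow_natCast]
      _ = 1 := by rw [hg, hG, one_zpow, one_zpow, mul_one]
  have e6 : (g₁ ^ j * g₂ ^ k) ^ Nat.gcd a p = 1 := pow_gcd_eq_one.2 ⟨e5, hG _⟩
  have hgcd : Nat.gcd a p = 1 := by
    rw [Nat.gcd_comm]
    exact (Nat.Prime.coprime_iff_not_dvd hp).2 hpa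
  rwa [hgcd, pow_one] at e6

/-- A group of prime order is commutative. -/
theorem mul_comm_of_card_prime {G : Type*} [Group G] {p : ℕ} (hp : p.Prime)
    (hcard : Nat.card G = p) (x y : G) : x * y = y * x := by
  have : Fact p.Prime := ⟨hp⟩
  have : IsCyclic G := isCyclic_of_prime_card hcard
  let _ := IsCyclic.commGroup (α := G)
  exact mul_comm x y

theorem pow_card_prime_eq_one {G : Type*} [Group G] {p : ℕ}
    (hcard : Nat.card G = p) (x : G) : x ^ p = 1 := by
  rw [← hcard]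
  exact pow_card_eq_one'

end Group


section Fixed

variable {K : Type*} (L : Type*) {Ω : Type*} [Field K] [Field L] [Field Ω] [Algebra K L] [Algebra L Ω]
  [Algebra K Ω] [IsScalarTower K L Ω] [IsGalois K L] [IsGalois K Ω] [FiniteDimensional K Ω]
  (H : Subgroup (Ω ≃ₐ[K] Ω))

/-- An automorphism over the fixed field of `H` lies in `H`. -/
theorem restrictScalars_mem (τ : Ω ≃ₐ[↥(IntermediateField.fixedField H)] Ω) :
    τ.restrictScalars K ∈ H := by
  have h := IntermediateField.fixingSubgroup_fixedField H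
  have h1 : τ.restrictScalars K ∈ (IntermediateField.fixedField H).fixingSubgroup := by
    rw [IntermediateField.mem_fixingSubgroup_iff]
    intro x hx
    exact τ.commutes ⟨x, hx⟩
  exact h.le h1

/-- Restriction to `L` of the automorphisms over the fixed field of `H`. -/
noncomputable def resL : (Ω ≃ₐ[↥(IntermediateField.fixedField H)] Ω) →* (L ≃ₐ[K] L) :=
  (AlgEquiv.restrictNormalHom L).comp (AlgEquiv.restrictScalarsHom K)

theorem resL_commutes (τ : Ω ≃ₐ[↥(IntermediateField.fixedField H)] Ω) (x : L) :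
    algebraMap L Ω (resL L H τ x) = τ (algebraMap L Ω x) :=
  AlgEquiv.restrictNormal_commutes (τ.restrictScalars K) L x

/-- The compositum of `L` with the fixed field of `H`, as the fixed field of the kernel of the
restriction to `L`. -/
noncomputable abbrev MF : IntermediateField ↥(IntermediateField.fixedField H) Ω :=
  IntermediateField.fixedField (resL L H).ker

theorem algebraMap_mem_MF (x : L) : algebraMap L Ω x ∈ MF L H := by
  rw [IntermediateField.mem_fixedField_iff]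
  intro τ hτ
  rw [← resL_commutes, MonoidHom.mem_ker.1 hτ]
  rfl

/-- `L` maps into the compositum. -/
@[instance_reducible]
noncomputable def algLM : Algebra L ↥(MF L H) :=
  RingHom.toAlgebra ((algebraMap L Ω).codRestrict (MF L H) (algebraMap_mem_MF L H))

theorem coe_algebraMap_LM (x : L) :
    ((@algebraMap L ↥(MF L H) _ _ (algLM L H) x : ↥(MF L H)) : Ω) = algebraMap L Ω x := rfl

theorem isScalarTower_KLM : @IsScalarTower K L ↥(MF L H) _ (algLM L H).toSMul _ := by
  let _ := algLM L H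
  refine IsScalarTower.of_algebraMap_eq fun x => ?_
  apply Subtype.ext
  rw [coe_algebraMap_LM, ← IsScalarTower.algebraMap_apply K L Ω]
  rfl

theorem isGalois_MF : IsGalois ↥(IntermediateField.fixedField H) ↥(MF L H) :=
  IsGalois.of_fixedField_normal_subgroup (resL L H).ker

attribute [local instance] isGalois_MF

theorem finrank_MF :
    Module.finrank ↥(IntermediateField.fixedField H) ↥(MF L H) = Nat.card (resL L H).range := by
  rw [IntermediateField.finrank_eq_fixingSubgroup_index Ω (MF L H),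
    IntermediateField.fixingSubgroup_fixedField, Subgroup.index_ker]

/-- Elements of `H` as automorphisms over the fixed field. -/
theorem exists_of_mem (h : Ω ≃ₐ[K] Ω) (hh : h ∈ H) :
    ∃ τ : Ω ≃ₐ[↥(IntermediateField.fixedField H)] Ω, (∀ x, τ x = h x) ∧
      resL L H τ = AlgEquiv.restrictNormalHom L h := by
  have hh' : h ∈ (IntermediateField.fixedField H).fixingSubgroup := by
    rw [IntermediateField.fixingSubgroup_fixedField]; exact hh
  refine ⟨IntermediateField.fixingSubgroupEquiv _ ⟨h, hh'⟩, fun x => rfl, ?_⟩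
  ext x
  apply (algebraMap L Ω).injective
  rw [resL_commutes]
  exact (AlgEquiv.restrictNormal_commutes h L x).symm

/-- The restriction `Gal(M/F) → Gal(L/K)` is injective. -/
theorem eq_one_of_fix_L (τ : ↥(MF L H) ≃ₐ[↥(IntermediateField.fixedField H)] ↥(MF L H))
    (hτ : ∀ x : L, τ (@algebraMap L ↥(MF L H) _ _ (algLM L H) x) =
      @algebraMap L ↥(MF L H) _ _ (algLM L H) x) : τ = 1 := by
  obtain ⟨τ', rfl⟩ := AlgEquiv.restrictNormalHom_surjective (F := ↥(IntermediateField.fixedField H))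
    (K₁ := ↥(MF L H)) Ω τ
  have hker : τ' ∈ (resL L H).ker := by
    rw [MonoidHom.mem_ker]
    ext x
    apply (algebraMap L Ω).injective
    rw [resL_commutes]
    have h2 : algebraMap ↥(MF L H) Ω ((AlgEquiv.restrictNormalHom ↥(MF L H) τ')
        (@algebraMap L ↥(MF L H) _ _ (algLM L H) x)) =
        τ' (algebraMap ↥(MF L H) Ω (@algebraMap L ↥(MF L H) _ _ (algLM L H) x)) :=
      AlgEquiv.restrictNormal_commutes τ' ↥(MF L H) _
    rw [hτ x] at h2
    exact h2.symm
  ext y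
  have h3 := AlgEquiv.restrictNormal_commutes τ' ↥(MF L H) y
  have h4 : τ' (y : Ω) = y := (IntermediateField.mem_fixedField_iff _ _).1 y.2 τ' hker
  exact congrArg Subtype.val (Subtype.ext (h3.trans h4) : AlgEquiv.restrictNormalHom ↥(MF L H) τ' y = y)

end Fixed


section Frob

variable (K L Ω : Type*) [Field K] [Field L] [Field Ω] [NumberField K] [NumberField L]
  [NumberField Ω] [Algebra K L] [Algebra L Ω] [Algebra K Ω] [IsScalarTower K L Ω] [IsGalois K L]
  [IsGalois K Ω]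

theorem coe_galSmul (σ : L ≃ₐ[K] L) (x : 𝓞 L) : ((σ • x : 𝓞 L) : L) = σ (x : L) := rfl

theorem algebraMap_restrict_smul (σ : Ω ≃ₐ[K] Ω) (x : 𝓞 L) :
    algebraMap (𝓞 L) (𝓞 Ω) (AlgEquiv.restrictNormalHom L σ • x) =
      σ • algebraMap (𝓞 L) (𝓞 Ω) x := by
  apply NumberField.RingOfIntegers.ext
  show algebraMap L Ω (AlgEquiv.restrictNormalHom L σ (x : L)) = σ (algebraMap L Ω (x : L))
  exact AlgEquiv.restrictNormal_commutes σ L x

/-- A Frobenius element of `Ω / K` restricts to a Frobenius element of `L / K`. -/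
theorem isArithFrobAt_restrict (σ : Ω ≃ₐ[K] Ω) (𝔔 : Ideal (𝓞 Ω))
    (h : IsArithFrobAt (𝓞 K) σ 𝔔) :
    IsArithFrobAt (𝓞 K) (AlgEquiv.restrictNormalHom L σ) (𝔔.under (𝓞 L)) := by
  intro x
  have hx := h (algebraMap (𝓞 L) (𝓞 Ω) x)
  rw [Ideal.under_under, Ideal.under, Ideal.mem_comap, map_sub, map_pow]
  have := algebraMap_restrict_smul K L Ω σ x
  simp only [MulSemiringAction.toAlgHom_apply] at hx ⊢
  rw [this]
  exact hx


/-- A Frobenius element acts on roots of unity of order prime to the residue characteristic by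
raising to the power `N(P)`. -/
theorem frob_apply_root (σ : Ω ≃ₐ[K] Ω) (𝔔 : Ideal (𝓞 Ω)) (h : IsArithFrobAt (𝓞 K) σ 𝔔)
    {ζ : Ω} {m : ℕ} (hζ : ζ ^ m = 1) (hm𝔔 : (m : 𝓞 Ω) ∉ 𝔔) :
    σ ζ = ζ ^ Nat.card (𝓞 K ⧸ 𝔔.under (𝓞 K)) := by
  have hm : m ≠ 0 := by
    rintro rfl
    exact hm𝔔 (by simp)
  have hint : IsIntegral ℤ ζ := by
    refine IsIntegral.of_pow (Nat.pos_of_ne_zero hm) ?_
    rw [hζ]
    exact isIntegral_one
  let ζ' : 𝓞 Ω := ⟨ζ, hint⟩
  have hζ' : ζ' ^ m = 1 := by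
    apply NumberField.RingOfIntegers.ext
    show ζ ^ m = 1
    exact hζ
  have := AlgHom.IsArithFrobAt.apply_of_pow_eq_one h hζ' hm𝔔
  exact congrArg (fun x : 𝓞 Ω => (x : Ω)) this

/-- If a Frobenius element at `𝔔` fixes the intermediate field `F`, the prime of `F` under `𝔔`
has residue degree one over `K`, so its relative norm is the prime of `K` under `𝔔`. -/
theorem relNorm_under_eq (F : Type*) [Field F] [NumberField F] [Algebra K F] [Algebra F Ω]
    [IsScalarTower K F Ω] (σ : Ω ≃ₐ[K] Ω)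
    (hσ : ∀ x : F, σ (algebraMap F Ω x) = algebraMap F Ω x)
    (𝔔 : Ideal (𝓞 Ω)) [h𝔔p : 𝔔.IsPrime] (h𝔔 : 𝔔 ≠ ⊥) (h : IsArithFrobAt (𝓞 K) σ 𝔔) :
    Ideal.relNorm (𝓞 K) (𝔔.under (𝓞 F)) = 𝔔.under (𝓞 K) := by
  set P' : Ideal (𝓞 F) := 𝔔.under (𝓞 F) with hP'
  have hP'prime : P'.IsPrime := Ideal.IsPrime.under (𝓞 F) 𝔔
  have hP'0 : P' ≠ ⊥ := Ideal.IsIntegral.comap_ne_bot (𝓞 F) h𝔔
  have hunder : P'.under (𝓞 K) = 𝔔.under (𝓞 K) := Ideal.under_under (A := 𝓞 K) (B := 𝓞 F) 𝔔
  have hfr : ∀ x : 𝓞 F, x - x ^ Nat.card (𝓞 K ⧸ P'.under (𝓞 K)) ∈ P' := by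
    intro x
    have hx := h (algebraMap (𝓞 F) (𝓞 Ω) x)
    rw [hunder, hP', Ideal.under, Ideal.mem_comap, map_sub, map_pow]
    have hfix : σ • algebraMap (𝓞 F) (𝓞 Ω) x = algebraMap (𝓞 F) (𝓞 Ω) x := by
      apply NumberField.RingOfIntegers.ext
      exact hσ (x : F)
    simp only [MulSemiringAction.toAlgHom_apply] at hx
    rwa [hfix] at hx
  have habs := Fermat.Agent.Lib.NoTotalSplit.absNorm_eq_of_forall_sub_pow_mem hP'prime hP'0 hfr
  set P : Ideal (𝓞 K) := 𝔔.under (𝓞 K) with hP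
  have hPprime : P.IsPrime := Ideal.IsPrime.under (𝓞 K) 𝔔
  have hP0 : P ≠ ⊥ := Ideal.IsIntegral.comap_ne_bot (𝓞 K) h𝔔
  have hPmax : P.IsMaximal := hPprime.isMaximal hP0
  have hP'max : P'.IsMaximal := hP'prime.isMaximal hP'0
  have hlo : P'.LiesOver P := ⟨hunder.symm⟩
  have hrel := Ideal.relNorm_eq_pow_of_isMaximal P' P
  have h1 : Ideal.absNorm (Ideal.relNorm (𝓞 K) P') = Ideal.absNorm P' := Ideal.absNorm_relNorm (𝓞 K) (𝓞 F) P'
  rw [hrel, map_pow, habs, hunder] at h1
  have h2 : 1 < Ideal.absNorm P := Fermat.Agent.Lib.NoTotalSplit.one_lt_absNorm_of_isPrime hPprime hP0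
  have h3 : P'.inertiaDeg (𝓞 K) = 1 := by
    have : Ideal.absNorm P ^ P'.inertiaDeg (𝓞 K) = Ideal.absNorm P ^ 1 := by rw [h1, pow_one]
    exact Nat.pow_right_injective h2 this
  rw [hrel, h3, pow_one]

end Frob

section Om
variable (K L : Type) [Field K] [Field L] [NumberField K] [NumberField L] [Algebra K L] [IsGalois K L]
variable (n : ℕ) [NeZero n]

/-- The big field `Ω = L(ζ_n)`. -/
abbrev Om : Type := CyclotomicField n L

/-- The distinguished primitive `n`-th root of unity of `Ω`. -/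
noncomputable abbrev zetaOm : Om L n := IsCyclotomicExtension.zeta n L (Om L n)

theorem zetaOm_spec : IsPrimitiveRoot (zetaOm L n) n := IsCyclotomicExtension.zeta_spec n L (Om L n)

/-- `Ω / K` is Galois. -/
theorem isGalois_Om : IsGalois K (Om L n) := by
  have hζ := zetaOm_spec L n
  set ζ := zetaOm L n with hζdef
  let E : IntermediateField K (Om L n) := (IsScalarTower.toAlgHom K L (Om L n)).fieldRange
  let F : IntermediateField K (Om L n) := IntermediateField.adjoin K {ζ}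
  have : Normal K E := by
    have e : L ≃ₐ[K] E := AlgEquiv.ofInjectiveField (IsScalarTower.toAlgHom K L (Om L n))
    exact Normal.of_algEquiv e
  have : Normal K F := by
    have : IsCyclotomicExtension {n} K F := hζ.intermediateField_adjoin_isCyclotomicExtension K
    exact (IsCyclotomicExtension.isGalois {n} K F).to_normal
  have htop : E ⊔ F = ⊤ := by
    rw [eq_top_iff]
    rintro x -
    have hx : x ∈ Algebra.adjoin L {ζ} := by
      rw [IsCyclotomicExtension.adjoin_primitive_root_eq_top hζ]; trivial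
    induction hx using Algebra.adjoin_induction with
    | mem y hy =>
      rw [Set.mem_singleton_iff] at hy
      subst hy
      exact (le_sup_right : F ≤ E ⊔ F) (IntermediateField.subset_adjoin K _ rfl)
    | algebraMap r =>
      exact (le_sup_left : E ≤ E ⊔ F) ⟨r, rfl⟩
    | add x y _ _ hx hy => exact add_mem hx hy
    | mul x y _ _ hx hy => exact mul_mem hx hy
  have h1 : Normal K (E ⊔ F : IntermediateField K (Om L n)) := inferInstance
  have h2 : Normal K (⊤ : IntermediateField K (Om L n)) := htop ▸ h1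
  have : Normal K (Om L n) := Normal.of_algEquiv (IntermediateField.topEquiv (F := K) (E := Om L n))
  exact ⟨⟩

attribute [local instance] isGalois_Om

/-- Restriction to `L`. -/
noncomputable def lam : (Om L n ≃ₐ[K] Om L n) →* (L ≃ₐ[K] L) := AlgEquiv.restrictNormalHom L

/-- The cyclotomic character of `Ω / K`. -/
noncomputable def cyc : (Om L n ≃ₐ[K] Om L n) →* (ZMod n)ˣ := (zetaOm_spec L n).autToPow K

theorem lam_commutes (γ : Om L n ≃ₐ[K] Om L n) (x : L) :
    algebraMap L (Om L n) (lam K L n γ x) = γ (algebraMap L (Om L n) x) :=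
  AlgEquiv.restrictNormal_commutes γ L x

theorem cyc_spec (γ : Om L n ≃ₐ[K] Om L n) :
    γ (zetaOm L n) = zetaOm L n ^ ((cyc K L n γ : ZMod n).val) :=
  ((zetaOm_spec L n).autToPow_spec K γ).symm

/-- `(lam, cyc)` is injective. -/
theorem eq_one_of_lam_cyc (γ : Om L n ≃ₐ[K] Om L n) (h1 : lam K L n γ = 1) (h2 : cyc K L n γ = 1) :
    γ = 1 := by
  have hζ := zetaOm_spec L n
  have hfixL : ∀ x : L, γ (algebraMap L (Om L n) x) = algebraMap L (Om L n) x := by
    intro x
    rw [← lam_commutes, h1]; rfl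
  have hfixζ : γ (zetaOm L n) = zetaOm L n := by
    rw [cyc_spec, h2]
    have : ((1 : (ZMod n)ˣ) : ZMod n).val = 1 % n := by
      rw [Units.val_one, ZMod.val_one_eq_one_mod]
    rw [this, ← pow_eq_pow_mod 1 hζ.pow_eq_one, pow_one]
  ext x
  have hx : x ∈ Algebra.adjoin L {zetaOm L n} := by
    rw [IsCyclotomicExtension.adjoin_primitive_root_eq_top hζ]; trivial
  induction hx using Algebra.adjoin_induction with
  | mem y hy =>
    rw [Set.mem_singleton_iff] at hy
    subst hy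
    simpa using hfixζ
  | algebraMap r => simpa using hfixL r
  | add x y _ _ hx hy => simp [map_add, hx, hy] at *
  | mul x y _ _ hx hy => simp [map_mul, hx, hy] at *

/-- The cyclotomic character is determined by the action on `ζ`. -/
theorem cyc_eq_of_apply (γ : Om L n ≃ₐ[K] Om L n) (N : ℕ)
    (h : γ (zetaOm L n) = zetaOm L n ^ N) :
    ((cyc K L n γ : (ZMod n)ˣ) : ZMod n) = (N : ZMod n) := by
  have hζ := zetaOm_spec L n
  have h1 := cyc_spec K L n γ
  rw [h] at h1
  have h2 : N ≡ (cyc K L n γ : ZMod n).val [MOD n] := by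
    obtain ⟨u, hu⟩ := hζ.isUnit (NeZero.ne n)
    have hu' : u ^ N = u ^ (cyc K L n γ : ZMod n).val := by
      apply Units.ext
      rw [Units.val_pow_eq_pow_val, Units.val_pow_eq_pow_val, hu]
      exact h1
    have := pow_eq_pow_iff_modEq.1 hu'
    rwa [← orderOf_units, hu, ← hζ.eq_orderOf] at this
  have h3 := (ZMod.natCast_eq_natCast_iff _ _ _).2 h2
  rw [ZMod.natCast_zmod_val] at h3
  exact h3.symm

theorem cyc_eq_one_of_fix (γ : Om L n ≃ₐ[K] Om L n) (h : γ (zetaOm L n) = zetaOm L n) :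
    cyc K L n γ = 1 := by
  have h1 := cyc_eq_of_apply K L n γ 1 (by rw [pow_one]; exact h)
  apply Units.ext
  rw [h1]
  simp

/-- Frobenius elements of `Ω / K` at primes not dividing `n`: existence, and the value of the
cyclotomic character. -/
theorem exists_frob (P : Ideal (𝓞 K)) [hP : P.IsPrime] (hP0 : P ≠ ⊥) (hn : (n : 𝓞 K) ∉ P) :
    ∃ (𝔔 : Ideal (𝓞 (Om L n))) (σ : Om L n ≃ₐ[K] Om L n), 𝔔.IsPrime ∧ 𝔔 ≠ ⊥ ∧
      𝔔.under (𝓞 K) = P ∧ IsArithFrobAt (𝓞 K) σ 𝔔 ∧
      ((cyc K L n σ : (ZMod n)ˣ) : ZMod n) = (Ideal.absNorm P : ZMod n) := by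
  obtain ⟨⟨𝔔, h𝔔p, h𝔔P⟩⟩ := P.nonempty_primesOver (S := 𝓞 (Om L n))
  have h𝔔0 : 𝔔 ≠ ⊥ := Ideal.ne_bot_of_liesOver_of_ne_bot hP0 𝔔
  have : Finite (𝓞 (Om L n) ⧸ 𝔔) := Ideal.finiteQuotientOfFreeOfNeBot 𝔔 h𝔔0
  obtain ⟨σ, hσ⟩ := IsArithFrobAt.exists_of_isInvariant (𝓞 K) (Om L n ≃ₐ[K] Om L n) 𝔔
  refine ⟨𝔔, σ, h𝔔p, h𝔔0, h𝔔P.over.symm, hσ, ?_⟩
  have hn𝔔 : (n : 𝓞 (Om L n)) ∉ 𝔔 := by
    intro hmem
    apply hn
    rw [h𝔔P.over, Ideal.under, Ideal.mem_comap, map_natCast]
    exact hmem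
  have h1 := frob_apply_root K (Om L n) σ 𝔔 hσ (zetaOm_spec L n).pow_eq_one hn𝔔
  have h2 := cyc_eq_of_apply K L n σ _ h1
  rw [h2, ← h𝔔P.over]
  congr 1

end Om


end Fermat.Agent.S14.Artin.Cross
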