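import Mathlib
import Fermat.Agent.S14.Artin.Plan
import Fermat.Agent.S14.Artin.Cross
import Fermat.Agent.S14.Artin.CrossField

/-!
# S14, Route A: the crossing step with an auxiliary prime

`cross_of_aux_prime`: for `L / K` unramified Galois of degree `p` over a number field
`K ∋ ζ_p`, primes `P₁, P₂` of `K` with `art P₁ ^ a * art P₂ ^ b = 1`, `p ∤ a`, not both split,
and an auxiliary prime number `r ≠ p` prime to `P₁ P₂` such that `N P₁ ^ a * N P₂ ^ b` is a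
`p`-th power modulo `r` while `N P₂` is not:
`[P₁] ^ a * [P₂] ^ b` lies in the norm classes of `L / K`.

Inside `Ω = L(ζ_r)`: `H = ⟨σ₁, σ₂⟩` (Frobenius elements), `F = Ω^H`, `M = L·F`; then `M / F` is
unramified of degree `p`, `Ω = F(ζ_r)`, the primes of `F` under the chosen primes of `Ω` have
norms `P₁`, `P₂`, and `cross_of_fields` applies.
-/

set_option autoImplicit false
set_option linter.unusedSectionVars false
set_option linter.style.haveILetI false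

open scoped NumberField nonZeroDivisors

namespace Fermat.Agent.S14.Artin.Cross

open Fermat.Agent.S14.Artin

section Unram

/-- Unramifiedness goes up: if `Gal(M/F) → Gal(L/K)` is injective and `L / K` is unramified, then
`M / F` is unramified. -/
theorem isUnram_of_inj (K L F M : Type) [Field K] [Field L] [Field F] [Field M]
    [NumberField K] [NumberField L] [NumberField F] [NumberField M]
    [Algebra K L] [Algebra K F] [Algebra F M] [Algebra L M] [Algebra K M]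
    [IsScalarTower K F M] [IsScalarTower K L M] [IsGalois K L] [IsGalois F M]
    (hunr : IsUnram K L)
    (hinj : ∀ τ : M ≃ₐ[F] M, (∀ x : L, τ (algebraMap L M x) = algebraMap L M x) → τ = 1) :
    IsUnram F M := by
  intro Q hQ hQ0
  rw [eq_bot_iff]
  intro τ hτ
  rw [Subgroup.mem_bot]
  apply hinj
  intro x
  let g : L ≃ₐ[K] L := AlgEquiv.restrictNormalHom L (τ.restrictScalars K)
  have hg : ∀ y : L, algebraMap L M (g y) = τ (algebraMap L M y) := fun y =>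
    AlgEquiv.restrictNormal_commutes (τ.restrictScalars K) L y
  set q : Ideal (𝓞 L) := Q.under (𝓞 L) with hq
  have hqp : q.IsPrime := Ideal.IsPrime.under (𝓞 L) Q
  have hq0 : q ≠ ⊥ := Ideal.IsIntegral.comap_ne_bot (𝓞 L) hQ0
  have hgq : g ∈ q.inertia (L ≃ₐ[K] L) := by
    intro y
    show algebraMap (𝓞 L) (𝓞 M) (g • y - y) ∈ Q
    rw [map_sub]
    have h1 : algebraMap (𝓞 L) (𝓞 M) (g • y) = τ • algebraMap (𝓞 L) (𝓞 M) y := by
      apply NumberField.RingOfIntegers.ext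
      exact hg (y : L)
    rw [h1]
    exact hτ _
  rw [hunr q hqp hq0, Subgroup.mem_bot] at hgq
  rw [← hg, hgq]
  rfl

/-- In an unramified extension, a Frobenius element at a prime above `P` is `art P`. -/
theorem eq_art_of_isArithFrobAt {K L : Type} [Field K] [Field L] [NumberField K] [NumberField L]
    [Algebra K L] [IsGalois K L] (hunr : IsUnram K L)
    (art : (Ideal (𝓞 K))⁰ →* (L ≃ₐ[K] L)) (hart : IsArt K L art)
    (P : (Ideal (𝓞 K))⁰) (hP : (P : Ideal (𝓞 K)).IsPrime) (g : L ≃ₐ[K] L) (q : Ideal (𝓞 L))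
    (hq : q.IsPrime) (hq0 : q ≠ ⊥) (hqP : q.under (𝓞 K) = P)
    (hg : IsArithFrobAt (𝓞 K) g q) : g = art P := by
  have h2 := hart P q hP hq hqP
  have h3 := IsArithFrobAt.mul_inv_mem_inertia hg h2
  rw [hunr q hq hq0, Subgroup.mem_bot] at h3
  exact mul_inv_eq_one.1 h3

end Unram

section Main

attribute [local instance] isGalois_Om isGalois_MF

/-- **Crossing with an auxiliary prime.** -/
theorem cross_of_aux_prime (p : ℕ) (hp : p.Prime) (h3 : 3 ≤ p)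
    (hArt : ArtExistsStmt p) (hSI : SIStmt p) (hCR : CRStmt p) (hNorm : NormStmt)
    (K L : Type) [Field K] [Field L] [NumberField K] [NumberField L] [Algebra K L] [IsGalois K L]
    (hζ : ∃ ζ : K, IsPrimitiveRoot ζ p)
    (hdeg : Module.finrank K L = p) (hunr : IsUnram K L)
    (art : (Ideal (𝓞 K))⁰ →* (L ≃ₐ[K] L)) (hart : IsArt K L art)
    (P₁ P₂ : (Ideal (𝓞 K))⁰) (h₁ : (P₁ : Ideal (𝓞 K)).IsPrime) (h₂ : (P₂ : Ideal (𝓞 K)).IsPrime)
    (a b : ℕ) (hpa : ¬ p ∣ a) (hne : art P₁ ≠ 1 ∨ art P₂ ≠ 1)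
    (hab : art P₁ ^ a * art P₂ ^ b = 1)
    (r : ℕ) (hr : r.Prime) (hrp : r ≠ p)
    (hr1 : (r : 𝓞 K) ∉ (P₁ : Ideal (𝓞 K))) (hr2 : (r : 𝓞 K) ∉ (P₂ : Ideal (𝓞 K)))
    (hu : ∃ w : ZMod r, w ^ p = (Ideal.absNorm (P₁ : Ideal (𝓞 K)) : ZMod r) ^ a *
      (Ideal.absNorm (P₂ : Ideal (𝓞 K)) : ZMod r) ^ b)
    (hn : ¬ ∃ z : ZMod r, z ^ p = (Ideal.absNorm (P₂ : Ideal (𝓞 K)) : ZMod r)) :
    ClassGroup.mk0 P₁ ^ a * ClassGroup.mk0 P₂ ^ b ∈ nmClasses K L p := by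
  have : NeZero r := ⟨hr.ne_zero⟩
  have hP₁0 : (P₁ : Ideal (𝓞 K)) ≠ ⊥ := mem_nonZeroDivisors_iff_ne_zero.1 P₁.2
  have hP₂0 : (P₂ : Ideal (𝓞 K)) ≠ ⊥ := mem_nonZeroDivisors_iff_ne_zero.1 P₂.2
  obtain ⟨𝔔₁, σ₁, h𝔔₁p, h𝔔₁0, h𝔔₁P, hσ₁, hc₁⟩ :=
    exists_frob K L r (P₁ : Ideal (𝓞 K)) (hP := h₁) hP₁0 hr1
  obtain ⟨𝔔₂, σ₂, h𝔔₂p, h𝔔₂0, h𝔔₂P, hσ₂, hc₂⟩ :=
    exists_frob K L r (P₂ : Ideal (𝓞 K)) (hP := h₂) hP₂0 hr2
  -- restrictions to `L`
  have hl₁ : lam K L r σ₁ = art P₁ :=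
    eq_art_of_isArithFrobAt hunr art hart P₁ h₁ _ (𝔔₁.under (𝓞 L)) (Ideal.IsPrime.under _ _)
      (Ideal.IsIntegral.comap_ne_bot (𝓞 L) h𝔔₁0) (by rw [Ideal.under_under]; exact h𝔔₁P)
      (isArithFrobAt_restrict K L (Om L r) σ₁ 𝔔₁ hσ₁)
  have hl₂ : lam K L r σ₂ = art P₂ :=
    eq_art_of_isArithFrobAt hunr art hart P₂ h₂ _ (𝔔₂.under (𝓞 L)) (Ideal.IsPrime.under _ _)
      (Ideal.IsIntegral.comap_ne_bot (𝓞 L) h𝔔₂0) (by rw [Ideal.under_under]; exact h𝔔₂P)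
      (isArithFrobAt_restrict K L (Om L r) σ₂ 𝔔₂ hσ₂)
  -- the group `Gal(L/K)`
  have hcard : Nat.card (L ≃ₐ[K] L) = p := by rw [IsGalois.card_aut_eq_finrank, hdeg]
  have hG : ∀ g : L ≃ₐ[K] L, g ^ p = 1 := pow_card_prime_eq_one hcard
  have hcomm : ∀ x y : L ≃ₐ[K] L, x * y = y * x := mul_comm_of_card_prime hp hcard
  -- the residues
  obtain ⟨w, hw⟩ := hu
  rw [← hc₁, ← hc₂, ← Units.val_pow_eq_pow_val, ← Units.val_pow_eq_pow_val, ← Units.val_mul]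
    at hw
  have hwu : IsUnit w := (isUnit_pow_iff hp.ne_zero).1 (hw ▸ Units.isUnit _)
  obtain ⟨w', rfl⟩ := hwu
  have hw' : w' ^ p = cyc K L r σ₁ ^ a * cyc K L r σ₂ ^ b := by
    apply Units.ext
    rw [Units.val_pow_eq_pow_val]
    exact hw
  have hn' : ¬ ∃ z : (ZMod r)ˣ, z ^ p = cyc K L r σ₂ := by
    rintro ⟨z, hz⟩
    apply hn
    refine ⟨(z : ZMod r), ?_⟩
    rw [← hc₂, ← hz, Units.val_pow_eq_pow_val]
  -- the subgroup `H`
  set H : Subgroup (Om L r ≃ₐ[K] Om L r) := Subgroup.closure {σ₁, σ₂} with hH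
  have hσ₁H : σ₁ ∈ H := Subgroup.subset_closure (by simp)
  have hσ₂H : σ₂ ∈ H := Subgroup.subset_closure (by simp)
  have hrep : ∀ h ∈ H, ∃ j k : ℤ, lam K L r h = art P₁ ^ j * art P₂ ^ k ∧
      cyc K L r h = cyc K L r σ₁ ^ j * cyc K L r σ₂ ^ k := by
    intro h hh
    induction hh using Subgroup.closure_induction with
    | mem x hx =>
      rcases hx with rfl | hx
      · exact ⟨1, 0, by simp [hl₁], by simp⟩
      · rw [Set.mem_singleton_iff] at hx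
        subst hx
        exact ⟨0, 1, by simp [hl₂], by simp⟩
    | one => exact ⟨0, 0, by simp, by simp⟩
    | mul x y _ _ hx hy =>
      obtain ⟨j, k, e1, e2⟩ := hx
      obtain ⟨j', k', e1', e2'⟩ := hy
      refine ⟨j + j', k + k', ?_, ?_⟩
      · rw [map_mul, e1, e1', zpow_add, zpow_add]
        exact (show Commute (art P₂ ^ k) (art P₁ ^ j') from hcomm _ _).mul_mul_mul_comm _ _
      · rw [map_mul, e2, e2', zpow_add, zpow_add, mul_mul_mul_comm]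
    | inv x _ hx =>
      obtain ⟨j, k, e1, e2⟩ := hx
      refine ⟨-j, -k, ?_, ?_⟩
      · rw [map_inv, e1, mul_inv_rev, ← zpow_neg, ← zpow_neg]
        exact hcomm _ _
      · rw [map_inv, e2, mul_inv, ← zpow_neg, ← zpow_neg]
  have hkey : ∀ h ∈ H, cyc K L r h = 1 → lam K L r h = 1 := by
    intro h hh hc
    obtain ⟨j, k, e1, e2⟩ := hrep h hh
    rw [e1]
    exact key_exponent p hp hG hcomm (art P₁) (art P₂) (cyc K L r σ₁) (cyc K L r σ₂) a b hpa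
      hab w' hw' hn' j k (e2 ▸ hc)
  -- the fields `F = Ω^H` and `M = L·F`
  letI : Algebra L ↥(MF L H) := algLM L H
  haveI : IsScalarTower K L ↥(MF L H) := isScalarTower_KLM L H
  have hdegM : Module.finrank ↥(IntermediateField.fixedField H) ↥(MF L H) = p := by
    rw [finrank_MF]
    haveI : Fact (Nat.card (L ≃ₐ[K] L)).Prime := ⟨hcard ▸ hp⟩
    rcases Subgroup.eq_bot_or_eq_top_of_prime_card (resL L H).range with hbot | htop
    · exfalso
      rcases hne with h | h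
      · obtain ⟨τ, -, hτ⟩ := exists_of_mem L H σ₁ hσ₁H
        have hmem : resL L H τ ∈ (resL L H).range := ⟨τ, rfl⟩
        rw [hbot, Subgroup.mem_bot, hτ] at hmem
        exact h (hl₁ ▸ hmem)
      · obtain ⟨τ, -, hτ⟩ := exists_of_mem L H σ₂ hσ₂H
        have hmem : resL L H τ ∈ (resL L H).range := ⟨τ, rfl⟩
        rw [hbot, Subgroup.mem_bot, hτ] at hmem
        exact h (hl₂ ▸ hmem)
    · rw [htop, Subgroup.card_top, hcard]
  have hinj := eq_one_of_fix_L L H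
  have hunrM : IsUnram ↥(IntermediateField.fixedField H) ↥(MF L H) :=
    isUnram_of_inj K L _ _ hunr hinj
  have hζF : ∃ ζ : ↥(IntermediateField.fixedField H), IsPrimitiveRoot ζ p := by
    obtain ⟨ζ, hζ⟩ := hζ
    exact ⟨algebraMap K _ ζ, hζ.map_of_injective (algebraMap K _).injective⟩
  have hcyc : ∀ σ : Om L r ≃ₐ[↥(IntermediateField.fixedField H)] Om L r,
      (∀ t : Om L r, t ^ r = 1 → σ t = t) →
      ∀ x : ↥(MF L H), σ (algebraMap ↥(MF L H) (Om L r) x) = algebraMap ↥(MF L H) (Om L r) x := by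
    intro σ hσ x
    have hmem := restrictScalars_mem H σ
    have hc : cyc K L r (σ.restrictScalars K) = 1 :=
      cyc_eq_one_of_fix K L r _ (hσ _ (zetaOm_spec L r).pow_eq_one)
    have hl := hkey _ hmem hc
    have h1 := eq_one_of_lam_cyc K L r _ hl hc
    exact congrArg (fun f : Om L r ≃ₐ[K] Om L r => f (algebraMap ↥(MF L H) (Om L r) x)) h1
  -- the primes of `F`
  set P₁' : Ideal (𝓞 ↥(IntermediateField.fixedField H)) := 𝔔₁.under _ with hP₁'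
  set P₂' : Ideal (𝓞 ↥(IntermediateField.fixedField H)) := 𝔔₂.under _ with hP₂'
  have hrel₁ : Ideal.relNorm (𝓞 K) P₁' = P₁ := by
    rw [← h𝔔₁P]
    exact relNorm_under_eq K (Om L r) ↥(IntermediateField.fixedField H) σ₁
      (fun x => (IntermediateField.mem_fixedField_iff _ _).1 x.2 σ₁ hσ₁H) 𝔔₁ h𝔔₁0 hσ₁
  have hrel₂ : Ideal.relNorm (𝓞 K) P₂' = P₂ := by
    rw [← h𝔔₂P]
    exact relNorm_under_eq K (Om L r) ↥(IntermediateField.fixedField H) σ₂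
      (fun x => (IntermediateField.mem_fixedField_iff _ _).1 x.2 σ₂ hσ₂H) 𝔔₂ h𝔔₂0 hσ₂
  have hP₁'0 : P₁' ≠ ⊥ := Ideal.IsIntegral.comap_ne_bot _ h𝔔₁0
  have hP₂'0 : P₂' ≠ ⊥ := Ideal.IsIntegral.comap_ne_bot _ h𝔔₂0
  have hP₁'max : P₁'.IsMaximal := (Ideal.IsPrime.under _ 𝔔₁).isMaximal hP₁'0
  have hP₂'max : P₂'.IsMaximal := (Ideal.IsPrime.under _ 𝔔₂).isMaximal hP₂'0
  let 𝔓₁ : (Ideal (𝓞 ↥(IntermediateField.fixedField H)))⁰ :=
    ⟨P₁', mem_nonZeroDivisors_iff_ne_zero.2 hP₁'0⟩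
  let 𝔓₂ : (Ideal (𝓞 ↥(IntermediateField.fixedField H)))⁰ :=
    ⟨P₂', mem_nonZeroDivisors_iff_ne_zero.2 hP₂'0⟩
  have h𝔞 : ((P₁ ^ a * P₂ ^ b : (Ideal (𝓞 K))⁰) : Ideal (𝓞 K)) =
      Ideal.relNorm (𝓞 K) ((𝔓₁ ^ a * 𝔓₂ ^ b : (Ideal (𝓞 ↥(IntermediateField.fixedField H)))⁰) :
        Ideal (𝓞 ↥(IntermediateField.fixedField H))) := by
    simp only [Submonoid.coe_mul, SubmonoidClass.coe_pow, map_mul, map_pow, 𝔓₁, 𝔓₂, hrel₁, hrel₂]
  have hker : art (P₁ ^ a * P₂ ^ b) = 1 := by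
    rw [map_mul, map_pow, map_pow]; exact hab
  have hrΩ : ∀ (𝔔 : Ideal (𝓞 (Om L r))),
      (r : 𝓞 ↥(IntermediateField.fixedField H)) ∈ 𝔔.under (𝓞 ↥(IntermediateField.fixedField H)) →
      (r : 𝓞 K) ∈ 𝔔.under (𝓞 K) := by
    intro 𝔔 h
    rw [Ideal.under, Ideal.mem_comap, map_natCast] at h ⊢
    exact h
  have h𝔄r : ∀ v : Ideal (𝓞 ↥(IntermediateField.fixedField H)), v.IsPrime →
      (r : 𝓞 ↥(IntermediateField.fixedField H)) ∈ v →
      ¬ ((𝔓₁ ^ a * 𝔓₂ ^ b : (Ideal (𝓞 ↥(IntermediateField.fixedField H)))⁰) :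
        Ideal (𝓞 ↥(IntermediateField.fixedField H))) ≤ v := by
    intro v hv hrv hle
    have hle' : P₁' ^ a * P₂' ^ b ≤ v := by
      simpa only [Submonoid.coe_mul, SubmonoidClass.coe_pow, 𝔓₁, 𝔓₂] using hle
    rcases (hv.mul_le).1 hle' with h | h
    · have heq : P₁' = v := hP₁'max.eq_of_le hv.ne_top (hv.le_of_pow_le h)
      apply hr1
      rw [← h𝔔₁P]
      exact hrΩ 𝔔₁ (heq.symm ▸ hrv : (r : 𝓞 ↥(IntermediateField.fixedField H)) ∈ P₁')
    · have heq : P₂' = v := hP₂'max.eq_of_le hv.ne_top (hv.le_of_pow_le h)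
      apply hr2
      rw [← h𝔔₂P]
      exact hrΩ 𝔔₂ (heq.symm ▸ hrv : (r : 𝓞 ↥(IntermediateField.fixedField H)) ∈ P₂')
  have hfin := cross_of_fields p hp h3 hArt hSI hCR hNorm K L
    ↥(IntermediateField.fixedField H) ↥(MF L H) (Om L r) hζF hdeg hunr art hart hdegM hunrM hinj
    r hr hrp hcyc (𝔓₁ ^ a * 𝔓₂ ^ b) h𝔄r (P₁ ^ a * P₂ ^ b) h𝔞 hker
  rwa [map_mul, map_pow, map_pow] at hfin

end Main

end Fermat.Agent.S14.Artin.Cross
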