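import Fermat.Agent.S14.Artin.Plan

/-!
# S14, Route A: functoriality of the Artin map under the ideal norm (`NormStmt`)

Towers `F ⊆ F' ⊆ M'`, `F ⊆ M ⊆ M'` of number fields, `M / F` Galois and unramified,
`M' / F'` Galois, `art` and `art'` Artin maps on nonzero integral ideals.  Then for every nonzero
ideal `𝔞` of `𝓞 F'` the automorphism `art (N_{F'/F} 𝔞)` of `M` is the restriction of `art' 𝔞`.

Proof.  Both sides are multiplicative in `𝔞`, so it suffices to treat a nonzero prime `P'` of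
`𝓞 F'`.  Put `P := P' ∩ 𝓞 F`; then `N P' = P ^ s` and `#(𝓞 F' / P') = #(𝓞 F / P) ^ s`.  Choose a
prime `Q'` of `𝓞 M'` over `P'` and put `Q := Q' ∩ 𝓞 M`.  The restriction `ρ` of `art' P'` to `M`
satisfies `ρ x ≡ x ^ #(𝓞 F' / P') mod Q` on `𝓞 M`, and so does `(art P) ^ s`.  Hence
`(art P) ^ s * ρ⁻¹` lies in the inertia group of `Q`, which is trivial.
-/

set_option autoImplicit false

open scoped NumberField nonZeroDivisors

namespace Fermat.Agent.S14.Artin.Norm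

section Congruence

variable {S : Type*} [CommRing S] {G : Type*} [Group G] [MulSemiringAction G S]

/-- If `σ x ≡ x ^ q` modulo `Q` for all `x`, then `σ ^ s x ≡ x ^ (q ^ s)` modulo `Q`. -/
theorem pow_smul_sub_pow_mem (Q : Ideal S) (σ : G) (q : ℕ) (h : ∀ x : S, σ • x - x ^ q ∈ Q)
    (s : ℕ) : ∀ x : S, (σ ^ s) • x - x ^ (q ^ s) ∈ Q := by
  induction s with
  | zero => intro x; simp
  | succ s ih =>
    intro x
    have h1 : (σ ^ (s + 1)) • x - (σ • x) ^ (q ^ s) ∈ Q := by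
      rw [pow_succ, mul_smul]
      exact ih (σ • x)
    have h2 : (σ • x) ^ (q ^ s) - x ^ (q ^ (s + 1)) ∈ Q := by
      rw [pow_succ, mul_comm, pow_mul]
      exact Ideal.mem_of_dvd Q (sub_dvd_pow_sub_pow _ _ _) (h x)
    have h3 := Q.add_mem h1 h2
    simpa using h3

/-- Two elements acting as the same power map modulo `Q` differ by an element of the inertia
group of `Q`. -/
theorem mul_inv_mem_inertia_of_congr (Q : Ideal S) (σ τ : G) (n : ℕ)
    (hσ : ∀ x : S, σ • x - x ^ n ∈ Q) (hτ : ∀ x : S, τ • x - x ^ n ∈ Q) :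
    σ * τ⁻¹ ∈ Q.inertia G := by
  intro x
  simpa [mul_smul] using sub_mem (hσ (τ⁻¹ • x)) (hτ (τ⁻¹ • x))

end Congruence

section Tower

variable (F F' M M' : Type) [Field F] [Field F'] [Field M] [Field M'] [NumberField F]
  [NumberField F'] [NumberField M] [NumberField M'] [Algebra F F'] [Algebra F M]
  [Algebra F' M'] [Algebra M M'] [Algebra F M'] [IsScalarTower F F' M']
  [IsScalarTower F M M'] [IsGalois F M] [IsGalois F' M']

/-- Restriction of automorphisms of `M' / F'` to `M / F`. -/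
noncomputable def res : (M' ≃ₐ[F'] M') →* (M ≃ₐ[F] M) :=
  (AlgEquiv.restrictNormalHom M).comp (AlgEquiv.restrictScalarsHom F)

omit [NumberField F] [NumberField F'] [NumberField M] [NumberField M'] [IsGalois F' M'] in
theorem res_commutes (σ : M' ≃ₐ[F'] M') (m : M) :
    algebraMap M M' (res F F' M M' σ m) = σ (algebraMap M M' m) :=
  AlgEquiv.restrictNormal_commutes (σ.restrictScalars F) M m

omit [NumberField F] [NumberField F'] [NumberField M] [NumberField M'] [IsGalois F' M'] in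
/-- On rings of integers. -/
theorem res_smul (σ : M' ≃ₐ[F'] M') (x : 𝓞 M) :
    algebraMap (𝓞 M) (𝓞 M') (res F F' M M' σ • x) = σ • algebraMap (𝓞 M) (𝓞 M') x := by
  apply Subtype.ext
  exact res_commutes F F' M M' σ (x : M)

/-- The ideal norm as a monoid homomorphism on nonzero ideals. -/
noncomputable def nm : (Ideal (𝓞 F'))⁰ →* (Ideal (𝓞 F))⁰ where
  toFun I := ⟨Ideal.relNorm (𝓞 F) (I : Ideal (𝓞 F')), mem_nonZeroDivisors_iff_ne_zero.2 (by
    rw [Ne, Ideal.zero_eq_bot, Ideal.relNorm_eq_bot_iff]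
    exact nonZeroDivisors.coe_ne_zero I)⟩
  map_one' := by
    apply Subtype.ext
    simp
  map_mul' I J := by
    apply Subtype.ext
    simp

@[simp]
theorem coe_nm (I : (Ideal (𝓞 F'))⁰) :
    (nm F F' I : Ideal (𝓞 F)) = Ideal.relNorm (𝓞 F) (I : Ideal (𝓞 F')) := rfl

variable {F F' M M'}

/-- The prime case. -/
theorem art_nm_prime (hun : IsUnram F M) (art : (Ideal (𝓞 F))⁰ →* (M ≃ₐ[F] M))
    (art' : (Ideal (𝓞 F'))⁰ →* (M' ≃ₐ[F'] M')) (hart : IsArt F M art) (hart' : IsArt F' M' art')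
    (P' : (Ideal (𝓞 F'))⁰) (hP' : (P' : Ideal (𝓞 F')).IsPrime) :
    art (nm F F' P') = res F F' M M' (art' P') := by
  have hP'0 : (P' : Ideal (𝓞 F')) ≠ ⊥ := nonZeroDivisors.coe_ne_zero P'
  -- the prime below
  set P : Ideal (𝓞 F) := (P' : Ideal (𝓞 F')).under (𝓞 F) with hPdef
  have hPprime : P.IsPrime := Ideal.IsPrime.under (𝓞 F) (P' : Ideal (𝓞 F'))
  have hP0 : P ≠ ⊥ := Ideal.under_ne_bot (𝓞 F) hP'0
  have hPmem : P ∈ (Ideal (𝓞 F))⁰ := mem_nonZeroDivisors_iff_ne_zero.2 hP0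
  have hlies : (P' : Ideal (𝓞 F')).LiesOver P := Ideal.over_under (A := 𝓞 F) (P' : Ideal (𝓞 F'))
  obtain ⟨s, hs⟩ := Ideal.exists_relNorm_eq_pow_of_isPrime (P' : Ideal (𝓞 F')) P
  have hnm : nm F F' P' = (⟨P, hPmem⟩ : (Ideal (𝓞 F))⁰) ^ s := by
    apply Subtype.ext
    simp [hs]
  -- cardinalities
  have hcard : Nat.card (𝓞 F' ⧸ (P' : Ideal (𝓞 F'))) = Nat.card (𝓞 F ⧸ P) ^ s := by
    have h1 := Ideal.absNorm_relNorm (𝓞 F) (𝓞 F') (P' : Ideal (𝓞 F'))
    rw [hs, map_pow] at h1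
    rw [Ideal.absNorm_apply, Ideal.absNorm_apply, Submodule.cardQuot_apply,
      Submodule.cardQuot_apply] at h1
    exact h1.symm
  -- primes above
  obtain ⟨Q', -, hQ'prime, hQ'P'⟩ :=
    Ideal.exists_ideal_over_prime_of_isIntegral (S := 𝓞 M') (P' : Ideal (𝓞 F')) ⊥ (by simp)
  have hQ'0 : Q' ≠ ⊥ := by
    intro h
    apply hP'0
    rw [← hQ'P', h]
    exact Ideal.comap_bot_of_injective _ (FaithfulSMul.algebraMap_injective (𝓞 F') (𝓞 M'))
  set Q : Ideal (𝓞 M) := Q'.under (𝓞 M) with hQdef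
  have hQprime : Q.IsPrime := Ideal.IsPrime.under (𝓞 M) Q'
  have hQ0 : Q ≠ ⊥ := Ideal.under_ne_bot (𝓞 M) hQ'0
  have hQP : Q.under (𝓞 F) = P := by
    rw [hQdef, Ideal.under_under, hPdef, ← hQ'P']
    exact (Ideal.under_under (A := 𝓞 F) (B := 𝓞 F') Q').symm
  -- Frobenius congruences
  have hfrob : ∀ x : 𝓞 M, art ⟨P, hPmem⟩ • x - x ^ Nat.card (𝓞 F ⧸ P) ∈ Q := by
    intro x
    have h := hart ⟨P, hPmem⟩ Q hPprime hQprime hQP x
    rw [hQP] at h
    exact h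
  have hfrob' : ∀ y : 𝓞 M', art' P' • y - y ^ Nat.card (𝓞 F' ⧸ (P' : Ideal (𝓞 F'))) ∈ Q' := by
    intro y
    have h := hart' P' Q' hP' hQ'prime hQ'P' y
    have hu : Q'.under (𝓞 F') = (P' : Ideal (𝓞 F')) := hQ'P'
    rw [hu] at h
    exact h
  have h1 : ∀ x : 𝓞 M, (art ⟨P, hPmem⟩ ^ s) • x - x ^ (Nat.card (𝓞 F ⧸ P) ^ s) ∈ Q :=
    pow_smul_sub_pow_mem Q _ _ hfrob s
  have h2 : ∀ x : 𝓞 M, res F F' M M' (art' P') • x - x ^ (Nat.card (𝓞 F ⧸ P) ^ s) ∈ Q := by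
    intro x
    rw [hQdef, Ideal.under_def, Ideal.mem_comap, map_sub, map_pow, res_smul, ← hcard]
    exact hfrob' _
  have h3 := mul_inv_mem_inertia_of_congr Q _ _ _ h1 h2
  rw [hun Q hQprime hQ0, Subgroup.mem_bot, mul_inv_eq_one] at h3
  rw [hnm, map_pow, h3]

/-- The Artin map commutes with the norm and restriction. -/
theorem art_nm (hun : IsUnram F M) (art : (Ideal (𝓞 F))⁰ →* (M ≃ₐ[F] M))
    (art' : (Ideal (𝓞 F'))⁰ →* (M' ≃ₐ[F'] M')) (hart : IsArt F M art) (hart' : IsArt F' M' art')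
    (𝔞 : (Ideal (𝓞 F'))⁰) : art (nm F F' 𝔞) = res F F' M M' (art' 𝔞) := by
  obtain ⟨I, hI⟩ := 𝔞
  induction I using UniqueFactorizationMonoid.induction_on_prime with
  | h₁ => exact absurd rfl (nonZeroDivisors.ne_zero hI)
  | h₂ x hx =>
    have h1 : (⟨x, hI⟩ : (Ideal (𝓞 F'))⁰) = 1 := by
      apply Subtype.ext
      simpa using Ideal.isUnit_iff.1 hx
    rw [h1, map_one, map_one, map_one, map_one]
  | h₃ a p ha hp ih =>
    have hpm : p ∈ (Ideal (𝓞 F'))⁰ := mem_nonZeroDivisors_iff_ne_zero.2 hp.ne_zero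
    have ham : a ∈ (Ideal (𝓞 F'))⁰ := mem_nonZeroDivisors_iff_ne_zero.2 ha
    have h1 : (⟨p * a, hI⟩ : (Ideal (𝓞 F'))⁰) = ⟨p, hpm⟩ * ⟨a, ham⟩ := Subtype.ext rfl
    rw [h1, map_mul, map_mul, map_mul, map_mul, ih ham,
      art_nm_prime hun art art' hart hart' ⟨p, hpm⟩ (Ideal.isPrime_of_prime hp)]

end Tower

/-- **`NormStmt`**: functoriality of the Artin map under the ideal norm. -/
theorem normStmt : Fermat.Agent.S14.Artin.NormStmt := by
  intro F F' M M' _ _ _ _ _ _ _ _ _ _ _ _ _ _ _ _ _ hun art art' hart hart' 𝔞 𝔟 h𝔟 m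
  have h1 : 𝔟 = nm F F' 𝔞 := Subtype.ext h𝔟
  rw [h1, art_nm hun art art' hart hart' 𝔞, res_commutes]

end Fermat.Agent.S14.Artin.Norm
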