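import Mathlib
import Fermat.Agent.S14.Artin.Plan
import Fermat.Agent.S14.Artin.Basic
import Fermat.Agent.S14.Artin.CR
import Fermat.Agent.S14.Artin.Norm
import Fermat.Agent.S14.Artin.AuxPrime
import Fermat.Agent.S14.Artin.CrossPair

/-!
# S14, Route A: the crossing contract `XCoreStmt`

`xCoreStmt_of_si : SIStmt p → XCoreStmt p`: over the `p`-th cyclotomic field, for two non-split
primes `P₁`, `P₂` of different residue characteristics with `art P₁ * art P₂ ^ b = 1`, the class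
`[P₁] * [P₂] ^ b` lies in the norm classes.  The auxiliary prime comes from `auxPrimeStmt`, the
crossing itself from `cross_of_aux_prime`; the only open input is the second inequality `SIStmt`.
-/

set_option autoImplicit false
set_option linter.unusedSectionVars false

open scoped NumberField nonZeroDivisors

namespace Fermat.Agent.S14.Artin.Cross

open Fermat.Agent.S14.Artin

/-- The residue characteristic and the norm of a nonzero prime of a number field. -/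
theorem exists_prime_absNorm {K : Type*} [Field K] [NumberField K] (P : Ideal (𝓞 K))
    (hP : P.IsPrime) (hP0 : P ≠ ⊥) :
    ∃ ℓ f : ℕ, ℓ.Prime ∧ (ℓ : 𝓞 K) ∈ P ∧ Ideal.absNorm P = ℓ ^ f ∧ 0 < f ∧
      f ≤ Module.finrank ℚ K := by
  classical
  have hmax : P.IsMaximal := hP.isMaximal hP0
  let _ : Field (𝓞 K ⧸ P) := Ideal.Quotient.field P
  have : Finite (𝓞 K ⧸ P) := Ideal.finiteQuotientOfFreeOfNeBot P hP0
  let _ : Fintype (𝓞 K ⧸ P) := Fintype.ofFinite _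
  obtain ⟨ℓ, hchar⟩ := CharP.exists (𝓞 K ⧸ P)
  obtain ⟨n, hℓ, hcard⟩ := FiniteField.card (𝓞 K ⧸ P) ℓ
  have hmem : (ℓ : 𝓞 K) ∈ P := by
    rw [← Ideal.Quotient.eq_zero_iff_mem, map_natCast]
    exact CharP.cast_eq_zero _ ℓ
  have habs : Ideal.absNorm P = ℓ ^ (n : ℕ) := by
    rw [Ideal.absNorm_apply, Submodule.cardQuot_apply, Nat.card_eq_fintype_card, hcard]
  refine ⟨ℓ, n, hℓ, hmem, habs, n.pos, ?_⟩
  have hle : Ideal.span {(ℓ : 𝓞 K)} ≤ P := by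
    rw [Ideal.span_le, Set.singleton_subset_iff]
    exact hmem
  have hdvd := Ideal.absNorm_dvd_absNorm_of_le hle
  rw [habs, Ideal.absNorm_span_natCast, NumberField.RingOfIntegers.rank] at hdvd
  exact (Nat.pow_dvd_pow_iff_le_right hℓ.one_lt).1 hdvd

/-- A natural number prime to `p` in the exponent does not create `p`-th powers. -/
theorem not_pow_of_not_pow {r p ℓ f : ℕ} (hr : r.Prime) (hp : p.Prime) (hℓr : ¬ r ∣ ℓ)
    (hpf : ¬ p ∣ f) (h : ¬ ∃ z : ZMod r, z ^ p = (ℓ : ZMod r)) :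
    ¬ ∃ z : ZMod r, z ^ p = ((ℓ ^ f : ℕ) : ZMod r) := by
  have : Fact r.Prime := ⟨hr⟩
  rintro ⟨z, hz⟩
  apply h
  have hℓ0 : (ℓ : ZMod r) ≠ 0 := by
    rwa [Ne, ZMod.natCast_eq_zero_iff]
  let u : (ZMod r)ˣ := Units.mk0 _ hℓ0
  have hz0 : z ≠ 0 := by
    rintro rfl
    rw [zero_pow hp.ne_zero, Nat.cast_pow] at hz
    exact pow_ne_zero f hℓ0 hz.symm
  let zu : (ZMod r)ˣ := Units.mk0 z hz0
  have hzu : zu ^ p = u ^ f := by
    apply Units.ext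
    rw [Units.val_pow_eq_pow_val, Units.val_pow_eq_pow_val]
    simpa [u, zu] using hz
  have hcop : IsCoprime (p : ℤ) (f : ℤ) :=
    ((Nat.prime_iff_prime_int.1 hp).irreducible.coprime_iff_not_dvd).2
      (by rwa [Int.natCast_dvd_natCast])
  obtain ⟨s, t, hst⟩ := hcop
  refine ⟨((u ^ s * zu ^ t : (ZMod r)ˣ) : ZMod r), ?_⟩
  have key : (u ^ s * zu ^ t) ^ p = u := by
    calc (u ^ s * zu ^ t) ^ p = (u ^ s * zu ^ t) ^ (p : ℤ) := (zpow_natCast _ _).symm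
      _ = u ^ (s * p) * (zu ^ (p : ℤ)) ^ t := by
          rw [mul_zpow, ← zpow_mul, ← zpow_mul, ← zpow_mul, mul_comm t]
      _ = u ^ (s * p) * u ^ (t * f) := by
          rw [zpow_natCast, hzu, ← zpow_natCast, ← zpow_mul, mul_comm t]
      _ = u ^ (s * p + t * f) := (zpow_add _ _ _).symm
      _ = u := by rw [hst, zpow_one]
  rw [← Units.val_pow_eq_pow_val, key]
  rfl

/-- **The crossing contract**, from the second inequality. -/
theorem xCoreStmt_of_si (p : ℕ) (hSI : SIStmt p) : XCoreStmt p := by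
  intro hp h3 K L _ _ _ _ _ _ _ hdeg hunr art hart P₁ P₂ h₁ h₂ hne₁ hne₂ hchar b hab
  have : NeZero p := ⟨hp.ne_zero⟩
  have hζ : ∃ ζ : K, IsPrimitiveRoot ζ p :=
    IsCyclotomicExtension.exists_isPrimitiveRoot ℚ K (Set.mem_singleton p) hp.ne_zero
  have hP₁0 : (P₁ : Ideal (𝓞 K)) ≠ ⊥ := mem_nonZeroDivisors_iff_ne_zero.1 P₁.2
  have hP₂0 : (P₂ : Ideal (𝓞 K)) ≠ ⊥ := mem_nonZeroDivisors_iff_ne_zero.1 P₂.2
  obtain ⟨ℓ₁, f₁, hℓ₁, hℓ₁P, habs₁, hf₁, hf₁le⟩ := exists_prime_absNorm _ h₁ hP₁0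
  obtain ⟨ℓ₂, f₂, hℓ₂, hℓ₂P, habs₂, hf₂, hf₂le⟩ := exists_prime_absNorm _ h₂ hP₂0
  have hfin : Module.finrank ℚ K = p - 1 := by
    rw [IsCyclotomicExtension.finrank K (Polynomial.cyclotomic.irreducible_rat hp.pos),
      Nat.totient_prime hp]
  have hpf₁ : ¬ p ∣ f₁ := fun h => by
    have := Nat.le_of_dvd hf₁ h
    have := hp.pos
    omega
  have hpf₂ : ¬ p ∣ f₂ := fun h => by
    have := Nat.le_of_dvd hf₂ h
    have := hp.pos
    omega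
  have hℓne : ℓ₁ ≠ ℓ₂ := by
    rintro rfl
    exact hchar ℓ₁ hℓ₁ hℓ₁P hℓ₂P
  obtain ⟨r, hr, hrT, ⟨w, hw⟩, hz⟩ :=
    AuxPrime.auxPrimeStmt p hp ℓ₁ ℓ₂ hℓ₁ hℓ₂ hℓne f₁ (f₂ * b) hpf₁ {p, ℓ₁, ℓ₂}
  have hrp : r ≠ p := fun h => hrT (by simp [h])
  have hrℓ₁ : r ≠ ℓ₁ := fun h => hrT (by simp [h])
  have hrℓ₂ : r ≠ ℓ₂ := fun h => hrT (by simp [h])
  have hnotmem : ∀ (P : Ideal (𝓞 K)) (ℓ : ℕ), P.IsPrime → ℓ.Prime → (ℓ : 𝓞 K) ∈ P → r ≠ ℓ →
      (r : 𝓞 K) ∉ P := by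
    intro P ℓ hPp hℓ hℓP hrℓ hrP
    have hcop : Nat.Coprime r ℓ := (Nat.coprime_primes hr hℓ).2 hrℓ
    obtain ⟨x, y, hxy⟩ := (Nat.isCoprime_iff_coprime.2 hcop)
    have h1 : ((x * r + y * ℓ : ℤ) : 𝓞 K) ∈ P := by
      push_cast
      exact P.add_mem (P.mul_mem_left _ hrP) (P.mul_mem_left _ hℓP)
    rw [hxy, Int.cast_one] at h1
    exact hPp.ne_top ((Ideal.eq_top_iff_one P).2 h1)
  have hr1 : (r : 𝓞 K) ∉ (P₁ : Ideal (𝓞 K)) := hnotmem _ ℓ₁ h₁ hℓ₁ hℓ₁P hrℓ₁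
  have hr2 : (r : 𝓞 K) ∉ (P₂ : Ideal (𝓞 K)) := hnotmem _ ℓ₂ h₂ hℓ₂ hℓ₂P hrℓ₂
  have hu : ∃ w : ZMod r, w ^ p = (Ideal.absNorm (P₁ : Ideal (𝓞 K)) : ZMod r) ^ 1 *
      (Ideal.absNorm (P₂ : Ideal (𝓞 K)) : ZMod r) ^ b := by
    refine ⟨w, ?_⟩
    rw [hw, habs₁, habs₂, pow_one, Nat.cast_pow, Nat.cast_pow, ← pow_mul]
  have hn : ¬ ∃ z : ZMod r, z ^ p = (Ideal.absNorm (P₂ : Ideal (𝓞 K)) : ZMod r) := by
    rw [habs₂]
    exact not_pow_of_not_pow hr hp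
      (fun h => hrℓ₂ ((Nat.prime_dvd_prime_iff_eq hr hℓ₂).1 h)) hpf₂ hz
  have hfinal := cross_of_aux_prime p hp h3 (Basic.artExistsStmt p) hSI (CR.crStmt p) Norm.normStmt K L hζ hdeg
    hunr art hart P₁ P₂ h₁ h₂ 1 b (by simpa using hp.one_lt.ne') (Or.inl hne₁)
    (by rw [pow_one]; exact hab) r hr hrp hr1 hr2 hu hn
  rwa [pow_one] at hfinal

end Fermat.Agent.S14.Artin.Cross
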