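import Fermat.Agent.S14.Artin.Basic
import Fermat.Agent.Lib.NoTotalSplitOutside
import Fermat.Agent.Lib.UnramPow

/-!
# S14, Route A: non-split primes in the vocabulary of the Artin map

`nsStmt p : NSStmt p`: for an unramified Galois extension of prime degree, outside every finite
set of ideals there is a prime with nontrivial Artin symbol.
-/

set_option autoImplicit false
set_option linter.style.haveILetI false

open scoped NumberField nonZeroDivisors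

namespace Fermat.Agent.S14.Artin.NSArt

open Fermat.Agent.S14.Artin

theorem not_map_le_sq {F M : Type} [Field F] [Field M] [NumberField F] [NumberField M]
    [Algebra F M] [IsGalois F M] (hun : IsUnram F M) {Q : Ideal (𝓞 M)} (hQ : Q.IsPrime)
    (hQ0 : Q ≠ ⊥) : ¬ (Q.under (𝓞 F)).map (algebraMap (𝓞 F) (𝓞 M)) ≤ Q ^ 2 := by
  intro hle
  haveI := hQ
  have he : Q.ramificationIdx (𝓞 F) = 1 :=
    Fermat.Agent.Lib.UnramPow.ramificationIdx_eq_one_of_inertia_eq_bot F M Q (hun Q hQ hQ0)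
  have hp0 : Q.under (𝓞 F) ≠ ⊥ := Ideal.IsIntegral.comap_ne_bot (𝓞 F) hQ0
  haveI : Q.LiesOver (Q.under (𝓞 F)) := ⟨rfl⟩
  have he' : (Q.under (𝓞 F)).ramificationIdx' Q = 1 := by
    rw [Ideal.ramificationIdx'_eq_ramificationIdx (Q.under (𝓞 F)) Q hp0, he]
  unfold Ideal.ramificationIdx' at he'
  by_cases hb : BddAbove {n | (Q.under (𝓞 F)).map (algebraMap (𝓞 F) (𝓞 M)) ≤ Q ^ n}
  · have h2 : 2 ≤ sSup {n | (Q.under (𝓞 F)).map (algebraMap (𝓞 F) (𝓞 M)) ≤ Q ^ n} :=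
      le_csSup hb hle
    omega
  · rw [Nat.sSup_of_not_bddAbove hb] at he'
    omega

theorem nsStmt (p : ℕ) : NSStmt p := by
  intro hp F M _ _ _ _ _ _ hdeg hun art hart T hT
  have h2 : 2 ≤ Module.finrank F M := hdeg ▸ hp.two_le
  obtain ⟨Q, hQ, hQ0, hQT, hor⟩ :=
    Fermat.Agent.Lib.NoTotalSplitOutside.exists_prime_not_split_under_not_mem F M h2 T hT
  have hN : Ideal.absNorm Q ≠ Ideal.absNorm (Q.under (𝓞 F)) :=
    hor.resolve_right (not_map_le_sq hun hQ hQ0)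
  have hPprime : (Q.under (𝓞 F)).IsPrime := Ideal.IsPrime.under (𝓞 F) Q
  have hP0 : Q.under (𝓞 F) ≠ ⊥ := Ideal.IsIntegral.comap_ne_bot (𝓞 F) hQ0
  have hPm : Q.under (𝓞 F) ∈ (Ideal (𝓞 F))⁰ := mem_nonZeroDivisors_iff_ne_zero.2 hP0
  refine ⟨⟨Q.under (𝓞 F), hPm⟩, hPprime, hQT, ?_⟩
  intro h1
  apply hN
  apply Fermat.Agent.Lib.NoTotalSplit.absNorm_eq_of_forall_sub_pow_mem hQ hQ0
  intro x
  have hfr : IsArithFrobAt (𝓞 F) (art ⟨Q.under (𝓞 F), hPm⟩) Q :=
    hart ⟨Q.under (𝓞 F), hPm⟩ Q hPprime hQ rfl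
  rw [h1] at hfr
  have := hfr x
  simpa using this

end Fermat.Agent.S14.Artin.NSArt
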