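import Fermat.Agent.S14.Artin.CrossCore
import Fermat.Agent.S14.Artin.SIAn.Main

/-!
# S14, Route A: the crossing contract `XCoreStmt`, unconditionally

`xCoreStmt p : XCoreStmt p`, from `xCoreStmt_of_si` and the second inequality `SIAn.siStmt`.
-/

set_option autoImplicit false

namespace Fermat.Agent.S14.Artin.Cross

open Fermat.Agent.S14.Artin

/-- **The crossing contract** of Route A. -/
theorem xCoreStmt (p : ℕ) : XCoreStmt p :=
  xCoreStmt_of_si p (SIAn.siStmt p)

end Fermat.Agent.S14.Artin.Cross
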