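import Fermat.Agent.S14.Artin.Norm
import Fermat.Agent.Lib.NoTotalSplit

/-!
# S14, Route A: tools for the crossing

Towers `F ⊆ F' ⊆ M'`, `F ⊆ M ⊆ M'` of number fields (the binder list of `NormStmt`).

* `isUnram_of_tower` : if `M / F` is unramified and an automorphism of `M' / F'` fixing `M` is
  trivial (`M' = M F'`), then `M' / F'` is unramified.
* `relNorm_eq_under_of_absNorm_eq`, `relNorm_eq_under_of_fixed` : a prime of residue degree one
  has relative norm the prime below; this holds for the prime of the fixed field of a Frobenius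
  element.
-/

set_option autoImplicit false

open scoped NumberField nonZeroDivisors

namespace Fermat.Agent.S14.Artin.CrossTools

open Fermat.Agent.S14.Artin.Norm

section Unram

variable (F F' M M' : Type) [Field F] [Field F'] [Field M] [Field M'] [NumberField F]
  [NumberField F'] [NumberField M] [NumberField M'] [Algebra F F'] [Algebra F M]
  [Algebra F' M'] [Algebra M M'] [Algebra F M'] [IsScalarTower F F' M']
  [IsScalarTower F M M'] [IsGalois F M] [IsGalois F' M']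

omit [NumberField F] [NumberField F'] [NumberField M] [NumberField M'] [IsGalois F' M'] in
/-- The restriction of an inertia element is an inertia element. -/
theorem res_mem_inertia (Q' : Ideal (𝓞 M')) (τ : M' ≃ₐ[F'] M')
    (hτ : τ ∈ Q'.inertia (M' ≃ₐ[F'] M')) :
    res F F' M M' τ ∈ (Q'.under (𝓞 M)).inertia (M ≃ₐ[F] M) := by
  intro x
  change res F F' M M' τ • x - x ∈ Q'.under (𝓞 M)
  rw [Ideal.under_def, Ideal.mem_comap, map_sub, res_smul]
  exact hτ (algebraMap (𝓞 M) (𝓞 M') x)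

omit [NumberField F] [NumberField F'] [NumberField M] [NumberField M'] [IsGalois F' M'] in
/-- Unramifiedness goes up in a tower `M' = M F'`. -/
theorem isUnram_of_tower (hun : IsUnram F M)
    (hinj : ∀ τ : M' ≃ₐ[F'] M', (∀ x : M, τ (algebraMap M M' x) = algebraMap M M' x) → τ = 1) :
    IsUnram F' M' := by
  intro Q' hQ' hQ'0
  rw [Subgroup.eq_bot_iff_forall]
  intro τ hτ
  have hQp : (Q'.under (𝓞 M)).IsPrime := Ideal.comap_isPrime _ _
  have hQ0 : Q'.under (𝓞 M) ≠ ⊥ := Ideal.IsIntegral.comap_ne_bot (𝓞 M) hQ'0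
  have h1 := res_mem_inertia F F' M M' Q' τ hτ
  rw [hun _ hQp hQ0, Subgroup.mem_bot] at h1
  apply hinj
  intro x
  rw [← res_commutes F F' M M' τ x, h1]
  rfl

end Unram

section RelNorm

variable {F F' : Type*} [Field F] [Field F'] [NumberField F] [NumberField F'] [Algebra F F']

/-- A nonzero prime of residue degree one has relative norm the prime below. -/
theorem relNorm_eq_under_of_absNorm_eq (P' : Ideal (𝓞 F')) (hP' : P'.IsPrime) (hP'0 : P' ≠ ⊥)
    (h : Ideal.absNorm P' = Ideal.absNorm (P'.under (𝓞 F))) :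
    Ideal.relNorm (𝓞 F) P' = P'.under (𝓞 F) := by
  have hp : (P'.under (𝓞 F)).IsPrime := Ideal.IsPrime.under (𝓞 F) P'
  have hp0 : P'.under (𝓞 F) ≠ ⊥ := Ideal.IsIntegral.comap_ne_bot (𝓞 F) hP'0
  have hlo : P'.LiesOver (P'.under (𝓞 F)) := ⟨rfl⟩
  obtain ⟨s, hs⟩ := Ideal.exists_relNorm_eq_pow_of_isPrime P' (P'.under (𝓞 F))
  have h1 : Ideal.absNorm P' = Ideal.absNorm (P'.under (𝓞 F)) ^ s := by
    rw [← Ideal.absNorm_relNorm (𝓞 F) (𝓞 F') P', hs, map_pow]
  have hm : 1 < Ideal.absNorm (P'.under (𝓞 F)) :=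
    Fermat.Agent.Lib.NoTotalSplit.one_lt_absNorm_of_isPrime hp hp0
  rw [h] at h1
  have hs1 : s = 1 := by
    have h2 : Ideal.absNorm (P'.under (𝓞 F)) ^ 1 = Ideal.absNorm (P'.under (𝓞 F)) ^ s := by
      rw [pow_one]; exact h1
    exact (Nat.pow_right_injective hm h2).symm
  rw [hs, hs1, pow_one]

/-- If an automorphism `σ` of `Ω / F` is an arithmetic Frobenius at the prime `𝔓` of `Ω` and
fixes the intermediate field `F'` pointwise, then the prime of `F'` below `𝔓` has residue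
degree one: its relative norm is the prime of `F` below `𝔓`. -/
theorem relNorm_eq_under_of_fixed {Ω : Type*} [Field Ω] [NumberField Ω] [Algebra F Ω]
    [Algebra F' Ω] [IsScalarTower F F' Ω] [IsGalois F Ω] (𝔓 : Ideal (𝓞 Ω)) (h𝔓 : 𝔓.IsPrime)
    (h𝔓0 : 𝔓 ≠ ⊥) (σ : Ω ≃ₐ[F] Ω) (hσ : IsArithFrobAt (𝓞 F) σ 𝔓)
    (hfix : ∀ y : F', σ (algebraMap F' Ω y) = algebraMap F' Ω y) :
    Ideal.relNorm (𝓞 F) (𝔓.under (𝓞 F')) = 𝔓.under (𝓞 F) := by
  have hP' : (𝔓.under (𝓞 F')).IsPrime := Ideal.IsPrime.under (𝓞 F') 𝔓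
  have hP'0 : 𝔓.under (𝓞 F') ≠ ⊥ := Ideal.IsIntegral.comap_ne_bot (𝓞 F') h𝔓0
  have hunder : (𝔓.under (𝓞 F')).under (𝓞 F) = 𝔓.under (𝓞 F) := Ideal.under_under 𝔓
  rw [← hunder]
  apply relNorm_eq_under_of_absNorm_eq _ hP' hP'0
  apply Fermat.Agent.Lib.NoTotalSplit.absNorm_eq_of_forall_sub_pow_mem hP' hP'0
  intro y
  rw [hunder, Ideal.under_def, Ideal.mem_comap, map_sub, map_pow]
  have h1 := hσ (algebraMap (𝓞 F') (𝓞 Ω) y)
  have h2 : σ • algebraMap (𝓞 F') (𝓞 Ω) y = algebraMap (𝓞 F') (𝓞 Ω) y := by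
    apply NumberField.RingOfIntegers.ext
    have : ((σ • algebraMap (𝓞 F') (𝓞 Ω) y : 𝓞 Ω) : Ω) = σ ((algebraMap (𝓞 F') (𝓞 Ω) y : 𝓞 Ω) : Ω) :=
      algebraMap.smul' σ (algebraMap (𝓞 F') (𝓞 Ω) y) Ω
    rw [this]
    exact hfix (y : F')
  simp only [MulSemiringAction.toAlgHom_apply] at h1
  rwa [h2] at h1

end RelNorm

end Fermat.Agent.S14.Artin.CrossTools
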