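import Fermat.Agent.S14.Artin.Plan

/-!
# S14, Route A: the cyclotomic kernel statement

`CycKerStmt p` is the composite of `CRStmt p` (explicit cyclotomic reciprocity) and `SIStmt p`
(second inequality, consumer form): for an unramified Galois extension `M / F` of degree `p`
contained in `F(ζ_r)` (inside a Galois extension `E / F`), an ideal prime to `r` with trivial
Artin symbol has its class in the norm classes.  This is the only form in which the crossing
argument uses the two statements.
-/

set_option autoImplicit false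

open scoped NumberField nonZeroDivisors

namespace Fermat.Agent.S14.Artin

/-- Cyclotomic kernel statement (= `CRStmt` composed with `SIStmt`). -/
def CycKerStmt (p : ℕ) : Prop :=
  p.Prime → 3 ≤ p → ∀ (F M E : Type) [Field F] [Field M] [Field E] [NumberField F]
    [NumberField M] [NumberField E] [Algebra F M] [Algebra M E] [Algebra F E]
    [IsScalarTower F M E] [IsGalois F M] [IsGalois F E], (∃ ζ : F, IsPrimitiveRoot ζ p) →
    Module.finrank F M = p → IsUnram F M →
    ∀ art : (Ideal (𝓞 F))⁰ →* (M ≃ₐ[F] M), IsArt F M art →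
    ∀ r : ℕ, r.Prime → r ≠ p →
    (∀ σ : E ≃ₐ[F] E, (∀ t : E, t ^ r = 1 → σ t = t) →
      ∀ x : M, σ (algebraMap M E x) = algebraMap M E x) →
    ∀ 𝔞 : (Ideal (𝓞 F))⁰,
      (∀ v : Ideal (𝓞 F), v.IsPrime → (r : 𝓞 F) ∈ v → ¬ (𝔞 : Ideal (𝓞 F)) ≤ v) →
      art 𝔞 = 1 → ClassGroup.mk0 𝔞 ∈ nmClasses F M p

/-- The cyclotomic kernel statement from explicit reciprocity and the second inequality. -/
theorem cycKerStmt_of_cr_si (p : ℕ) (hCR : CRStmt p) (hSI : SIStmt p) : CycKerStmt p := by
  intro hp h3 F M E _ _ _ _ _ _ _ _ _ _ _ _ hζ hdeg hunr art hart r hr hrp hE 𝔞 h𝔞 h1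
  exact hSI hp h3 F M hζ hdeg hunr art hart r hr hrp
    (hCR hp h3 F M E hdeg art hart r hr hE) 𝔞 h𝔞 h1

end Fermat.Agent.S14.Artin
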