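import Mathlib
import Fermat.Agent.CFT.Global.SUnitHerbrand

/-!
# S14, Route A, package [H]: the norm index of `S`-units in a cyclic extension of prime degree

`N / F` a Galois extension of number fields of odd prime degree `p`, `S` a finite set of primes of
`F` such that `N / F` is unramified outside `S` and every prime outside `S` is principal up to `S`
(`IsPIDSet`), `SN` the set of primes of `N` above `S`.  Then

  `[E_{F,S} : N_{N/F}(E_{N,S})] * p = p ^ t`,

`t` the number of primes of `S` with exactly one prime of `N` above them (`unit_norm_index`).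

Proof: the Herbrand quotient of the `S`-units (`CFT/Global/SUnitHerbrand.herbrand_sunits_odd`) is
`p ^ t / p`; `Ĥ⁻¹(G, E_{N,S}) = 1` by Hilbert 90 and the PID hypothesis; `Ĥ⁰ = E_{F,S} / N E_{N,S}`.
-/

set_option autoImplicit false
set_option linter.unusedSectionVars false
set_option linter.style.haveILetI false

namespace Fermat.Agent.S14.Artin.UnitIndex

open NumberField IsDedekindDomain HeightOneSpectrum
open Fermat.Agent.CFT.Herbrand
open Fermat.Agent.CFT.Global.SUnitLattice
open Fermat.Agent.CFT.Global.SUnitHerbrand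

variable {F N : Type} [Field F] [Field N] [NumberField F] [NumberField N] [Algebra F N]

/-- The prime `v` of `F` has exactly one prime of `N` above it. -/
def IsNonsplit (N : Type) [Field N] [NumberField N] [Algebra F N]
    (v : HeightOneSpectrum (𝓞 F)) : Prop :=
  ∀ w w' : HeightOneSpectrum (𝓞 N), w.under (𝓞 F) = v → w'.under (𝓞 F) = v → w = w'

/-- `S` is a "PID set": every prime outside `S` is generated, up to `S`, by an element. -/
def IsPIDSet (S : Finset (HeightOneSpectrum (𝓞 F))) : Prop :=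
  ∀ v ∉ S, ∃ x : Fˣ, v.valuation F (x : F) = WithZero.exp (-1 : ℤ) ∧
    ∀ v' ∉ S, v' ≠ v → v'.valuation F (x : F) = 1

theorem under_primeMap (g : N ≃ₐ[F] N) (w : HeightOneSpectrum (𝓞 N)) :
    (primeMap g.toRingEquiv w).under (𝓞 F) = w.under (𝓞 F) := by
  apply HeightOneSpectrum.ext
  ext a
  simp only [under_asIdeal, Ideal.under_def, Ideal.mem_comap]
  rw [mem_primeMap]
  have : (RingOfIntegers.mapRingEquiv g.toRingEquiv).symm (algebraMap (𝓞 F) (𝓞 N) a)
      = algebraMap (𝓞 F) (𝓞 N) a := by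
    apply RingOfIntegers.ext
    show g.symm (algebraMap F N (a : F)) = algebraMap F N (a : F)
    exact g.symm.commutes _
  rw [this]

theorem exists_primeMap_eq [IsGalois F N] (w w' : HeightOneSpectrum (𝓞 N))
    (h : w.under (𝓞 F) = w'.under (𝓞 F)) :
    ∃ g : N ≃ₐ[F] N, primeMap g.toRingEquiv w = w' := by
  haveI := w.isPrime
  haveI := w'.isPrime
  have h' : w.asIdeal.under (𝓞 F) = w'.asIdeal.under (𝓞 F) := congrArg HeightOneSpectrum.asIdeal h
  obtain ⟨g, hg⟩ := Algebra.IsInvariant.exists_smul_of_under_eq (𝓞 F) (𝓞 N) (N ≃ₐ[F] N)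
    w.asIdeal w'.asIdeal h'
  refine ⟨g, HeightOneSpectrum.ext ?_⟩
  rw [primeMap_asIdeal, hg]
  rfl

theorem exists_under_eq (v : HeightOneSpectrum (𝓞 F)) :
    ∃ w : HeightOneSpectrum (𝓞 N), w.under (𝓞 F) = v := by
  haveI := v.isPrime
  obtain ⟨P, hP, hPv⟩ := Ideal.exists_maximal_ideal_liesOver_of_isIntegral (S := 𝓞 N) v.asIdeal
  have hne : P ≠ ⊥ := by
    intro h
    apply v.ne_bot
    rw [hPv.over, h]
    exact Ideal.under_bot ..
  refine ⟨⟨P, hP.isPrime, hne⟩, HeightOneSpectrum.ext ?_⟩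
  exact hPv.over.symm

/-- The set of primes where a nonzero element is not a unit is finite. -/
theorem finite_valuation_ne_one (z : Nˣ) :
    {w : HeightOneSpectrum (𝓞 N) | w.valuation N (z : N) ≠ 1}.Finite := by
  have h1 := HeightOneSpectrum.Support.finite (𝓞 N) (z : N)
  have h2 := HeightOneSpectrum.Support.finite (𝓞 N) ((z⁻¹ : Nˣ) : N)
  refine (h1.union h2).subset ?_
  intro w hw
  have hne : w.valuation N (z : N) ≠ 0 := (Valuation.ne_zero_iff _).2 z.ne_zero
  rcases lt_or_gt_of_ne hw with h | h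
  · right
    show 1 < w.valuation N ((z⁻¹ : Nˣ) : N)
    rw [Units.val_inv_eq_inv_val, map_inv₀]
    exact (one_lt_inv₀ (zero_lt_iff.2 hne)).2 h
  · left; exact h

open scoped Classical in
theorem exists_adjust
    (S : Finset (HeightOneSpectrum (𝓞 F))) (SN : Finset (HeightOneSpectrum (𝓞 N)))
    (hSN : ∀ w : HeightOneSpectrum (𝓞 N), w ∈ SN ↔ w.under (𝓞 F) ∈ S)
    (hunr : ∀ w : HeightOneSpectrum (𝓞 N), w ∉ SN → ∀ x : F,
      w.valuation N (algebraMap F N x) = (w.under (𝓞 F)).valuation F x)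
    (hpid : IsPIDSet S) (z : Nˣ)
    (hz : ∀ w w' : HeightOneSpectrum (𝓞 N), w ∉ SN → w.under (𝓞 F) = w'.under (𝓞 F) →
      w.valuation N (z : N) = w'.valuation N (z : N)) :
    ∃ x : Fˣ, ∀ w : HeightOneSpectrum (𝓞 N), w ∉ SN →
      w.valuation N ((z : N) / algebraMap F N (x : F)) = 1 := by
  choose ab hab using fun v : HeightOneSpectrum (𝓞 F) => exists_under_eq (N := N) v
  have hgen : ∀ v : HeightOneSpectrum (𝓞 F), ∃ x : Fˣ, v ∉ S →
      (v.valuation F (x : F) = WithZero.exp (-1 : ℤ) ∧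
        ∀ v' ∉ S, v' ≠ v → v'.valuation F (x : F) = 1) := by
    intro v
    by_cases hv : v ∈ S
    · exact ⟨1, fun h => absurd hv h⟩
    · obtain ⟨x, hx⟩ := hpid v hv
      exact ⟨x, fun _ => hx⟩
  choose xs hxs using hgen
  set k : HeightOneSpectrum (𝓞 F) → ℤ :=
    fun v => WithZero.log ((ab v).valuation N (z : N)) with hk
  have hB := finite_valuation_ne_one z
  set T : Finset (HeightOneSpectrum (𝓞 F)) :=
    (hB.toFinset.image (fun w => w.under (𝓞 F))).filter (fun v => v ∉ S) with hT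
  refine ⟨∏ v ∈ T, xs v ^ (- k v), ?_⟩
  intro w hw
  have hv₀ : w.under (𝓞 F) ∉ S := fun h => hw ((hSN w).2 h)
  have hzne : ∀ w' : HeightOneSpectrum (𝓞 N), w'.valuation N (z : N) ≠ 0 :=
    fun w' => (Valuation.ne_zero_iff _).2 z.ne_zero
  rw [map_div₀, hunr w hw]
  set v₀ := w.under (𝓞 F) with hv₀def
  have hprod : v₀.valuation F ((∏ v ∈ T, xs v ^ (- k v) : Fˣ) : F)
      = ∏ v ∈ T, (v₀.valuation F (xs v : F)) ^ (- k v) := by
    rw [Units.coe_prod, map_prod]
    refine Finset.prod_congr rfl fun v _ => ?_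
    rw [Units.val_zpow_eq_zpow_val, map_zpow₀]
  rw [hprod]
  by_cases hmem : v₀ ∈ T
  · rw [Finset.prod_eq_single_of_mem v₀ hmem]
    · rw [(hxs v₀ hv₀).1]
      have h1 : (WithZero.exp (-1 : ℤ)) ^ (- k v₀) = (ab v₀).valuation N (z : N) := by
        rw [← WithZero.exp_zsmul]
        simp only [smul_eq_mul, mul_neg, mul_one, neg_neg]
        rw [hk]; exact WithZero.exp_log (hzne _)
      rw [h1, hz w (ab v₀) hw (by rw [hab])]
      exact div_self (hzne _)
    · intro v hvT hne
      have hvS : v ∉ S := (Finset.mem_filter.1 hvT).2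
      rw [(hxs v hvS).2 v₀ hv₀ hne.symm, one_zpow]
  · have h1 : ∏ v ∈ T, (v₀.valuation F (xs v : F)) ^ (- k v) = 1 := by
      refine Finset.prod_eq_one fun v hvT => ?_
      have hvS : v ∉ S := (Finset.mem_filter.1 hvT).2
      have hne : v₀ ≠ v := fun h => hmem (h ▸ hvT)
      rw [(hxs v hvS).2 v₀ hv₀ hne, one_zpow]
    rw [h1, div_one]
    by_contra hne
    apply hmem
    rw [hT, Finset.mem_filter]
    exact ⟨Finset.mem_image.2 ⟨w, hB.mem_toFinset.2 hne, rfl⟩, hv₀⟩


section Galois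

variable [IsGalois F N]

theorem mem_decomp_iff (w : HeightOneSpectrum (𝓞 N)) (g : N ≃ₐ[F] N) :
    g ∈ decomp (N ≃ₐ[F] N) w ↔ primeMap g.toRingEquiv w = w := Iff.rfl

open scoped Classical in
theorem card_decomp {p : ℕ} (hp : p.Prime) (hdeg : Module.finrank F N = p)
    (w : HeightOneSpectrum (𝓞 N)) :
    Nat.card (decomp (N ≃ₐ[F] N) w) = if IsNonsplit N (w.under (𝓞 F)) then p else 1 := by
  haveI : FiniteDimensional F N := Module.finite_of_finrank_pos (by rw [hdeg]; exact hp.pos)
  have hcard : Nat.card (N ≃ₐ[F] N) = p := by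
    rw [IsGalois.card_aut_eq_finrank, hdeg]
  split_ifs with h
  · have : decomp (N ≃ₐ[F] N) w = ⊤ := by
      rw [eq_top_iff]
      intro g _
      rw [mem_decomp_iff]
      exact h _ _ (under_primeMap g w) rfl
    rw [this, Subgroup.card_top, hcard]
  · have hdvd : Nat.card (decomp (N ≃ₐ[F] N) w) ∣ p := by
      rw [← hcard]; exact Subgroup.card_subgroup_dvd_card _
    rcases (Nat.dvd_prime hp).1 hdvd with h1 | h1
    · exact h1
    · exfalso
      apply h
      have htop : decomp (N ≃ₐ[F] N) w = ⊤ :=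
        Subgroup.eq_top_of_card_eq _ (by rw [h1, hcard])
      have key : ∀ w' : HeightOneSpectrum (𝓞 N), w'.under (𝓞 F) = w.under (𝓞 F) → w' = w := by
        intro w' hw'
        obtain ⟨g, hg⟩ := exists_primeMap_eq w w' hw'.symm
        have hg' : g ∈ decomp (N ≃ₐ[F] N) w := by rw [htop]; exact Subgroup.mem_top g
        rw [mem_decomp_iff] at hg'
        rw [← hg, hg']
      intro w₁ w₂ h₁ h₂
      rw [key w₁ h₁, key w₂ h₂]

open scoped Classical in
/-- The Herbrand quotient of the `S`-units in degree `p`: `p ^ t / p`. -/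
theorem herbrand_sunits_prime {p : ℕ} (hp : p.Prime) (hp2 : p ≠ 2)
    (hdeg : Module.finrank F N = p)
    (S : Finset (HeightOneSpectrum (𝓞 F))) (SN : Finset (HeightOneSpectrum (𝓞 N)))
    (hSN : ∀ w : HeightOneSpectrum (𝓞 N), w ∈ SN ↔ w.under (𝓞 F) ∈ S)
    (hS : IsStable (N ≃ₐ[F] N) SN) :
    IsFinH (sunitRho SN hS) ∧ herbrand (sunitRho SN hS) =
      (p : ℚ) ^ (S.filter (fun v => IsNonsplit N v)).card / (p : ℚ) := by
  haveI : FiniteDimensional F N := Module.finite_of_finrank_pos (by rw [hdeg]; exact hp.pos)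
  have hcard : Nat.card (N ≃ₐ[F] N) = p := by
    rw [IsGalois.card_aut_eq_finrank, hdeg]
  haveI : Fact p.Prime := ⟨hp⟩
  haveI : IsCyclic (N ≃ₐ[F] N) := isCyclic_of_prime_card hcard
  have hodd : Odd (Nat.card (N ≃ₐ[F] N)) := by
    rw [hcard]; exact hp.odd_of_ne_two hp2
  choose ab hab using fun v : HeightOneSpectrum (𝓞 F) => exists_under_eq (N := N) v
  have hinj : Function.Injective ab := fun v v' h => by rw [← hab v, ← hab v', h]
  have key := herbrand_sunits_odd (G := N ≃ₐ[F] N) hodd SN hS (S.image ab) ?_ ?_ ?_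
  · refine ⟨key.1, key.2.trans ?_⟩
    rw [hcard, Finset.prod_image (fun x _ y _ h => hinj h)]
    congr 1
    have : ∀ v ∈ S, (Nat.card (decomp (N ≃ₐ[F] N) (ab v)) : ℚ)
        = if IsNonsplit N v then (p : ℚ) else 1 := by
      intro v _
      rw [card_decomp hp hdeg, hab v]
      split_ifs <;> simp
    rw [Finset.prod_congr rfl this, Finset.prod_ite, Finset.prod_const, Finset.prod_const_one,
      mul_one]
  · intro w hw
    obtain ⟨v, hv, rfl⟩ := Finset.mem_image.1 hw
    rw [hSN, hab]; exact hv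
  · intro w hw
    rw [hSN] at hw
    refine ⟨ab (w.under (𝓞 F)), Finset.mem_image_of_mem _ hw, ?_⟩
    obtain ⟨g, hg⟩ := exists_primeMap_eq (ab (w.under (𝓞 F))) w (hab _)
    exact ⟨g, hg⟩
  · intro y hy y' hy' g hg
    obtain ⟨v, hv, rfl⟩ := Finset.mem_image.1 hy
    obtain ⟨v', hv', rfl⟩ := Finset.mem_image.1 hy'
    have h1 : (primeMap g.toRingEquiv (ab v)).under (𝓞 F) = v := by
      rw [under_primeMap, hab]
    have h2 : primeMap g.toRingEquiv (ab v) = ab v' := hg
    rw [h2, hab] at h1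
    rw [h1]


theorem valuation_const_of_div (SN : Finset (HeightOneSpectrum (𝓞 N)))
    (hS : IsStable (N ≃ₐ[F] N) SN) (σ : N ≃ₐ[F] N) (hσ : ∀ g, g ∈ Subgroup.zpowers σ) (z : Nˣ)
    (hz : ∀ w : HeightOneSpectrum (𝓞 N), w ∉ SN →
      w.valuation N (σ (z : N)) = w.valuation N (z : N)) :
    ∀ w w' : HeightOneSpectrum (𝓞 N), w ∉ SN → w.under (𝓞 F) = w'.under (𝓞 F) →
      w.valuation N (z : N) = w'.valuation N (z : N) := by
  have base : ∀ w : HeightOneSpectrum (𝓞 N), w ∉ SN →
      (primeMap (aut N σ) w).valuation N (z : N) = w.valuation N (z : N) := by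
    intro w hw
    have hw' : primeMap (aut N σ) w ∉ SN := fun h => hw ((hS σ w).1 h)
    rw [← hz _ hw']
    exact valuation_primeMap (aut N σ) w (z : N)
  have hpow : ∀ n : ℕ, ∀ w : HeightOneSpectrum (𝓞 N), w ∉ SN →
      (primeMap (aut N (σ ^ n)) w).valuation N (z : N) = w.valuation N (z : N) := by
    intro n
    induction n with
    | zero =>
      intro w _
      rw [pow_zero, primeMap_aut_one]
    | succ n ih =>
      intro w hw
      have hw' : primeMap (aut N σ) w ∉ SN := fun h => hw ((hS σ w).1 h)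
      rw [pow_succ, primeMap_aut_mul, ih _ hw', base w hw]
  intro w w' hw h
  obtain ⟨g, hg⟩ := exists_primeMap_eq w w' h
  obtain ⟨n, rfl⟩ := mem_powers_iff_mem_zpowers.mpr (hσ g)
  rw [← hg]
  exact (hpow n w hw).symm

theorem hm1_eq_one {p : ℕ} (hp : p.Prime) (hdeg : Module.finrank F N = p)
    (S : Finset (HeightOneSpectrum (𝓞 F))) (SN : Finset (HeightOneSpectrum (𝓞 N)))
    (hSN : ∀ w : HeightOneSpectrum (𝓞 N), w ∈ SN ↔ w.under (𝓞 F) ∈ S)
    (hunr : ∀ w : HeightOneSpectrum (𝓞 N), w ∉ SN → ∀ x : F,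
      w.valuation N (algebraMap F N x) = (w.under (𝓞 F)).valuation F x)
    (hpid : IsPIDSet S) (hS : IsStable (N ≃ₐ[F] N) SN) :
    hm1 (sunitRho SN hS) = 1 := by
  have hcard : Nat.card (N ≃ₐ[F] N) = p := by
    rw [IsGalois.card_aut_eq_finrank, hdeg]
  haveI : Fact p.Prime := ⟨hp⟩
  haveI : IsCyclic (N ≃ₐ[F] N) := isCyclic_of_prime_card hcard
  obtain ⟨σ, hσ⟩ := IsCyclic.exists_generator (α := N ≃ₐ[F] N)
  rw [hm1, AddSubgroup.relIndex_eq_one]
  intro a ha
  obtain ⟨u, rfl⟩ := Additive.ofMul.surjective a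
  -- the norm of `u` is `1`
  have hn : Algebra.norm F ((u : Nˣ) : N) = 1 := by
    have h0 : nEnd (sunitRho SN hS) (Additive.ofMul u) = 0 := ha
    rw [nEnd_apply] at h0
    have h1 : (∏ g : N ≃ₐ[F] N, g ((u : Nˣ) : N)) = 1 := by
      have h2 := congrArg
        (fun a : Additive (SUnits N SN) => (((Additive.toMul a : SUnits N SN) : Nˣ) : N)) h0
      simp only [toMul_sum, toMul_zero] at h2
      rw [Subgroup.val_finsetProd, Units.coe_prod] at h2
      exact h2
    apply (algebraMap F N).injective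
    rw [Algebra.norm_eq_prod_automorphisms, map_one]
    exact h1
  obtain ⟨y, hy⟩ := groupCohomology.exists_div_of_norm_eq_one hσ hn
  -- `u = σ z / z` with `z = y⁻¹`
  have hzu : σ ((y⁻¹ : Nˣ) : N) / ((y⁻¹ : Nˣ) : N) = ((u : Nˣ) : N) := by
    rw [← hy, Units.val_inv_eq_inv_val, map_inv₀]
    field_simp
  have hval : ∀ w : HeightOneSpectrum (𝓞 N), w ∉ SN →
      w.valuation N (σ ((y⁻¹ : Nˣ) : N)) = w.valuation N ((y⁻¹ : Nˣ) : N) := by
    intro w hw
    have h1 : w.valuation N ((u : Nˣ) : N) = 1 := Set.unit_valuation_eq_one _ N u (by simpa using hw)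
    rw [← hzu, map_div₀] at h1
    exact (div_eq_one_iff_eq ((Valuation.ne_zero_iff _).2 (y⁻¹).ne_zero)).1 h1
  obtain ⟨x, hx⟩ := exists_adjust S SN hSN hunr hpid y⁻¹
    (valuation_const_of_div SN hS σ hσ y⁻¹ hval)
  -- the adjusted element
  set z' : Nˣ := y⁻¹ / Units.map (algebraMap F N : F →* N) x with hz'
  have hz'mem : z' ∈ SUnits N SN := by
    intro w hw
    have := hx w (by simpa using hw)
    rw [hz']
    simpa using this
  have hmem : Additive.ofMul u = dEnd (sunitRho SN hS) σ (Additive.ofMul ⟨z', hz'mem⟩) := by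
    rw [dEnd_apply, sunitRho_apply, ← ofMul_div]
    congr 1
    apply Subtype.ext
    apply Units.ext
    rw [Subgroup.coe_div, Units.val_div_eq_div_val, coe_sunitMap, ← hzu]
    show _ = σ ((z' : Nˣ) : N) / ((z' : Nˣ) : N)
    rw [hz', Units.val_div_eq_div_val, map_div₀]
    have : σ ((Units.map (algebraMap F N : F →* N) x : Nˣ) : N)
        = ((Units.map (algebraMap F N : F →* N) x : Nˣ) : N) := σ.commutes _
    rw [this]
    have hne : ((Units.map (algebraMap F N : F →* N) x : Nˣ) : N) ≠ 0 := Units.ne_zero _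
    have hne2 : ((y⁻¹ : Nˣ) : N) ≠ 0 := Units.ne_zero _
    field_simp
  rw [hmem]
  exact (le_iSup (fun g : N ≃ₐ[F] N => (dEnd (sunitRho SN hS) g).range) σ) ⟨_, rfl⟩


/-- The two embeddings into `Additive Nˣ`. -/
noncomputable def phi (F N : Type) [Field F] [Field N] [Algebra F N] : Additive Fˣ →+ Additive Nˣ :=
  MonoidHom.toAdditive (Units.map (algebraMap F N : F →* N))

theorem phi_injective : Function.Injective (phi F N) := by
  intro a b h
  have h1 : Units.map (algebraMap F N : F →* N) (Additive.toMul a)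
      = Units.map (algebraMap F N : F →* N) (Additive.toMul b) := congrArg Additive.toMul h
  have h2 : ((Additive.toMul a : Fˣ) : F) = ((Additive.toMul b : Fˣ) : F) :=
    (algebraMap F N).injective (congrArg Units.val h1)
  exact congrArg Additive.ofMul (Units.ext h2)

noncomputable def psi (SN : Finset (HeightOneSpectrum (𝓞 N))) :
    Additive (SUnits N SN) →+ Additive Nˣ :=
  MonoidHom.toAdditive (SUnits N SN).subtype

theorem psi_injective (SN : Finset (HeightOneSpectrum (𝓞 N))) : Function.Injective (psi SN) := by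
  intro a b h
  have h1 : ((Additive.toMul a : SUnits N SN) : Nˣ) = ((Additive.toMul b : SUnits N SN) : Nˣ) :=
    congrArg Additive.toMul h
  exact congrArg Additive.ofMul (Subtype.ext h1)

/-- The norm of an `S`-unit, viewed in `N`, is the product of its conjugates. -/
theorem psi_nEnd (SN : Finset (HeightOneSpectrum (𝓞 N))) (hS : IsStable (N ≃ₐ[F] N) SN)
    (u : SUnits N SN) :
    psi SN (nEnd (sunitRho SN hS) (Additive.ofMul u))
      = phi F N (Additive.ofMul (Units.map (Algebra.norm F : N →* F) (u : Nˣ))) := by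
  rw [nEnd_apply, map_sum]
  apply Additive.toMul.injective
  rw [toMul_sum]
  apply Units.ext
  rw [Units.coe_prod]
  show ∏ g : N ≃ₐ[F] N, g ((u : Nˣ) : N) = algebraMap F N (Algebra.norm F ((u : Nˣ) : N))
  rw [Algebra.norm_eq_prod_automorphisms]

theorem map_range_nEnd (SN : Finset (HeightOneSpectrum (𝓞 N))) (hS : IsStable (N ≃ₐ[F] N) SN) :
    (nEnd (sunitRho SN hS)).range.map (psi SN)
      = (Subgroup.toAddSubgroup ((SUnits N SN).map (Units.map (Algebra.norm F : N →* F)))).map
          (phi F N) := by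
  ext b
  constructor
  · rintro ⟨_, ⟨a, rfl⟩, rfl⟩
    obtain ⟨u, rfl⟩ := Additive.ofMul.surjective a
    rw [psi_nEnd]
    exact ⟨_, ⟨(u : Nˣ), u.2, rfl⟩, rfl⟩
  · rintro ⟨_, ⟨u, hu, rfl⟩, rfl⟩
    refine ⟨_, ⟨Additive.ofMul ⟨u, hu⟩, rfl⟩, ?_⟩
    rw [psi_nEnd]
    rfl

theorem map_invariants
    (S : Finset (HeightOneSpectrum (𝓞 F))) (SN : Finset (HeightOneSpectrum (𝓞 N)))
    (hSN : ∀ w : HeightOneSpectrum (𝓞 N), w ∈ SN ↔ w.under (𝓞 F) ∈ S)
    (hunr : ∀ w : HeightOneSpectrum (𝓞 N), w ∉ SN → ∀ x : F,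
      w.valuation N (algebraMap F N x) = (w.under (𝓞 F)).valuation F x)
    (hS : IsStable (N ≃ₐ[F] N) SN) :
    (invariants (sunitRho SN hS)).map (psi SN)
      = (Subgroup.toAddSubgroup (SUnits F S)).map (phi F N) := by
  ext b
  constructor
  · rintro ⟨a, ha, rfl⟩
    obtain ⟨u, rfl⟩ := Additive.ofMul.surjective a
    have hfix : ∀ g : N ≃ₐ[F] N, g ((u : Nˣ) : N) = ((u : Nˣ) : N) := by
      intro g
      have h1 := ha g
      rw [sunitRho_apply] at h1
      have h2 : sunitMap (aut N g) SN (hS g) u = u := Additive.ofMul.injective h1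
      have h3 := congrArg (fun u : SUnits N SN => ((u : Nˣ) : N)) h2
      exact h3
    obtain ⟨x₀, hx₀⟩ := (IsGalois.mem_range_algebraMap_iff_fixed (F := F) ((u : Nˣ) : N)).2 hfix
    have hx₀ne : x₀ ≠ 0 := by
      rintro rfl
      rw [map_zero] at hx₀
      exact (Units.ne_zero (u : Nˣ)) hx₀.symm
    refine ⟨Additive.ofMul (Units.mk0 x₀ hx₀ne), ?_, ?_⟩
    · show Units.mk0 x₀ hx₀ne ∈ SUnits F S
      intro v hv
      obtain ⟨w, hw⟩ := exists_under_eq (N := N) v
      have hwSN : w ∉ SN := by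
        rw [hSN, hw]; simpa using hv
      have h1 : w.valuation N ((u : Nˣ) : N) = 1 :=
        Set.unit_valuation_eq_one _ N u (by simpa using hwSN)
      rw [← hx₀, hunr w hwSN, hw] at h1
      exact h1
    · apply Additive.toMul.injective
      apply Units.ext
      exact hx₀
  · rintro ⟨a, ha, rfl⟩
    obtain ⟨x, rfl⟩ := Additive.ofMul.surjective a
    have hx : x ∈ SUnits F S := ha
    have hmem : Units.map (algebraMap F N : F →* N) x ∈ SUnits N SN := by
      intro w hw
      have hwSN : w ∉ SN := by simpa using hw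
      have h1 : w.under (𝓞 F) ∉ S := fun h => hwSN ((hSN w).2 h)
      have h2 : (w.under (𝓞 F)).valuation F (x : F) = 1 :=
        Set.unit_valuation_eq_one _ F ⟨x, hx⟩ (by simpa using h1)
      show w.valuation N (algebraMap F N (x : F)) = 1
      rw [hunr w hwSN, h2]
    refine ⟨Additive.ofMul ⟨_, hmem⟩, ?_, rfl⟩
    intro g
    rw [sunitRho_apply]
    congr 1
    apply Subtype.ext
    apply Units.ext
    show g (algebraMap F N (x : F)) = algebraMap F N (x : F)
    exact g.commutes _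

theorem h0_eq
    (S : Finset (HeightOneSpectrum (𝓞 F))) (SN : Finset (HeightOneSpectrum (𝓞 N)))
    (hSN : ∀ w : HeightOneSpectrum (𝓞 N), w ∈ SN ↔ w.under (𝓞 F) ∈ S)
    (hunr : ∀ w : HeightOneSpectrum (𝓞 N), w ∉ SN → ∀ x : F,
      w.valuation N (algebraMap F N x) = (w.under (𝓞 F)).valuation F x)
    (hS : IsStable (N ≃ₐ[F] N) SN) :
    h0 (sunitRho SN hS)
      = ((SUnits N SN).map (Units.map (Algebra.norm F : N →* F))).relIndex (SUnits F S) := by
  rw [h0, ← AddSubgroup.relIndex_map_map_of_injective _ _ (psi_injective SN), map_range_nEnd,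
    map_invariants S SN hSN hunr hS, AddSubgroup.relIndex_map_map_of_injective _ _ phi_injective]
  rfl

open scoped Classical in
/-- **[H]**: the norm index of `S`-units in a Galois extension of odd prime degree `p`, for a
PID set `S` containing the ramified primes: `[E_{F,S} : N(E_{N,S})] * p = p ^ t`, `t` the number
of primes of `S` with exactly one prime of `N` above. -/
theorem unit_norm_index {p : ℕ} (hp : p.Prime) (hp2 : p ≠ 2)
    (hdeg : Module.finrank F N = p)
    (S : Finset (HeightOneSpectrum (𝓞 F))) (SN : Finset (HeightOneSpectrum (𝓞 N)))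
    (hSN : ∀ w : HeightOneSpectrum (𝓞 N), w ∈ SN ↔ w.under (𝓞 F) ∈ S)
    (hunr : ∀ w : HeightOneSpectrum (𝓞 N), w ∉ SN → ∀ x : F,
      w.valuation N (algebraMap F N x) = (w.under (𝓞 F)).valuation F x)
    (hpid : IsPIDSet S) :
    ((SUnits N SN).map (Units.map (Algebra.norm F : N →* F))).relIndex (SUnits F S) * p
      = p ^ (S.filter (fun v => IsNonsplit N v)).card := by
  have hS : IsStable (N ≃ₐ[F] N) SN := by
    refine isStable_of_forall_mem _ fun g w hw => ?_
    rw [hSN] at hw ⊢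
    have := under_primeMap g w
    rw [show primeMap (aut N g) w = primeMap g.toRingEquiv w from rfl, this]
    exact hw
  obtain ⟨hfin, hher⟩ := herbrand_sunits_prime hp hp2 hdeg S SN hSN hS
  have h1 := hm1_eq_one hp hdeg S SN hSN hunr hpid hS
  rw [herbrand, h1, h0_eq S SN hSN hunr hS] at hher
  have hp0 : (p : ℚ) ≠ 0 := Nat.cast_ne_zero.2 hp.ne_zero
  rw [Nat.cast_one, div_one, eq_div_iff hp0] at hher
  exact_mod_cast hher

end Galois

end Fermat.Agent.S14.Artin.UnitIndex
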