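import Fermat.Agent.S14.Artin.Basic
import Fermat.Agent.S14.Artin.UnitIndex
import Fermat.Agent.Lib.NormResidue

/-!
# S14, Route A, [FI]: the first inequality for an unramified extension of odd prime degree

`fiStmt p : FIStmt p`: if `M / F` is Galois of odd prime degree `p` and unramified at every finite
prime, the norm classes `nmClasses F M p` (generated by the classes of the completely split primes
and the `p`-th powers) do not fill the class group of `F`.

Proof (unit index squeeze).  Assume they do.  Take a finite set `S₀` of primes generating the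
class group (`exists_isPIDSet`) and let `v₁, …, v_t` be the primes of `S₀` with exactly one prime
of `M` above.  For each `v_i` the hypothesis gives `z_i ∈ Fˣ` with `ord_q z_i ≡ δ_{q, v_i}` modulo
`p` at every non-split prime `q` (`exists_dual`); a `p`-th power correction makes it a unit at
the non-split primes outside `S₀` (`exists_pow_adjust`), and adding the (split) primes of its
support to `S₀` gives a set `Sg` with the same non-split primes in which all `u_i` are `Sg`-units.
Norms have `ord_{v_i} ≡ 0` modulo `p` (`norm_mem_Hq`), so the index of the norms of the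
`Sg`-units of `M` in the `Sg`-units of `F` is divisible by `p ^ t`
(`Lib.NormResidue.relIndex_mul_ne_pow_card`), against `UnitIndex.unit_norm_index`
(the index is `p ^ (t - 1)`).
-/

set_option autoImplicit false
set_option linter.unusedSectionVars false
set_option linter.style.haveILetI false

open scoped NumberField nonZeroDivisors Pointwise
open NumberField IsDedekindDomain HeightOneSpectrum

namespace Fermat.Agent.S14.Artin.FI

open Fermat.Agent.S14.Artin Fermat.Agent.S14.Artin.UnitIndex Fermat.Agent.Lib.NormResidue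
open Fermat.Agent.CFT.Global.SUnitLattice

section PID

/-- If `v * J = (x)` with `v ∤ J`, then `x` is a uniformizer at `v` and a unit at the primes
not dividing `J`. -/
theorem intValuation_of_mul_eq_span {R : Type*} [CommRing R] [IsDedekindDomain R]
    (v : HeightOneSpectrum R) (J : Ideal R) (x : R) (hJ : ¬ v.asIdeal ∣ J)
    (hx : v.asIdeal * J = Ideal.span {x}) (hx0 : x ≠ 0) :
    v.intValuation x = WithZero.exp (-1 : ℤ) ∧
      ∀ v' : HeightOneSpectrum R, v' ≠ v → ¬ v'.asIdeal ∣ J → v'.intValuation x = 1 := by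
  have hv0 : v.asIdeal ≠ 0 := v.ne_bot
  constructor
  · have hmem1 : x ∈ v.asIdeal ^ 1 := by
      rw [pow_one]
      have : x ∈ Ideal.span {x} := Ideal.mem_span_singleton_self x
      rw [← hx] at this
      exact Ideal.mul_le_left this
    have hmem2 : x ∉ v.asIdeal ^ 2 := by
      intro hmem
      have h3 : v.asIdeal * v.asIdeal ∣ v.asIdeal * J := by
        rw [hx, Ideal.dvd_iff_le, Ideal.span_singleton_le_iff_mem, ← pow_two]
        exact hmem
      exact hJ ((mul_dvd_mul_iff_left hv0).1 h3)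
    rw [← intValuation_le_pow_iff_mem] at hmem1 hmem2
    rw [v.intValuation_if_neg hx0] at hmem1 hmem2 ⊢
    rw [WithZero.exp_le_exp] at hmem1 hmem2
    congr 1
    push_cast at hmem1 hmem2
    omega
  · intro v' hne hJ'
    rw [intValuation_eq_one_iff]
    intro hmem
    have h3 : v.asIdeal * J ≤ v'.asIdeal := by
      rw [hx, Ideal.span_singleton_le_iff_mem]
      exact hmem
    rcases (v'.isPrime.mul_le).1 h3 with h4 | h4
    · exact hne (HeightOneSpectrum.ext (v.isMaximal.eq_of_le v'.isPrime.ne_top h4)).symm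
    · exact hJ' (Ideal.dvd_iff_le.2 h4)

variable {F : Type} [Field F] [NumberField F]

theorem isPIDSet_mono {S S' : Finset (HeightOneSpectrum (𝓞 F))} (h : S ⊆ S') (hS : IsPIDSet S) :
    IsPIDSet S' := by
  intro v hv
  obtain ⟨x, hx, hx'⟩ := hS v (fun h' => hv (h h'))
  exact ⟨x, hx, fun v' hv' hne => hx' v' (fun h' => hv' (h h')) hne⟩

/-- Every number field has a finite set of primes generating the class group. -/
theorem exists_isPIDSet : ∃ S : Finset (HeightOneSpectrum (𝓞 F)), IsPIDSet S := by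
  classical
  choose I hI using fun c : ClassGroup (𝓞 F) => ClassGroup.mk0_surjective c
  have hfin : ∀ c, {v : HeightOneSpectrum (𝓞 F) | v.asIdeal ∣ (I c : Ideal (𝓞 F))}.Finite :=
    fun c => Ideal.finite_factors (nonZeroDivisors.coe_ne_zero (I c))
  have hfin' : (⋃ c, {v : HeightOneSpectrum (𝓞 F) | v.asIdeal ∣ (I c : Ideal (𝓞 F))}).Finite :=
    Set.finite_iUnion hfin
  refine ⟨hfin'.toFinset, fun v hv => ?_⟩
  have hv' : ∀ (v' : HeightOneSpectrum (𝓞 F)), v' ∉ hfin'.toFinset →
      ∀ c, ¬ v'.asIdeal ∣ (I c : Ideal (𝓞 F)) := by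
    intro v' hv' c hc
    exact hv' (hfin'.mem_toFinset.2 (Set.mem_iUnion.2 ⟨c, hc⟩))
  obtain ⟨c, h1⟩ : ∃ c,
      ClassGroup.mk0 (⟨v.asIdeal, mem_nonZeroDivisors_iff_ne_zero.2 v.ne_bot⟩ * I c) = 1 := by
    refine ⟨(ClassGroup.mk0 ⟨v.asIdeal, mem_nonZeroDivisors_iff_ne_zero.2 v.ne_bot⟩)⁻¹, ?_⟩
    rw [map_mul, hI, mul_inv_cancel]
  obtain ⟨x, hx⟩ := (ClassGroup.mk0_eq_one_iff (Submonoid.mul_mem _
    (mem_nonZeroDivisors_iff_ne_zero.2 v.ne_bot) (I c).2)).1 h1
  have hx' : v.asIdeal * (I c : Ideal (𝓞 F)) = Ideal.span {x} := hx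
  have hJ0 : (I c : Ideal (𝓞 F)) ≠ 0 := nonZeroDivisors.coe_ne_zero _
  have hx0 : x ≠ 0 := by
    rintro rfl
    rw [Ideal.span_singleton_zero] at hx'
    exact mul_ne_zero v.ne_bot hJ0 hx'
  have hxK : algebraMap (𝓞 F) F x ≠ 0 := by simpa using hx0
  obtain ⟨hA, hB⟩ := intValuation_of_mul_eq_span v _ x (hv' v hv c) hx' hx0
  refine ⟨Units.mk0 _ hxK, ?_, ?_⟩
  · rw [Units.val_mk0, valuation_of_algebraMap]
    exact hA
  · intro v' hv'S hne
    rw [Units.val_mk0, valuation_of_algebraMap]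
    exact hB v' hne (hv' v' hv'S c)

end PID

section Nonsplit

variable {F M : Type} [Field F] [Field M] [NumberField F] [NumberField M] [Algebra F M]

/-- The primes of `M` above a finite set of primes of `F`. -/
theorem exists_above (S : Finset (HeightOneSpectrum (𝓞 F))) :
    ∃ SN : Finset (HeightOneSpectrum (𝓞 M)), ∀ w, w ∈ SN ↔ w.under (𝓞 F) ∈ S := by
  have hfin : {w : HeightOneSpectrum (𝓞 M) | w.under (𝓞 F) ∈ S}.Finite := by
    have h1 : ∀ v ∈ S, {w : HeightOneSpectrum (𝓞 M) | w.under (𝓞 F) = v}.Finite := by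
      intro v _
      haveI := v.isMaximal
      have h2 := IsDedekindDomain.primesOver_finite v.asIdeal (𝓞 M)
      refine (h2.preimage (f := HeightOneSpectrum.asIdeal)
        (fun a _ b _ hab => HeightOneSpectrum.ext hab)).subset ?_
      intro w hw
      exact ⟨w.isPrime, ⟨by rw [← hw]; rfl⟩⟩
    refine (Set.Finite.biUnion S.finite_toSet h1).subset ?_
    intro w hw
    exact Set.mem_biUnion hw rfl
  exact ⟨hfin.toFinset, fun w => hfin.mem_toFinset⟩

variable [IsGalois F M]

theorem smul_eq_of_isNonsplit {v : HeightOneSpectrum (𝓞 F)} (h : IsNonsplit M v)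
    (W : HeightOneSpectrum (𝓞 M)) (hW : W.under (𝓞 F) = v) (σ : M ≃ₐ[F] M) :
    σ • W.asIdeal = W.asIdeal := by
  have h1 := h (primeMap σ.toRingEquiv W) W (by rw [under_primeMap, hW]) hW
  have h2 := congrArg HeightOneSpectrum.asIdeal h1
  rw [primeMap_asIdeal] at h2
  exact h2

/-- In an unramified extension the valuations of `M` extend those of `F` without exponent. -/
theorem valuation_algebraMap_of_isUnram (hun : IsUnram F M) (w : HeightOneSpectrum (𝓞 M))
    (x : F) : w.valuation M (algebraMap F M x) = (w.under (𝓞 F)).valuation F x := by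
  haveI : w.asIdeal.LiesOver (w.under (𝓞 F)).asIdeal := ⟨rfl⟩
  have h := valuation_liesOver M (w.under (𝓞 F)) w x
  rw [ramificationIdx'_eq_card_inertia (w.under (𝓞 F)) w, hun w.asIdeal w.isPrime w.ne_bot,
    Subgroup.card_bot, pow_one] at h
  exact h.symm

/-- At a prime with exactly one prime above (and no ramification), the valuation of a norm is a
`[M:F]`-th power. -/
theorem valuation_norm_of_isNonsplit (hun : IsUnram F M) {v : HeightOneSpectrum (𝓞 F)}
    (h : IsNonsplit M v) (W : HeightOneSpectrum (𝓞 M)) (hW : W.under (𝓞 F) = v) (β : M) :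
    v.valuation F (Algebra.norm F β) = W.valuation M β ^ Module.finrank F M := by
  haveI : W.asIdeal.LiesOver v.asIdeal := ⟨by rw [← hW]; rfl⟩
  exact valuation_norm_of_inertia_eq_bot v W (smul_eq_of_isNonsplit h W hW)
    (hun W.asIdeal W.isPrime W.ne_bot) β

attribute [local instance] Ideal.Quotient.field in
/-- If the identity is a Frobenius at `W`, the residue field at `W` is the residue field below. -/
theorem exists_sub_mem_of_isArithFrobAt_one (v : HeightOneSpectrum (𝓞 F))
    (W : HeightOneSpectrum (𝓞 M)) [W.asIdeal.LiesOver v.asIdeal]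
    (hfr : IsArithFrobAt (𝓞 F) (1 : M ≃ₐ[F] M) W.asIdeal) (x : 𝓞 M) :
    ∃ c : 𝓞 F, x - algebraMap (𝓞 F) (𝓞 M) c ∈ W.asIdeal := by
  classical
  haveI : Finite (𝓞 F ⧸ v.asIdeal) := inferInstance
  haveI : Finite (𝓞 M ⧸ W.asIdeal) := inferInstance
  letI := Fintype.ofFinite (𝓞 M ⧸ W.asIdeal)
  have hq : 1 < Nat.card (𝓞 F ⧸ v.asIdeal) := Finite.one_lt_card
  have hroot : ∀ y : 𝓞 M ⧸ W.asIdeal, y ^ Nat.card (𝓞 F ⧸ v.asIdeal) = y := by
    intro y
    obtain ⟨z, rfl⟩ := Ideal.Quotient.mk_surjective y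
    have h1 := hfr z
    rw [← Ideal.over_def W.asIdeal v.asIdeal] at h1
    have h2 : z - z ^ Nat.card (𝓞 F ⧸ v.asIdeal) ∈ W.asIdeal := by simpa using h1
    rw [← map_pow]
    exact (Ideal.Quotient.eq.2 h2).symm
  have hcard : Fintype.card (𝓞 M ⧸ W.asIdeal) ≤ Nat.card (𝓞 F ⧸ v.asIdeal) := by
    have h0 : (Polynomial.X ^ Nat.card (𝓞 F ⧸ v.asIdeal) - Polynomial.X :
        Polynomial (𝓞 M ⧸ W.asIdeal)) ≠ 0 := FiniteField.X_pow_card_sub_X_ne_zero _ hq
    have := Polynomial.card_le_degree_of_subset_roots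
      (p := (Polynomial.X ^ Nat.card (𝓞 F ⧸ v.asIdeal) - Polynomial.X :
        Polynomial (𝓞 M ⧸ W.asIdeal))) (Z := Finset.univ)
      (fun y _ => by rw [Polynomial.mem_roots h0]; simp [hroot y])
    rwa [FiniteField.X_pow_card_sub_X_natDegree_eq _ hq, Finset.card_univ] at this
  have hinj : Function.Injective (algebraMap (𝓞 F ⧸ v.asIdeal) (𝓞 M ⧸ W.asIdeal)) :=
    (algebraMap (𝓞 F ⧸ v.asIdeal) (𝓞 M ⧸ W.asIdeal)).injective
  have hsurj : Function.Surjective (algebraMap (𝓞 F ⧸ v.asIdeal) (𝓞 M ⧸ W.asIdeal)) :=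
    (Function.Injective.bijective_of_nat_card_le hinj
      (by rw [Nat.card_eq_fintype_card]; exact hcard)).2
  obtain ⟨c', hc'⟩ := hsurj (Ideal.Quotient.mk _ x)
  obtain ⟨c, rfl⟩ := Ideal.Quotient.mk_surjective c'
  refine ⟨c, ?_⟩
  rw [← Ideal.Quotient.eq, ← hc']
  rfl

/-- A prime with exactly one prime above it in an unramified extension of degree `> 1` does not
split completely. -/
theorem not_isSplit_of_isNonsplit (hdeg : 1 < Module.finrank F M) (hun : IsUnram F M)
    {v : HeightOneSpectrum (𝓞 F)} (h : IsNonsplit M v) : ¬ IsSplit F M v.asIdeal := by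
  intro hs
  obtain ⟨W, hW⟩ := exists_under_eq (N := M) v
  haveI : W.asIdeal.LiesOver v.asIdeal := ⟨by rw [← hW]; rfl⟩
  have hfr := hs W.asIdeal W.isPrime (congrArg HeightOneSpectrum.asIdeal hW)
  have hall : ∀ σ : M ≃ₐ[F] M, σ = 1 := by
    intro σ
    have hσ : σ ∈ W.asIdeal.inertia (M ≃ₐ[F] M) := by
      intro x
      obtain ⟨c, hc⟩ := exists_sub_mem_of_isArithFrobAt_one v W hfr x
      have h1 : σ • (x - algebraMap (𝓞 F) (𝓞 M) c) ∈ σ • W.asIdeal :=
        Ideal.smul_mem_pointwise_smul _ _ _ hc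
      rw [smul_eq_of_isNonsplit h W hW σ] at h1
      have h2 : σ • (x - algebraMap (𝓞 F) (𝓞 M) c) = σ • x - algebraMap (𝓞 F) (𝓞 M) c := by
        rw [smul_sub, smul_algebraMap]
      rw [h2] at h1
      have := W.asIdeal.sub_mem h1 hc
      rwa [sub_sub_sub_cancel_right] at this
    rw [hun W.asIdeal W.isPrime W.ne_bot, Subgroup.mem_bot] at hσ
    exact hσ
  have hcard : Nat.card (M ≃ₐ[F] M) = 1 :=
    Nat.card_eq_one_iff_unique.2 ⟨⟨fun a b => (hall a).trans (hall b).symm⟩, ⟨1⟩⟩
  rw [IsGalois.card_aut_eq_finrank] at hcard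
  omega

end Nonsplit

section Count

variable {R : Type*} [CommRing R] [IsDedekindDomain R]

/-- The exponent of the prime `q` in the ideal `I`. -/
noncomputable def cnt (q : HeightOneSpectrum R) (I : Ideal R) : ℕ :=
  (Associates.mk q.asIdeal).count (Associates.mk I).factors

theorem cnt_mul (q : HeightOneSpectrum R) {I J : Ideal R} (hI : I ≠ 0) (hJ : J ≠ 0) :
    cnt q (I * J) = cnt q I + cnt q J := by
  unfold cnt
  rw [← Associates.mk_mul_mk]
  exact Associates.count_mul (Associates.mk_ne_zero.2 hI) (Associates.mk_ne_zero.2 hJ)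
    q.associates_irreducible

theorem cnt_pow (q : HeightOneSpectrum R) {I : Ideal R} (hI : I ≠ 0) (n : ℕ) :
    cnt q (I ^ n) = n * cnt q I := by
  unfold cnt
  rw [Associates.mk_pow]
  exact Associates.count_pow (Associates.mk_ne_zero.2 hI) q.associates_irreducible n

theorem cnt_one (q : HeightOneSpectrum R) : cnt q (1 : Ideal R) = 0 := by
  unfold cnt
  rw [Associates.mk_one, Associates.factors_one]
  exact Associates.count_zero q.associates_irreducible

theorem cnt_self (q : HeightOneSpectrum R) : cnt q q.asIdeal = 1 :=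
  Associates.count_self q.associates_irreducible

theorem cnt_of_ne (q q' : HeightOneSpectrum R) (h : q ≠ q') : cnt q q'.asIdeal = 0 := by
  unfold cnt
  exact Associates.count_eq_zero_of_ne q.associates_irreducible q'.associates_irreducible
    (fun h' => h (HeightOneSpectrum.ext (Associates.mk_injective h')))

theorem intValuation_eq_exp_cnt (q : HeightOneSpectrum R) {x : R} (hx : x ≠ 0) :
    q.intValuation x = WithZero.exp (-(cnt q (Ideal.span {x}) : ℤ)) :=
  q.intValuation_if_neg hx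

end Count

section Dual

variable {F M : Type} [Field F] [Field M] [NumberField F] [NumberField M] [Algebra F M]
  [IsGalois F M]

/-- The exponent of a non-split prime in an ideal of `nmIdeals` is divisible by `p`. -/
theorem dvd_cnt_of_mem_nmIdeals {p : ℕ} (q : HeightOneSpectrum (𝓞 F))
    (hq : ¬ IsSplit F M q.asIdeal) {𝔫 : (Ideal (𝓞 F))⁰} (h : 𝔫 ∈ Basic.nmIdeals F M p) :
    p ∣ cnt q (𝔫 : Ideal (𝓞 F)) := by
  induction h using Submonoid.closure_induction with
  | mem x hx =>
    rcases hx with ⟨hP, hs⟩ | ⟨J, rfl⟩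
    · have hx0 : (x : Ideal (𝓞 F)) ≠ ⊥ := nonZeroDivisors.coe_ne_zero x
      have : cnt q (x : Ideal (𝓞 F)) = 0 := by
        apply cnt_of_ne q ⟨x, hP, hx0⟩
        rintro rfl
        exact hq hs
      rw [this]
      exact dvd_zero p
    · rw [SubmonoidClass.coe_pow, cnt_pow q (nonZeroDivisors.coe_ne_zero J)]
      exact dvd_mul_right p _
  | one =>
    rw [Submonoid.coe_one, cnt_one]
    exact dvd_zero p
  | mul x y _ _ hx hy =>
    rw [Submonoid.coe_mul, cnt_mul q (nonZeroDivisors.coe_ne_zero x) (nonZeroDivisors.coe_ne_zero y)]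
    exact dvd_add hx hy

/-- If the norm classes fill the class group, every non-split prime `v` has a "dual" element:
its valuation at `v` is `≡ 1` and at the other non-split primes is `≡ 0` modulo `p`. -/
theorem exists_dual {p : ℕ} (htop : nmClasses F M p = ⊤) (v : HeightOneSpectrum (𝓞 F))
    (hv : ¬ IsSplit F M v.asIdeal) :
    ∃ z : Fˣ, (∃ m : ℤ, v.valuation F (z : F) = WithZero.exp (-1 + (p : ℤ) * m)) ∧
      ∀ q : HeightOneSpectrum (𝓞 F), q ≠ v → ¬ IsSplit F M q.asIdeal →
        ∃ m : ℤ, q.valuation F (z : F) = WithZero.exp ((p : ℤ) * m) := by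
  have hmem : ClassGroup.mk0 ⟨v.asIdeal, mem_nonZeroDivisors_iff_ne_zero.2 v.ne_bot⟩ ∈
      nmClasses F M p := htop ▸ Subgroup.mem_top _
  obtain ⟨𝔫, h𝔫, x, y, hx, hy, hxy⟩ := (Basic.mk0_mem_nmClasses_iff _).1 hmem
  have hxK : algebraMap (𝓞 F) F x ≠ 0 := by simpa using hx
  have hyK : algebraMap (𝓞 F) F y ≠ 0 := by simpa using hy
  have hsx : Ideal.span {x} ≠ (0 : Ideal (𝓞 F)) := by simpa using hx
  have hsy : Ideal.span {y} ≠ (0 : Ideal (𝓞 F)) := by simpa using hy
  have key : ∀ q : HeightOneSpectrum (𝓞 F), ¬ IsSplit F M q.asIdeal →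
      ∃ m : ℤ, q.valuation F ((Units.mk0 _ hyK / Units.mk0 _ hxK : Fˣ) : F) =
        WithZero.exp (-(cnt q v.asIdeal : ℤ) + (p : ℤ) * m) := by
    intro q hq
    obtain ⟨m, hm⟩ := dvd_cnt_of_mem_nmIdeals q hq h𝔫
    have hcount := congrArg (cnt q) hxy
    rw [cnt_mul q hsx v.ne_bot, cnt_mul q hsy (nonZeroDivisors.coe_ne_zero 𝔫), hm] at hcount
    refine ⟨m, ?_⟩
    rw [Units.val_div_eq_div_val, Units.val_mk0, Units.val_mk0, map_div₀,
      valuation_of_algebraMap, valuation_of_algebraMap, intValuation_eq_exp_cnt q hx,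
      intValuation_eq_exp_cnt q hy, ← WithZero.exp_sub]
    congr 1
    have h1 : ((cnt q (Ideal.span {x}) : ℕ) : ℤ) + ((cnt q v.asIdeal : ℕ) : ℤ) =
        ((cnt q (Ideal.span {y}) : ℕ) : ℤ) + (p : ℤ) * (m : ℤ) := by exact_mod_cast hcount
    linarith
  refine ⟨Units.mk0 _ hyK / Units.mk0 _ hxK, ?_, fun q hqv hq => ?_⟩
  · obtain ⟨m, hm⟩ := key v hv
    rw [cnt_self] at hm
    exact ⟨m, hm⟩
  · obtain ⟨m, hm⟩ := key q hq
    rw [cnt_of_ne q v hqv] at hm
    exact ⟨m, by simpa using hm⟩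

end Dual

section HqSec

variable {F : Type} [Field F] [NumberField F]

/-- The elements of `Fˣ` whose valuation at `q` is a `p`-th power. -/
noncomputable def Hq (p : ℕ) (q : HeightOneSpectrum (𝓞 F)) : Subgroup Fˣ :=
  ((AddMonoidHom.toMultiplicative (Int.castAddHom (ZMod p))).comp
    (q.valuationOfNeZero (K := F))).ker

theorem valuation_eq_exp_toAdd (q : HeightOneSpectrum (𝓞 F)) (u : Fˣ) :
    q.valuation F (u : F) = WithZero.exp (Multiplicative.toAdd (q.valuationOfNeZero u)) := by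
  rw [← valuationOfNeZero_eq]
  rfl

theorem mem_Hq_iff {p : ℕ} (q : HeightOneSpectrum (𝓞 F)) (u : Fˣ) :
    u ∈ Hq p q ↔ ∃ m : ℤ, q.valuation F (u : F) = WithZero.exp ((p : ℤ) * m) := by
  rw [Hq, MonoidHom.mem_ker, MonoidHom.comp_apply, valuation_eq_exp_toAdd]
  have key : (AddMonoidHom.toMultiplicative (Int.castAddHom (ZMod p))) (q.valuationOfNeZero u) = 1
      ↔ ((Multiplicative.toAdd (q.valuationOfNeZero u) : ℤ) : ZMod p) = 0 := Iff.rfl
  rw [key, CharP.intCast_eq_zero_iff (ZMod p) p]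
  constructor
  · rintro ⟨m, hm⟩
    exact ⟨m, by rw [hm]⟩
  · rintro ⟨m, hm⟩
    exact ⟨m, WithZero.exp_injective hm⟩

theorem index_Hq_dvd (p : ℕ) (q : HeightOneSpectrum (𝓞 F)) : (Hq p q).index ∣ p := by
  rw [Hq, Subgroup.index_ker]
  have h := Subgroup.card_subgroup_dvd_card
    ((AddMonoidHom.toMultiplicative (Int.castAddHom (ZMod p))).comp
      (q.valuationOfNeZero (K := F))).range
  rwa [Nat.card_congr (Multiplicative.toAdd (α := ZMod p)), Nat.card_zmod] at h

theorem pow_mem_Hq (p : ℕ) (q : HeightOneSpectrum (𝓞 F)) (y : Fˣ) : y ^ p ∈ Hq p q := by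
  rw [mem_Hq_iff]
  refine ⟨Multiplicative.toAdd (q.valuationOfNeZero y), ?_⟩
  rw [Units.val_pow_eq_pow_val, map_pow, valuation_eq_exp_toAdd, ← WithZero.exp_nsmul]
  congr 1

end HqSec

section NormHq

variable {F M : Type} [Field F] [Field M] [NumberField F] [NumberField M] [Algebra F M]
  [IsGalois F M]

/-- Norms have valuation divisible by `p` at the primes with exactly one prime above. -/
theorem norm_mem_Hq {p : ℕ} (hdeg : Module.finrank F M = p) (hun : IsUnram F M)
    {v : HeightOneSpectrum (𝓞 F)} (h : IsNonsplit M v) (β : Mˣ) :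
    Units.map (Algebra.norm F : M →* F) β ∈ Hq p v := by
  obtain ⟨W, hW⟩ := exists_under_eq (N := M) v
  rw [mem_Hq_iff]
  refine ⟨Multiplicative.toAdd (W.valuationOfNeZero β), ?_⟩
  rw [Units.coe_map, valuation_norm_of_isNonsplit hun h W hW, hdeg,
    valuation_eq_exp_toAdd, ← WithZero.exp_nsmul]
  congr 1

end NormHq

section Adjust

variable {F : Type} [Field F] [NumberField F]

open scoped Classical in
/-- Over a PID set, an element whose valuations at the "good" primes outside `S` are divisible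
by `p` can be made a unit at these primes by a `p`-th power. -/
theorem exists_pow_adjust {p : ℕ} (S : Finset (HeightOneSpectrum (𝓞 F))) (hpid : IsPIDSet S)
    (Good : HeightOneSpectrum (𝓞 F) → Prop) (z : Fˣ)
    (hz : ∀ q ∉ S, Good q → ∃ m : ℤ, q.valuation F (z : F) = WithZero.exp ((p : ℤ) * m)) :
    ∃ y : Fˣ, ∀ q ∉ S, Good q → q.valuation F ((z * y ^ p : Fˣ) : F) = 1 := by
  have hgen : ∀ v : HeightOneSpectrum (𝓞 F), ∃ x : Fˣ, v ∉ S →
      (v.valuation F (x : F) = WithZero.exp (-1 : ℤ) ∧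
        ∀ v' ∉ S, v' ≠ v → v'.valuation F (x : F) = 1) := by
    intro v
    by_cases hv : v ∈ S
    · exact ⟨1, fun h => absurd hv h⟩
    · obtain ⟨x, hx⟩ := hpid v hv
      exact ⟨x, fun _ => hx⟩
  choose xs hxs using hgen
  have hm : ∀ q : HeightOneSpectrum (𝓞 F), ∃ m : ℤ, q ∉ S → Good q →
      q.valuation F (z : F) = WithZero.exp ((p : ℤ) * m) := by
    intro q
    by_cases hq : q ∉ S ∧ Good q
    · obtain ⟨m, hm⟩ := hz q hq.1 hq.2
      exact ⟨m, fun _ _ => hm⟩
    · exact ⟨0, fun h1 h2 => absurd ⟨h1, h2⟩ hq⟩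
  choose m hm using hm
  have hB := finite_valuation_ne_one z
  set T : Finset (HeightOneSpectrum (𝓞 F)) :=
    hB.toFinset.filter (fun q => q ∉ S ∧ Good q) with hT
  refine ⟨∏ v ∈ T, xs v ^ (m v), ?_⟩
  intro q hqS hqG
  have hprod : q.valuation F ((∏ v ∈ T, xs v ^ (m v) : Fˣ) : F) =
      ∏ v ∈ T, (q.valuation F (xs v : F)) ^ (m v) := by
    rw [Units.coe_prod, map_prod]
    refine Finset.prod_congr rfl fun v _ => ?_
    rw [Units.val_zpow_eq_zpow_val, map_zpow₀]
  rw [Units.val_mul, Units.val_pow_eq_pow_val, map_mul, map_pow, hprod]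
  by_cases hmem : q ∈ T
  · rw [Finset.prod_eq_single_of_mem q hmem, (hxs q hqS).1, hm q hqS hqG]
    · rw [← WithZero.exp_zsmul, ← WithZero.exp_nsmul, ← WithZero.exp_add, WithZero.exp_eq_one]
      simp
    · intro v hvT hne
      have hvS : v ∉ S := (Finset.mem_filter.1 hvT).2.1
      rw [(hxs v hvS).2 q hqS hne.symm, one_zpow]
  · have h1 : ∏ v ∈ T, (q.valuation F (xs v : F)) ^ (m v) = 1 := by
      refine Finset.prod_eq_one fun v hvT => ?_
      have hvS : v ∉ S := (Finset.mem_filter.1 hvT).2.1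
      have hne : q ≠ v := fun h => hmem (h ▸ hvT)
      rw [(hxs v hvS).2 q hqS hne, one_zpow]
    rw [h1, one_pow, mul_one]
    by_contra hne
    apply hmem
    rw [hT, Finset.mem_filter]
    exact ⟨hB.mem_toFinset.2 hne, hqS, hqG⟩

end Adjust

section Main

variable {F M : Type} [Field F] [Field M] [NumberField F] [NumberField M] [Algebra F M]
  [IsGalois F M]

open scoped Classical in
/-- **First inequality**: the norm classes of an unramified Galois extension of odd prime degree
do not fill the class group. -/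
theorem nmClasses_ne_top {p : ℕ} (hp : p.Prime) (hp2 : p ≠ 2) (hdeg : Module.finrank F M = p)
    (hun : IsUnram F M) : nmClasses F M p ≠ ⊤ := by
  intro htop
  have hdeg1 : 1 < Module.finrank F M := hdeg ▸ hp.one_lt
  obtain ⟨S₀, hS₀⟩ := exists_isPIDSet (F := F)
  -- dual elements
  have hex : ∀ v : HeightOneSpectrum (𝓞 F), ∃ u : Fˣ, v ∈ S₀ → IsNonsplit M v →
      (∀ q ∉ S₀, IsNonsplit M q → q.valuation F (u : F) = 1) ∧
      (∀ q, IsNonsplit M q → q ≠ v → u ∈ Hq p q) ∧ u ∉ Hq p v := by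
    intro v
    by_cases hv : v ∈ S₀ ∧ IsNonsplit M v
    · obtain ⟨hvS, hvn⟩ := hv
      obtain ⟨z, ⟨m, hm⟩, hz⟩ := exists_dual htop v (not_isSplit_of_isNonsplit hdeg1 hun hvn)
      obtain ⟨y, hy⟩ := exists_pow_adjust (p := p) S₀ hS₀ (IsNonsplit M) z
        (fun q hq hqn => hz q (fun h => hq (h ▸ hvS)) (not_isSplit_of_isNonsplit hdeg1 hun hqn))
      refine ⟨z * y ^ p, fun _ _ => ⟨hy, fun q hqn hqv => ?_, fun hmem => ?_⟩⟩
      · exact mul_mem ((mem_Hq_iff q z).2 (hz q hqv (not_isSplit_of_isNonsplit hdeg1 hun hqn)))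
          (pow_mem_Hq p q y)
      · have hz' : z ∈ Hq p v := by
          have := mul_mem hmem (inv_mem (pow_mem_Hq p v y))
          simpa using this
        obtain ⟨m', hm'⟩ := (mem_Hq_iff v z).1 hz'
        rw [hm] at hm'
        have h1 := WithZero.exp_injective hm'
        have h2 : (p : ℤ) ∣ 1 := ⟨m - m', by linarith⟩
        have h3 : p ∣ 1 := by exact_mod_cast h2
        exact hp.one_lt.ne' (Nat.dvd_one.1 h3)
    · exact ⟨1, fun h1 h2 => absurd ⟨h1, h2⟩ hv⟩
  choose u hu using hex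
  -- the enlarged set
  set Sg : Finset (HeightOneSpectrum (𝓞 F)) := S₀ ∪ (S₀.filter (fun v => IsNonsplit M v)).biUnion
    (fun v => (finite_valuation_ne_one (u v)).toFinset) with hSg
  have hsub : S₀ ⊆ Sg := Finset.subset_union_left
  have hpid : IsPIDSet Sg := isPIDSet_mono hsub hS₀
  have hfilter : Sg.filter (fun v => IsNonsplit M v) = S₀.filter (fun v => IsNonsplit M v) := by
    ext q
    simp only [Finset.mem_filter]
    constructor
    · rintro ⟨hq, hqn⟩
      refine ⟨?_, hqn⟩
      by_contra hqS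
      rw [hSg, Finset.mem_union] at hq
      rcases hq with hq | hq
      · exact hqS hq
      · obtain ⟨v, hv, hqv⟩ := Finset.mem_biUnion.1 hq
        obtain ⟨hvS, hvn⟩ := Finset.mem_filter.1 hv
        exact (Set.Finite.mem_toFinset _).1 hqv ((hu v hvS hvn).1 q hqS hqn)
    · rintro ⟨hq, hqn⟩
      exact ⟨hsub hq, hqn⟩
  obtain ⟨SN, hSN⟩ := exists_above (M := M) Sg
  have hH := unit_norm_index hp hp2 hdeg Sg SN hSN
    (fun w _ x => valuation_algebraMap_of_isUnram hun w x) hpid
  rw [hfilter] at hH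
  -- the squeeze
  haveI : Fintype {v // v ∈ S₀.filter (fun v => IsNonsplit M v)} := inferInstance
  refine relIndex_mul_ne_pow_card hp (ι := {v // v ∈ S₀.filter (fun v => IsNonsplit M v)})
    (SUnits F Sg) ((SUnits M SN).map (Units.map (Algebra.norm F : M →* F)))
    (fun i => Hq p i.1) ?_ (fun i => index_Hq_dvd p i.1) (fun i => u i.1) ?_ ?_ ?_ ?_
  · rintro i _ ⟨β, -, rfl⟩
    exact norm_mem_Hq hdeg hun (Finset.mem_filter.1 i.2).2 β
  · intro i q hq
    by_contra hne
    apply hq
    rw [Finset.mem_coe, hSg, Finset.mem_union]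
    right
    exact Finset.mem_biUnion.2 ⟨i.1, i.2, (Set.Finite.mem_toFinset _).2 hne⟩
  · intro i j hij
    obtain ⟨hiS, hin⟩ := Finset.mem_filter.1 i.2
    exact (hu i.1 hiS hin).2.1 j.1 (Finset.mem_filter.1 j.2).2
      (fun h => hij (Subtype.ext h.symm))
  · intro i
    obtain ⟨hiS, hin⟩ := Finset.mem_filter.1 i.2
    exact (hu i.1 hiS hin).2.2
  · rw [Fintype.card_coe]
    exact hH

end Main

end Fermat.Agent.S14.Artin.FI

namespace Fermat.Agent.S14.Artin

/-- **[FI]** the first inequality, verbatim against `Plan.FIStmt`. -/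
theorem fiStmt (p : ℕ) : FIStmt p := by
  intro hp h3 F M _ _ _ _ _ _ hdeg hun
  exact FI.nmClasses_ne_top hp (by omega) hdeg hun

end Fermat.Agent.S14.Artin
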