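import Fermat.Agent.S14.Artin.Top
import Fermat.Agent.S14.Plan

/-!
# S14, Route A: the contract of the S14 plan from the Route A contracts

`artinCycStmt_of : XCoreStmt p → FIStmt p → NSStmt p → Plan.ArtinCycStmt p`.
-/

set_option autoImplicit false

open scoped NumberField nonZeroDivisors

namespace Fermat.Agent.S14.Artin.Final

open Fermat.Agent.S14.Artin

theorem artinCycStmt_of_artinStmt (p : ℕ) [Fact p.Prime] (h : ArtinStmt p) :
    Fermat.Agent.S14.Plan.ArtinCycStmt p := by
  intro h3 D
  exact h Fact.out h3 D.K D.L D.finrank_eq D.unram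

theorem artinCycStmt_of (p : ℕ) [Fact p.Prime] (hX : XCoreStmt p) (hFI : FIStmt p)
    (hNS : NSStmt p) : Fermat.Agent.S14.Plan.ArtinCycStmt p :=
  artinCycStmt_of_artinStmt p
    (Top.artinStmt_of (Top.xStmt_of_core hX hNS) hFI hNS (Basic.artExistsStmt p))

end Fermat.Agent.S14.Artin.Final
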