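import Fermat.Agent.S14.Artin.Plan
import Fermat.Agent.S14.Artin.SI.Defs
import Fermat.Agent.Lib.KummerPrimary
import Fermat.Agent.CFT.Glob.KummerUnram

/-!
# Route A, Kummer leaves for the second inequality

`F ∋ ζ_p` a number field, `N / F` Galois of degree `p`, `N = F(β)` with `β ^ p = x ∈ F`, `x` not
a `p`-th power in `F`.

* (KL1) if `x` is locally a `p`-th power at a prime `v` of `F` in the sense of `IsLocalPow`
  (resp. `x ∈ SI.Lv F p ζ v`), then the decomposition group of every prime of `N` above `v` is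
  trivial, and there are two distinct primes of `N` above `v` (`v ∣ p` included);
* (KL2) if `p ∣ ord_w x` and `w ∤ p`, then every prime of `N` above `w` is unramified over `F`
  (`Algebra.IsUnramifiedAt`, and trivial inertia group).
-/

set_option autoImplicit false

open scoped NumberField Pointwise
open IsDedekindDomain

namespace Fermat.Agent.S14.Artin.KummerLocal

/-! ### Galois extensions of prime degree generated by a `p`-th root -/

section Gen

variable {F N : Type*} [Field F] [Field N] [Algebra F N] [FiniteDimensional F N] [IsGalois F N]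
  {p : ℕ}

/-- In a Galois extension of prime degree `p`, an automorphism fixing a `p`-th root `β` of a
non-`p`-th power is trivial. -/
theorem eq_one_of_apply_eq (hp : p.Prime) (hdeg : Module.finrank F N = p) {x : F}
    (hx : ∀ y : F, y ^ p ≠ x) {β : N} (hβ : β ^ p = algebraMap F N x) (τ : N ≃ₐ[F] N)
    (hτ : τ β = β) : τ = 1 := by
  by_contra hne
  have : Fact p.Prime := ⟨hp⟩
  have hcard : Nat.card (N ≃ₐ[F] N) = p := (IsGalois.card_aut_eq_finrank F N).trans hdeg
  have htop : Subgroup.zpowers τ = ⊤ := zpowers_eq_top_of_prime_card hcard hne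
  have hstab : Subgroup.zpowers τ ≤ MulAction.stabilizer (N ≃ₐ[F] N) β := by
    rw [Subgroup.zpowers_le, MulAction.mem_stabilizer_iff]
    exact hτ
  rw [htop] at hstab
  have hfix : ∀ σ : N ≃ₐ[F] N, σ β = β := fun σ =>
    MulAction.mem_stabilizer_iff.mp (hstab (Subgroup.mem_top σ))
  obtain ⟨y, hy⟩ := (IsGalois.mem_range_algebraMap_iff_fixed β).mpr hfix
  apply hx y
  apply (algebraMap F N).injective
  rw [map_pow, hy, hβ]

/-- A Galois extension of prime degree has a nontrivial automorphism. -/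
theorem exists_ne_one (hp : p.Prime) (hdeg : Module.finrank F N = p) :
    ∃ σ : N ≃ₐ[F] N, σ ≠ 1 := by
  have hcard : Nat.card (N ≃ₐ[F] N) = p := (IsGalois.card_aut_eq_finrank F N).trans hdeg
  have : Nontrivial (N ≃ₐ[F] N) := by
    rw [← Finite.one_lt_card_iff_nontrivial, hcard]
    exact hp.one_lt
  exact exists_ne 1

/-- `N = F(β)`. -/
theorem adjoin_eq_top (hp : p.Prime) (hdeg : Module.finrank F N = p) {x : F}
    (hx : ∀ y : F, y ^ p ≠ x) {β : N} (hβ : β ^ p = algebraMap F N x) :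
    IntermediateField.adjoin F {β} = ⊤ := by
  have h1 : (IntermediateField.adjoin F {β}).fixingSubgroup = ⊥ := by
    rw [eq_bot_iff]
    intro τ hτ
    rw [Subgroup.mem_bot]
    refine eq_one_of_apply_eq hp hdeg hx hβ τ ?_
    exact (IntermediateField.mem_fixingSubgroup_iff _ τ).mp hτ β
      (IntermediateField.mem_adjoin_simple_self F β)
  rw [← IsGalois.fixedField_fixingSubgroup (IntermediateField.adjoin F {β}), h1,
    IntermediateField.fixedField_bot]

end Gen

/-! ### (KL1) Splitting at `v` for `x ∈ L_v` -/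

section Split

variable {F N : Type*} [Field F] [NumberField F] [Field N] [NumberField N] [Algebra F N]
  [IsGalois F N] {p : ℕ}

open WithZero in
/-- `a < exp n` implies `a ≤ exp (n - 1)` in `ℤᵐ⁰`. -/
theorem le_exp_pred_of_lt_exp {a : ℤᵐ⁰} {n : ℤ} (h : a < exp n) : a ≤ exp (n - 1) := by
  rcases eq_or_ne a 0 with rfl | ha
  · exact zero_le
  · rw [← log_lt_iff_lt_exp ha] at h
    rw [← log_le_iff_le_exp ha]
    omega

/-- A primitive `p`-th root of unity of a number field, as an algebraic integer, together with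
the exact valuation of `1 - ζ` at `v`. -/
theorem exists_integer_root (hp : p.Prime) {ζ : F} (hζ : IsPrimitiveRoot ζ p)
    (v : HeightOneSpectrum (𝓞 F)) :
    ∃ (ζ' : 𝓞 F) (e0 : ℕ), (ζ' : F) = ζ ∧ IsPrimitiveRoot ζ' p ∧
      1 - ζ' ∉ v.asIdeal ^ (e0 + 1) ∧ v.valuation F (1 - ζ) = WithZero.exp (-(e0 : ℤ)) := by
  have hint : IsIntegral ℤ ζ := hζ.isIntegral hp.pos
  set ζ' : 𝓞 F := ⟨ζ, hint⟩ with hζ'
  have hprim : IsPrimitiveRoot ζ' p :=
    IsPrimitiveRoot.of_map_of_injective (f := algebraMap (𝓞 F) F)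
      (FaithfulSMul.algebraMap_injective (𝓞 F) F) (h := hζ)
  have hne : 1 - ζ' ≠ 0 := by
    intro h
    exact hprim.ne_one hp.one_lt (sub_eq_zero.mp h).symm
  set e0 := multiplicity v.asIdeal (Ideal.span {1 - ζ'}) with he0
  have hval : v.intValuation (1 - ζ') = WithZero.exp (-(e0 : ℤ)) :=
    v.intValuation_eq_exp_neg_multiplicity hne
  refine ⟨ζ', e0, rfl, hprim, ?_, ?_⟩
  · intro hmem
    rw [← v.intValuation_le_pow_iff_mem, hval, WithZero.exp_le_exp] at hmem
    push_cast at hmem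
    omega
  · have h1 : (1 - ζ : F) = algebraMap (𝓞 F) F (1 - ζ') := by
      rw [map_sub, map_one]
      rfl
    rw [h1, v.valuation_of_algebraMap, hval]

/-- **(KL1), generic valuation form.**  If `x / y ^ p ≡ 1` to precision `> p * ord_v (1 - ζ)`,
then every prime of `N = F(x ^ (1/p))` above `v` has trivial decomposition group. -/
theorem eq_one_of_valuation_lt (hp : p.Prime) {ζ : F} (hζ : IsPrimitiveRoot ζ p)
    (hdeg : Module.finrank F N = p) {x : F} (hx : ∀ y : F, y ^ p ≠ x) {β : N}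
    (hβ : β ^ p = algebraMap F N x) (v : HeightOneSpectrum (𝓞 F))
    (hv : ∃ y : F, y ≠ 0 ∧ v.valuation F (x / y ^ p - 1) < v.valuation F (1 - ζ) ^ p)
    (Q : Ideal (𝓞 N)) [Q.IsPrime] (hQ : Q.under (𝓞 F) = v.asIdeal) (σ : N ≃ₐ[F] N)
    (hσ : σ • Q = Q) : σ = 1 := by
  have : Fact p.Prime := ⟨hp⟩
  obtain ⟨ζ', e0, -, hprim, he0, hval⟩ := exists_integer_root hp hζ v
  obtain ⟨y, hy, hlt⟩ := hv
  have hle : v.valuation F (x * y⁻¹ ^ p - 1) ≤ WithZero.exp (-((p * e0 + 1 : ℕ) : ℤ)) := by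
    rw [hval, ← WithZero.exp_nsmul] at hlt
    have h1 := le_exp_pred_of_lt_exp hlt
    have h2 : x * y⁻¹ ^ p = x / y ^ p := by rw [inv_pow, div_eq_mul_inv]
    rw [h2]
    refine h1.trans (le_of_eq ?_)
    congr 1
    push_cast
    simp only [nsmul_eq_mul]
    ring
  have : Q.LiesOver v.asIdeal := ⟨hQ.symm⟩
  exact eq_one_of_apply_eq hp hdeg hx hβ σ
    (Lib.KummerPrimary.apply_eq_self_of_valuation_le v Q hprim e0 he0 x y hy hle β hβ σ hσ)

/-- **(KL1), generic valuation form**: there are two distinct primes of `N` above `v`. -/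
theorem exists_two_primes_of_valuation_lt (hp : p.Prime) {ζ : F} (hζ : IsPrimitiveRoot ζ p)
    (hdeg : Module.finrank F N = p) {x : F} (hx : ∀ y : F, y ^ p ≠ x) {β : N}
    (hβ : β ^ p = algebraMap F N x) (v : HeightOneSpectrum (𝓞 F))
    (hv : ∃ y : F, y ≠ 0 ∧ v.valuation F (x / y ^ p - 1) < v.valuation F (1 - ζ) ^ p) :
    ∃ P Q : Ideal (𝓞 N), P.IsPrime ∧ Q.IsPrime ∧ P ≠ Q ∧ P.under (𝓞 F) = v.asIdeal ∧
      Q.under (𝓞 F) = v.asIdeal := by
  have : v.asIdeal.IsPrime := v.isPrime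
  obtain ⟨⟨P, hPprime, hPover⟩⟩ := (inferInstance : Nonempty (Ideal.primesOver v.asIdeal (𝓞 N)))
  have hP : P.under (𝓞 F) = v.asIdeal := hPover.over.symm
  obtain ⟨σ, hσ⟩ := exists_ne_one (F := F) (N := N) hp hdeg
  have : (σ • P).LiesOver v.asIdeal := inferInstance
  refine ⟨P, σ • P, hPprime, inferInstance, fun h => hσ ?_, hP, (Ideal.LiesOver.over).symm⟩
  exact eq_one_of_valuation_lt hp hζ hdeg hx hβ v hv P hP σ h.symm

/-- Membership in `SI.Lv` gives the valuation condition of `IsLocalPow`. -/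
theorem exists_valuation_lt_of_mem_Lv (hp : p.Prime) {ζ : F} (hζ : IsPrimitiveRoot ζ p)
    {x : Fˣ} (v : HeightOneSpectrum (𝓞 F)) (hv : x ∈ SI.Lv F p ζ v) :
    ∃ y : F, y ≠ 0 ∧ v.valuation F ((x : F) / y ^ p - 1) < v.valuation F (1 - ζ) ^ p := by
  obtain ⟨y, u, hu, rfl⟩ := (SI.mem_Lv_iff p ζ v x).mp hv
  have hζ1 : (1 : F) - ζ ≠ 0 := fun h => hζ.ne_one hp.one_lt (sub_eq_zero.mp h).symm
  have hc : v.valuation F (1 - ζ) ^ p ≠ 0 :=
    pow_ne_zero _ ((Valuation.ne_zero_iff _).mpr hζ1)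
  have hu' : v.valuation F ((u : F) - 1) < v.valuation F (1 - ζ) ^ p := by
    rcases hu with hu | hu
    · exact lt_of_lt_of_le hu inf_le_left
    · exact absurd hu hc
  refine ⟨(y : F), y.ne_zero, ?_⟩
  have h1 : ((y ^ p * u : Fˣ) : F) / (y : F) ^ p = (u : F) := by
    rw [Units.val_mul, Units.val_pow_eq_pow_val]
    exact mul_div_cancel_left₀ _ (pow_ne_zero _ y.ne_zero)
  rw [h1]
  exact hu'

/-- **(KL1)** in the vocabulary of `SI/Defs`: for `x ∈ L_v` there are two distinct primes of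
`N = F(x ^ (1/p))` above `v`. -/
theorem exists_two_primes_of_mem_Lv (hp : p.Prime) {ζ : F} (hζ : IsPrimitiveRoot ζ p)
    (hdeg : Module.finrank F N = p) {x : Fˣ} (hx : ∀ y : F, y ^ p ≠ (x : F)) {β : N}
    (hβ : β ^ p = algebraMap F N (x : F)) (v : HeightOneSpectrum (𝓞 F))
    (hv : x ∈ SI.Lv F p ζ v) :
    ∃ P Q : Ideal (𝓞 N), P.IsPrime ∧ Q.IsPrime ∧ P ≠ Q ∧ P.under (𝓞 F) = v.asIdeal ∧
      Q.under (𝓞 F) = v.asIdeal :=
  exists_two_primes_of_valuation_lt hp hζ hdeg hx hβ v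
    (exists_valuation_lt_of_mem_Lv hp hζ v hv)

/-- **(KL1)** in the vocabulary of `SI/Defs`, group form. -/
theorem eq_one_of_mem_Lv (hp : p.Prime) {ζ : F} (hζ : IsPrimitiveRoot ζ p)
    (hdeg : Module.finrank F N = p) {x : Fˣ} (hx : ∀ y : F, y ^ p ≠ (x : F)) {β : N}
    (hβ : β ^ p = algebraMap F N (x : F)) (v : HeightOneSpectrum (𝓞 F))
    (hv : x ∈ SI.Lv F p ζ v) (Q : Ideal (𝓞 N)) [Q.IsPrime] (hQ : Q.under (𝓞 F) = v.asIdeal)
    (σ : N ≃ₐ[F] N) (hσ : σ • Q = Q) : σ = 1 :=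
  eq_one_of_valuation_lt hp hζ hdeg hx hβ v (exists_valuation_lt_of_mem_Lv hp hζ v hv) Q hQ σ hσ

end Split

section SplitPlan

variable {F : Type} {N : Type*} [Field F] [NumberField F] [Field N] [NumberField N]
  [Algebra F N] [IsGalois F N] {p : ℕ}

/-- **(KL1)** in the vocabulary of `Artin/Plan`: if `x` is locally a `p`-th power at `v`, there
are two distinct primes of `N = F(x ^ (1/p))` above `v`. -/
theorem exists_two_primes_of_isLocalPow (hp : p.Prime) {ζ : F} (hζ : IsPrimitiveRoot ζ p)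
    (hdeg : Module.finrank F N = p) {x : F} (hx : ∀ y : F, y ^ p ≠ x) {β : N}
    (hβ : β ^ p = algebraMap F N x) (v : HeightOneSpectrum (𝓞 F)) (hv : IsLocalPow p ζ v x) :
    ∃ P Q : Ideal (𝓞 N), P.IsPrime ∧ Q.IsPrime ∧ P ≠ Q ∧ P.under (𝓞 F) = v.asIdeal ∧
      Q.under (𝓞 F) = v.asIdeal :=
  exists_two_primes_of_valuation_lt hp hζ hdeg hx hβ v hv

/-- **(KL1)** in the vocabulary of `Artin/Plan`, group form: the decomposition group of every
prime above `v` is trivial. -/
theorem eq_one_of_isLocalPow (hp : p.Prime) {ζ : F} (hζ : IsPrimitiveRoot ζ p)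
    (hdeg : Module.finrank F N = p) {x : F} (hx : ∀ y : F, y ^ p ≠ x) {β : N}
    (hβ : β ^ p = algebraMap F N x) (v : HeightOneSpectrum (𝓞 F)) (hv : IsLocalPow p ζ v x)
    (Q : Ideal (𝓞 N)) [Q.IsPrime] (hQ : Q.under (𝓞 F) = v.asIdeal) (σ : N ≃ₐ[F] N)
    (hσ : σ • Q = Q) : σ = 1 :=
  eq_one_of_valuation_lt hp hζ hdeg hx hβ v hv Q hQ σ hσ

end SplitPlan

/-! ### (KL2) Unramified where `p ∣ ord_w x` and `w ∤ p` -/

section Unram

variable {F N : Type*} [Field F] [NumberField F] [Field N] [NumberField N] [Algebra F N]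
  [IsGalois F N] {p : ℕ}

/-- If `ord_w x` is divisible by `p`, then `x` can be rescaled by a `p`-th power to an algebraic
integer which is a unit at `w`. -/
theorem exists_scale_of_valuation (hp0 : p ≠ 0) (w : HeightOneSpectrum (𝓞 F))
    (x : F) (m : ℤ) (hm : w.valuation F x = WithZero.exp (-((p : ℤ) * m))) :
    ∃ (c : F) (r : 𝓞 F), c ≠ 0 ∧ (r : F) = c ^ p * x ∧ r ∉ w.asIdeal := by
  obtain ⟨π, hπ⟩ := w.valuation_exists_uniformizer F
  have hπ0 : π ≠ 0 := by
    rintro rfl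
    rw [map_zero] at hπ
    exact WithZero.exp_ne_zero hπ.symm
  set c0 : F := π ^ (-m) with hc0
  have hc00 : c0 ≠ 0 := zpow_ne_zero _ hπ0
  have hvc0 : w.valuation F c0 = WithZero.exp m := by
    rw [hc0, map_zpow₀, hπ, ← WithZero.exp_zsmul]
    congr 1
    simp
  set z : F := c0 ^ p * x with hz
  have hz1 : w.valuation F z = 1 := by
    rw [hz, map_mul, map_pow, hvc0, hm, ← WithZero.exp_nsmul, ← WithZero.exp_add,
      ← WithZero.exp_zero]
    congr 1
    simp
  obtain ⟨n, ⟨d, hd⟩, hnd⟩ := w.exists_primeCompl_mul_eq_of_integer z (le_of_eq hz1)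
  have hdw : d ∉ w.asIdeal := hd
  have hd0 : d ≠ 0 := by
    rintro rfl
    exact hdw (zero_mem _)
  have hdK : algebraMap (𝓞 F) F d ≠ 0 := by
    rwa [Ne, FaithfulSMul.algebraMap_eq_zero_iff]
  have hvd : w.intValuation d = 1 := (w.intValuation_eq_one_iff_mem_primeCompl d).mpr hd
  have hnw : n ∉ w.asIdeal := by
    intro hn
    have h1 := (w.intValuation_lt_one_iff_mem n).mpr hn
    have h3 : w.valuation F (algebraMap (𝓞 F) F n) = 1 := by
      rw [← hnd, map_mul, hz1, one_mul, w.valuation_of_algebraMap]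
      exact hvd
    have h2 : w.intValuation n = 1 := by
      rw [← w.valuation_of_algebraMap (K := F)]
      exact h3
    rw [h2] at h1
    exact lt_irrefl _ h1
  have hprime : w.asIdeal.IsPrime := w.isPrime
  refine ⟨c0 * algebraMap (𝓞 F) F d, n * d ^ (p - 1), mul_ne_zero hc00 hdK, ?_, ?_⟩
  · have h2 : (algebraMap (𝓞 F) F d) ^ p = (algebraMap (𝓞 F) F d) ^ (p - 1) *
        algebraMap (𝓞 F) F d := by
      rw [← pow_succ]
      congr 1
      omega
    show algebraMap (𝓞 F) F (n * d ^ (p - 1)) = _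
    rw [map_mul, map_pow, ← hnd, mul_pow, h2, hz]
    ring
  · intro hmem
    rcases hprime.mem_or_mem hmem with h | h
    · exact hnw h
    · exact hdw (hprime.mem_of_pow_mem _ h)

/-- **(KL2)** `N = F(β)`, `β ^ p = x`: a prime `P ∤ p` of `N` at which `ord x` is divisible by `p`
is unramified over `F` (via the different, `CFT/Glob/KummerUnram`). -/
theorem isUnramifiedAt_of_valuation (hp : p.Prime) (hdeg : Module.finrank F N = p) {x : F}
    (hx : ∀ y : F, y ^ p ≠ x) {β : N} (hβ : β ^ p = algebraMap F N x) (P : Ideal (𝓞 N))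
    [P.IsPrime] (hpP : (p : 𝓞 N) ∉ P) (w : HeightOneSpectrum (𝓞 F))
    (hw : P.under (𝓞 F) = w.asIdeal) (m : ℤ)
    (hm : w.valuation F x = WithZero.exp (-((p : ℤ) * m))) :
    Algebra.IsUnramifiedAt (𝓞 F) P := by
  obtain ⟨c, r, hc0, hrc, hr⟩ := exists_scale_of_valuation hp.ne_zero w x m hm
  have hgen : Algebra.adjoin F {β} = ⊤ := by
    have h1 := adjoin_eq_top hp hdeg hx hβ
    have halg : IsAlgebraic F β := Algebra.IsAlgebraic.isAlgebraic β
    rw [← IntermediateField.adjoin_simple_toSubalgebra_of_isAlgebraic halg, h1,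
      IntermediateField.top_toSubalgebra]
  exact CFT.Glob.KummerUnram.isUnramifiedAt_of_scaled β hgen p x hβ P hpP c r hc0 hrc
    (by rw [hw]; exact hr)

/-- **(KL2), inertia form**: the inertia group of `P` is trivial. -/
theorem inertia_eq_bot_of_valuation (hp : p.Prime) (hdeg : Module.finrank F N = p) {x : F}
    (hx : ∀ y : F, y ^ p ≠ x) {β : N} (hβ : β ^ p = algebraMap F N x) (P : Ideal (𝓞 N))
    [hP : P.IsPrime] (hpP : (p : 𝓞 N) ∉ P) (w : HeightOneSpectrum (𝓞 F))
    (hw : P.under (𝓞 F) = w.asIdeal) (m : ℤ)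
    (hm : w.valuation F x = WithZero.exp (-((p : ℤ) * m))) :
    P.inertia (N ≃ₐ[F] N) = ⊥ := by
  rw [eq_bot_iff]
  intro σ hσ
  rw [Subgroup.mem_bot]
  obtain ⟨c, r, hc0, hrc, hr⟩ := exists_scale_of_valuation hp.ne_zero w x m hm
  have hcN : algebraMap F N c ≠ 0 := by
    rwa [Ne, FaithfulSMul.algebraMap_eq_zero_iff]
  -- the integral generator
  set β' : N := algebraMap F N c * β with hβ'
  have hβ'p : β' ^ p = algebraMap (𝓞 N) N (algebraMap (𝓞 F) (𝓞 N) r) := by
    rw [hβ', mul_pow, hβ, ← map_pow, ← map_mul, ← hrc]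
    rfl
  have hint : IsIntegral ℤ β' := by
    refine IsIntegral.of_pow hp.pos ?_
    rw [hβ'p]
    exact NumberField.RingOfIntegers.isIntegral_coe _
  set b : 𝓞 N := ⟨β', hint⟩ with hb
  have hbp : b ^ p = algebraMap (𝓞 F) (𝓞 N) r := NumberField.RingOfIntegers.ext hβ'p
  have hbP : b ∉ P := by
    intro hbP
    have h1 : algebraMap (𝓞 F) (𝓞 N) r ∈ P := hbp ▸ Ideal.pow_mem_of_mem P hbP p hp.pos
    apply hr
    rw [← hw]
    exact h1
  have hβ'0 : β' ≠ 0 := by
    intro h0
    apply hbP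
    have : b = 0 := NumberField.RingOfIntegers.ext h0
    rw [this]
    exact zero_mem _
  have h1 : σ • b - b ∈ P := hσ b
  -- the root of unity `σ β' / β'`
  set η : N := σ β' / β' with hη
  have hσβ' : σ β' = η * β' := by rw [hη, div_mul_cancel₀ _ hβ'0]
  have hηp : η ^ p = 1 := by
    have h2 : (σ β') ^ p = β' ^ p := by
      rw [← map_pow, hβ', mul_pow, hβ, ← map_pow, ← map_mul, σ.commutes]
    rw [hη, div_pow, h2, div_self (pow_ne_zero _ hβ'0)]
  by_cases hη1 : η = 1
  · have h2 : σ β = β := by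
      have h3 : σ β' = β' := by rw [hσβ', hη1, one_mul]
      rw [hβ', map_mul, σ.commutes] at h3
      exact mul_left_cancel₀ hcN h3
    exact eq_one_of_apply_eq hp hdeg hx hβ σ h2
  · exfalso
    have hηint : IsIntegral ℤ η := by
      refine IsIntegral.of_pow hp.pos ?_
      rw [hηp]
      exact isIntegral_one
    set η' : 𝓞 N := ⟨η, hηint⟩ with hη'
    have hη'p : η' ^ p = 1 := NumberField.RingOfIntegers.ext hηp
    have hη'1 : η' - 1 ≠ 0 := by
      intro h
      exact hη1 (congrArg (fun y : 𝓞 N => (y : N)) (sub_eq_zero.mp h))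
    have h2 : (η' - 1) * b = σ • b - b := by
      apply NumberField.RingOfIntegers.ext
      show (η - 1) * β' = σ β' - β'
      rw [hσβ']
      ring
    have h3 : η' - 1 ∈ P := (hP.mem_or_mem (h2 ▸ h1)).resolve_right hbP
    have hsum : ∑ i ∈ Finset.range p, η' ^ i = 0 := by
      have h4 : (η' - 1) * ∑ i ∈ Finset.range p, η' ^ i = 0 := by
        rw [mul_geom_sum, hη'p, sub_self]
      exact (mul_eq_zero.mp h4).resolve_left hη'1
    have h4 : Ideal.Quotient.mk P η' = 1 := by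
      rw [← map_one (Ideal.Quotient.mk P), Ideal.Quotient.eq]
      exact h3
    have h5 : Ideal.Quotient.mk P (∑ i ∈ Finset.range p, η' ^ i) = (p : 𝓞 N ⧸ P) := by
      rw [map_sum]
      simp [map_pow, h4]
    rw [hsum, map_zero] at h5
    apply hpP
    rw [← Ideal.Quotient.eq_zero_iff_mem, map_natCast]
    exact h5.symm

/-- **(KL2)**, unit form (the shape used for primes outside the set `Sg` of `SI.HStmt`): if `x`
is a unit at `w ∤ p`, every prime of `N = F(x ^ (1/p))` above `w` is unramified. -/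
theorem isUnramifiedAt_of_valuation_eq_one (hp : p.Prime) (hdeg : Module.finrank F N = p)
    {x : F} (hx : ∀ y : F, y ^ p ≠ x) {β : N} (hβ : β ^ p = algebraMap F N x) (P : Ideal (𝓞 N))
    [P.IsPrime] (w : HeightOneSpectrum (𝓞 F)) (hw : P.under (𝓞 F) = w.asIdeal)
    (hpw : (p : 𝓞 F) ∉ w.asIdeal) (hx1 : w.valuation F x = 1) :
    Algebra.IsUnramifiedAt (𝓞 F) P := by
  have hpP : (p : 𝓞 N) ∉ P := by
    intro h
    apply hpw
    rw [← hw, Ideal.under_def, Ideal.mem_comap, map_natCast]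
    exact h
  refine isUnramifiedAt_of_valuation hp hdeg hx hβ P hpP w hw 0 ?_
  rw [hx1, mul_zero, neg_zero, WithZero.exp_zero]

end Unram

end Fermat.Agent.S14.Artin.KummerLocal
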