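/-
S14, Route A (ideal-theoretic Artin reciprocity), package [L_v index], local part.

For a Dedekind domain `R` with fraction field `F`, a prime `v` of `R` with finite residue field
and `k ≥ 1`, the subgroup
  `congrPow v F p k = {x ∈ Fˣ | ∃ y, x / y ^ p ≡ 1 mod v ^ k}`
of `Fˣ` has finite index, bounded by `p * #{β ∈ (R ⧸ v ^ k)ˣ | β ^ p = 1}`.  Together with the
count of `Fermat.Agent.Lib.PTorsionCount` this gives `p ^ 2` for `v ∤ p` and
`p ^ 2 * N(v) ^ e` for `v ∣ p` (`e = v(p)`, `(p - 1) k > p e`).  No completions are used.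
-/
import Mathlib
import Fermat.Agent.Lib.PTorsionCount

namespace Fermat.Agent.S14.Artin.LvLocal

open IsDedekindDomain WithZero

section Local

variable {R : Type*} [CommRing R] [IsDedekindDomain R] (v : HeightOneSpectrum R)
  (F : Type*) [Field F] [Algebra R F] [IsFractionRing R F]

/-- The `v`-units of `F` which are congruent to `1` modulo `v ^ k`. -/
def principalUnits (k : ℕ) : Subgroup Fˣ where
  carrier := {u | v.valuation F (u : F) = 1 ∧ v.valuation F ((u : F) - 1) ≤ exp (-(k : ℤ))}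
  mul_mem' := by
    rintro a b ⟨ha1, ha⟩ ⟨hb1, hb⟩
    refine ⟨by simp [ha1, hb1], ?_⟩
    have h : ((a * b : Fˣ) : F) - 1 = (a : F) * ((b : F) - 1) + ((a : F) - 1) := by
      push_cast; ring
    rw [h]
    refine (v.valuation F).map_add_le ?_ ha
    rw [map_mul, ha1, one_mul]; exact hb
  one_mem' := by simp
  inv_mem' := by
    rintro a ⟨ha1, ha⟩
    refine ⟨by simp [ha1], ?_⟩
    have h : ((a⁻¹ : Fˣ) : F) - 1 = -(((a⁻¹ : Fˣ) : F) * ((a : F) - 1)) := by
      have := a.ne_zero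
      push_cast; field_simp; ring
    rw [h, Valuation.map_neg, map_mul]
    simpa [ha1] using ha

variable {F}

theorem mem_principalUnits_iff {k : ℕ} {u : Fˣ} :
    u ∈ principalUnits v F k ↔
      v.valuation F (u : F) = 1 ∧ v.valuation F ((u : F) - 1) ≤ exp (-(k : ℤ)) := Iff.rfl

/-- For `k ≥ 1` the condition `v(u) = 1` is automatic. -/
theorem mem_principalUnits_iff_of_pos {k : ℕ} (hk : 0 < k) {u : Fˣ} :
    u ∈ principalUnits v F k ↔ v.valuation F ((u : F) - 1) ≤ exp (-(k : ℤ)) := by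
  refine ⟨fun h => h.2, fun h => ⟨?_, h⟩⟩
  have hlt : v.valuation F ((u : F) - 1) < 1 := by
    refine lt_of_le_of_lt h ?_
    rw [← exp_zero, exp_lt_exp]
    omega
  have := (v.valuation F).map_one_add_of_lt hlt
  simpa using this

theorem principalUnits_anti {k k' : ℕ} (h : k ≤ k') :
    principalUnits v F k' ≤ principalUnits v F k := by
  rintro u ⟨hu1, hu⟩
  refine ⟨hu1, hu.trans ?_⟩
  rw [exp_le_exp]
  omega

variable (F)

/-- `congrPow v F p k = {x ∈ Fˣ | ∃ y, x / y ^ p ≡ 1 mod v ^ k}`: the elements of `Fˣ` which are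
`p`-th powers up to a `v`-unit congruent to `1` modulo `v ^ k` (the group `L_v` of Route A). -/
def congrPow (p k : ℕ) : Subgroup Fˣ :=
  principalUnits v F k ⊔ (powMonoidHom p : Fˣ →* Fˣ).range

variable {F}

theorem mem_congrPow_iff {p k : ℕ} {x : Fˣ} :
    x ∈ congrPow v F p k ↔ ∃ y : Fˣ, x * (y ^ p)⁻¹ ∈ principalUnits v F k := by
  unfold congrPow
  rw [Subgroup.mem_sup]
  constructor
  · rintro ⟨w, hw, z, ⟨y, rfl⟩, rfl⟩
    exact ⟨y, by simpa using hw⟩
  · rintro ⟨y, hy⟩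
    exact ⟨x * (y ^ p)⁻¹, hy, y ^ p, ⟨y, rfl⟩, by simp⟩

theorem principalUnits_le_congrPow (p k : ℕ) : principalUnits v F k ≤ congrPow v F p k :=
  le_sup_left

theorem pow_mem_congrPow (p k : ℕ) (y : Fˣ) : y ^ p ∈ congrPow v F p k :=
  (le_sup_right : (powMonoidHom p : Fˣ →* Fˣ).range ≤ congrPow v F p k) ⟨y, rfl⟩

theorem congrPow_anti (p : ℕ) {k k' : ℕ} (h : k ≤ k') : congrPow v F p k' ≤ congrPow v F p k :=
  sup_le_sup_right (principalUnits_anti v h) _

/-- An element of `R` outside `v` is a unit modulo `v ^ k`. -/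
theorem isUnit_mk_of_notMem (k : ℕ) {a : R} (ha : a ∉ v.asIdeal) :
    IsUnit (Ideal.Quotient.mk (v.asIdeal ^ k) a) := by
  have hmax : v.asIdeal.IsMaximal := v.isMaximal
  obtain ⟨y, i, hi, h⟩ := Ideal.IsMaximal.exists_inv_pow v.asIdeal ha k
  refine IsUnit.of_mul_eq_one (Ideal.Quotient.mk (v.asIdeal ^ k) y) ?_
  rw [← map_mul, ← map_one (Ideal.Quotient.mk (v.asIdeal ^ k)), Ideal.Quotient.eq]
  have : a * y - 1 = -i := by rw [← h]; ring
  rw [this]
  exact neg_mem hi

omit [IsDedekindDomain R] in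
/-- Every unit of `R ⧸ v ^ k` (`k ≥ 1`) lifts to an element of `R` outside `v`. -/
theorem exists_notMem_mk_eq {k : ℕ} (hk : 0 < k) (β : (R ⧸ v.asIdeal ^ k)ˣ) :
    ∃ b : R, b ∉ v.asIdeal ∧ Ideal.Quotient.mk (v.asIdeal ^ k) b = β := by
  obtain ⟨b, hb⟩ := Ideal.Quotient.mk_surjective (β : R ⧸ v.asIdeal ^ k)
  refine ⟨b, fun hmem => ?_, hb⟩
  have h0 : (Ideal.Quotient.mk (v.asIdeal ^ k) b) ^ k = 0 := by
    rw [← map_pow, Ideal.Quotient.eq_zero_iff_mem]
    exact Ideal.pow_mem_pow hmem k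
  rw [hb] at h0
  have hunit : IsUnit ((β : R ⧸ v.asIdeal ^ k) ^ k) := (β.isUnit).pow k
  rw [h0] at hunit
  have htriv : (1 : R ⧸ v.asIdeal ^ k) = 0 := by
    obtain ⟨c, hc⟩ := hunit.exists_left_inv
    rw [← hc, mul_zero]
  rw [← map_one (Ideal.Quotient.mk (v.asIdeal ^ k)), Ideal.Quotient.eq_zero_iff_mem] at htriv
  exact v.isPrime.ne_top ((Ideal.eq_top_iff_one _).mpr (Ideal.pow_le_self hk.ne' htriv))

/-- Decomposition of `x ∈ Fˣ` as `π ^ n * u` with `u` a `v`-unit approximated by `a ∈ R`. -/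
theorem exists_decomp (k : ℕ) {π : F} (hπ : v.valuation F π = exp (-1 : ℤ)) (x : Fˣ) :
    ∃ (n : ℤ) (u : F) (a : R), (x : F) = π ^ n * u ∧ v.valuation F u = 1 ∧ a ∉ v.asIdeal ∧
      v.valuation F (u - algebraMap R F a) ≤ exp (-(k : ℤ)) := by
  have hx0 : v.valuation F (x : F) ≠ 0 := (Valuation.ne_zero_iff _).mpr x.ne_zero
  have hπ0 : π ≠ 0 := by
    rintro rfl
    rw [map_zero] at hπ
    exact exp_ne_zero hπ.symm
  set n : ℤ := -(log (v.valuation F (x : F))) with hn
  have hvx : v.valuation F (x : F) = exp (-n) := by rw [hn, neg_neg, exp_log hx0]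
  have hπn : v.valuation F (π ^ n) = exp (-n) := by
    rw [map_zpow₀, hπ, ← exp_zsmul]
    simp
  have hπn0 : π ^ n ≠ 0 := zpow_ne_zero n hπ0
  set u : F := (π ^ n)⁻¹ * (x : F) with hu
  have hvu : v.valuation F u = 1 := by
    rw [hu, map_mul, map_inv₀, hπn, hvx]
    exact inv_mul_cancel₀ exp_ne_zero
  obtain ⟨a, ha⟩ := v.exists_valuation_sub_lt_of_integer (K := F) hvu.le
    (Units.mk0 (exp (-(k : ℤ))) exp_ne_zero)
  rw [Units.val_mk0] at ha
  have hlt : v.valuation F (algebraMap R F a - u) < v.valuation F u := by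
    rw [hvu]
    refine lt_of_lt_of_le ha ?_
    rw [← exp_zero, exp_le_exp]
    omega
  have hva : v.valuation F (algebraMap R F a) = 1 := by
    have := (v.valuation F).map_add_eq_of_lt_right hlt
    rw [sub_add_cancel, hvu] at this
    exact this
  refine ⟨n, u, a, ?_, hvu, ?_, ?_⟩
  · rw [hu, mul_inv_cancel_left₀ hπn0]
  · rwa [v.valuation_eq_one_iff_notMem] at hva
  · rw [Valuation.map_sub_swap]
    exact ha.le

/-- Two decompositions with the same exponent modulo `p` and unit parts differing by a `p`-th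
power modulo `v ^ k` give the same class modulo `congrPow`. -/
theorem inv_mul_mem_congrPow_of_decomp {p k : ℕ} {π : F} (hπ : v.valuation F π = exp (-1 : ℤ))
    {x x' : Fˣ} {n n' : ℤ} {u u' : F} {a a' b : R}
    (hx : (x : F) = π ^ n * u) (hu : v.valuation F u = 1)
    (hua : v.valuation F (u - algebraMap R F a) ≤ exp (-(k : ℤ)))
    (hx' : (x' : F) = π ^ n' * u') (hu' : v.valuation F u' = 1)
    (hua' : v.valuation F (u' - algebraMap R F a') ≤ exp (-(k : ℤ)))
    {t : ℤ} (hn : n' = n + t * p) (hb : b ∉ v.asIdeal) (hab : a' - a * b ^ p ∈ v.asIdeal ^ k) :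
    x⁻¹ * x' ∈ congrPow v F p k := by
  have hπ0 : π ≠ 0 := by
    rintro rfl
    rw [map_zero] at hπ
    exact exp_ne_zero hπ.symm
  have hvb : v.valuation F (algebraMap R F b) = 1 := (v.valuation_eq_one_iff_notMem).mpr hb
  have hb0 : algebraMap R F b ≠ 0 := by
    intro h
    rw [h, map_zero] at hvb
    exact zero_ne_one hvb
  have hu0 : u ≠ 0 := by
    rintro rfl
    rw [map_zero] at hu
    exact zero_ne_one hu
  rw [mem_congrPow_iff]
  refine ⟨(Units.mk0 π hπ0) ^ t * Units.mk0 _ hb0, ?_⟩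
  -- the element `w = u' / (u * b ^ p)`
  have hw : ((x⁻¹ * x' * (((Units.mk0 π hπ0) ^ t * Units.mk0 _ hb0) ^ p)⁻¹ : Fˣ) : F)
      = u' * (u * algebraMap R F b ^ p)⁻¹ := by
    have hπn0 : π ^ n ≠ 0 := zpow_ne_zero n hπ0
    have hπt0 : π ^ t ≠ 0 := zpow_ne_zero t hπ0
    have e1 : π ^ n' = π ^ n * (π ^ t) ^ p := by
      rw [hn, zpow_add₀ hπ0, zpow_mul, zpow_natCast]
    simp only [Units.val_mul, Units.val_inv_eq_inv_val, Units.val_pow_eq_pow_val,
      Units.val_zpow_eq_zpow_val, Units.val_mk0]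
    rw [hx, hx', e1]
    field_simp
    ring
  have hvden : v.valuation F (u * algebraMap R F b ^ p) = 1 := by
    rw [map_mul, map_pow, hu, hvb, one_pow, one_mul]
  have hden0 : u * algebraMap R F b ^ p ≠ 0 := mul_ne_zero hu0 (pow_ne_zero p hb0)
  rw [mem_principalUnits_iff, hw]
  refine ⟨by rw [map_mul, map_inv₀, hvden, hu', inv_one, one_mul], ?_⟩
  have h1 : u' * (u * algebraMap R F b ^ p)⁻¹ - 1
      = (u' - u * algebraMap R F b ^ p) * (u * algebraMap R F b ^ p)⁻¹ := by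
    field_simp
  rw [h1, map_mul, map_inv₀, hvden, inv_one, mul_one]
  have h2 : u' - u * algebraMap R F b ^ p
      = (u' - algebraMap R F a') + (algebraMap R F (a' - a * b ^ p)
          + -((u - algebraMap R F a) * algebraMap R F b ^ p)) := by
    simp only [map_sub, map_mul, map_pow]
    ring
  rw [h2]
  refine (v.valuation F).map_add_le hua' ((v.valuation F).map_add_le ?_ ?_)
  · rw [v.valuation_of_algebraMap, v.intValuation_le_pow_iff_mem]
    exact hab
  · rw [Valuation.map_neg, map_mul, map_pow, hvb, one_pow, mul_one]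
    exact hua

variable (F) in
/-- The quotient `Fˣ ⧸ congrPow v F p k` embeds into `ℤ/p × (B ⧸ B ^ p)`, `B = (R ⧸ v ^ k)ˣ`. -/
theorem exists_injective_quotient_congrPow {p k : ℕ} (hk : 0 < k) :
    ∃ f : (Fˣ ⧸ congrPow v F p k) → ZMod p ×
        ((R ⧸ v.asIdeal ^ k)ˣ ⧸ (powMonoidHom p : (R ⧸ v.asIdeal ^ k)ˣ →* _).range),
      Function.Injective f := by
  obtain ⟨π, hπ⟩ := v.valuation_exists_uniformizer F
  choose n u a hx hu ha hua using exists_decomp v k hπ
  refine ⟨fun q => ((n q.out : ZMod p),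
    QuotientGroup.mk ((isUnit_mk_of_notMem v k (ha q.out)).unit)), ?_⟩
  intro q q' h
  simp only [Prod.mk.injEq] at h
  obtain ⟨h1, h2⟩ := h
  -- exponents
  obtain ⟨t, ht⟩ : ∃ t : ℤ, n q'.out = n q.out + t * p := by
    have := (ZMod.intCast_eq_intCast_iff_dvd_sub (n q.out) (n q'.out) p).mp h1
    obtain ⟨t, ht⟩ := this
    exact ⟨t, by rw [mul_comm]; linarith⟩
  -- unit parts
  rw [QuotientGroup.eq] at h2
  obtain ⟨γ, hγ⟩ := h2
  obtain ⟨b, hb, hbγ⟩ := exists_notMem_mk_eq v hk γ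
  have hab : a q'.out - a q.out * b ^ p ∈ v.asIdeal ^ k := by
    rw [← Ideal.Quotient.eq, map_mul, map_pow, hbγ]
    have h4 : (isUnit_mk_of_notMem v k (ha q'.out)).unit
        = (isUnit_mk_of_notMem v k (ha q.out)).unit * γ ^ p := by
      have h3 : γ ^ p = _ := hγ
      rw [h3, mul_inv_cancel_left]
    have h5 := congrArg (fun z : (R ⧸ v.asIdeal ^ k)ˣ => (z : R ⧸ v.asIdeal ^ k)) h4
    simpa using h5
  have hmem := inv_mul_mem_congrPow_of_decomp v hπ (hx q.out) (hu q.out) (hua q.out)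
    (hx q'.out) (hu q'.out) (hua q'.out) ht hb hab
  rw [← QuotientGroup.out_eq' q, ← QuotientGroup.out_eq' q']
  exact QuotientGroup.eq.mpr hmem

theorem finite_quotient_pow [Finite (R ⧸ v.asIdeal)] (k : ℕ) : Finite (R ⧸ v.asIdeal ^ k) := by
  apply Nat.finite_of_card_ne_zero
  rw [Fermat.Agent.Lib.PTorsionCount.card_quotient_pow]
  exact pow_ne_zero k Nat.card_pos.ne'

variable (F) in
/-- `Fˣ ⧸ congrPow v F p k` is finite. -/
theorem finite_quotient_congrPow [Finite (R ⧸ v.asIdeal)] {p k : ℕ} (hp : p ≠ 0) (hk : 0 < k) :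
    Finite (Fˣ ⧸ congrPow v F p k) := by
  have := finite_quotient_pow v k
  have : NeZero p := ⟨hp⟩
  obtain ⟨f, hf⟩ := exists_injective_quotient_congrPow v F (p := p) hk
  exact Finite.of_injective f hf

variable (F) in
/-- `congrPow v F p k` has finite index in `Fˣ`. -/
theorem finiteIndex_congrPow [Finite (R ⧸ v.asIdeal)] {p k : ℕ} (hp : p ≠ 0) (hk : 0 < k) :
    (congrPow v F p k).FiniteIndex := by
  have := finite_quotient_congrPow v F hp hk
  exact Subgroup.finiteIndex_of_finite_quotient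

variable (F) in
/-- **Local index bound.** `[Fˣ : congrPow v F p k] ≤ p * #{β ∈ (R ⧸ v ^ k)ˣ | β ^ p = 1}`. -/
theorem index_congrPow_le [Finite (R ⧸ v.asIdeal)] {p k : ℕ} (hp : p ≠ 0) (hk : 0 < k) :
    (congrPow v F p k).index ≤ p * Nat.card {x : (R ⧸ v.asIdeal ^ k)ˣ // x ^ p = 1} := by
  have := finite_quotient_pow v k
  have : NeZero p := ⟨hp⟩
  obtain ⟨f, hf⟩ := exists_injective_quotient_congrPow v F (p := p) hk
  have h := Nat.card_le_card_of_injective f hf
  rw [Nat.card_prod, Nat.card_zmod,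
    Fermat.Agent.Lib.PTorsionCount.card_quotient_pow_eq_card_torsion] at h
  exact h

variable (F) in
/-- Local index bound in terms of `e = v(p)` (`e = 0` allowed: the tame case), for `R` containing
a primitive `p`-th root of unity and `(p - 1) * k > p * e`:
`[Fˣ : congrPow v F p k] ≤ p ^ 2 * N(v) ^ e`. -/
theorem index_congrPow_le_of_intValuation_natCast [Finite (R ⧸ v.asIdeal)] {p : ℕ}
    (hp : p.Prime) {ζ : R} (hζ : IsPrimitiveRoot ζ p) {e k : ℕ}
    (he : v.intValuation (p : R) = exp (-(e : ℤ))) (hk : p * e < (p - 1) * k) :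
    (congrPow v F p k).index ≤ p ^ 2 * Nat.card (R ⧸ v.asIdeal) ^ e := by
  have hk0 : 0 < k := by
    rcases Nat.eq_zero_or_pos k with rfl | h
    · simp at hk
    · exact h
  refine (index_congrPow_le v F hp.ne_zero hk0).trans ?_
  rw [Fermat.Agent.Lib.PTorsionCount.card_units_pow_eq_one_of_intValuation_natCast v hp hζ he hk]
  exact le_of_eq (by ring)

variable (F) in
/-- Tame case `v ∤ p`: `[Fˣ : congrPow v F p k] ≤ p ^ 2` for every `k ≥ 1`. -/
theorem index_congrPow_le_of_notMem [Finite (R ⧸ v.asIdeal)] {p : ℕ}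
    (hp : p.Prime) {ζ : R} (hζ : IsPrimitiveRoot ζ p) (hpv : (p : R) ∉ v.asIdeal) {k : ℕ}
    (hk : 0 < k) : (congrPow v F p k).index ≤ p ^ 2 := by
  refine (index_congrPow_le v F hp.ne_zero hk).trans ?_
  rw [Fermat.Agent.Lib.PTorsionCount.card_units_pow_eq_one_of_notMem v hp hζ hpv hk]
  exact le_of_eq (by ring)

end Local

end Fermat.Agent.S14.Artin.LvLocal
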