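/-
S14, Route A (ideal-theoretic Artin reciprocity), package [L_v index]: proof of the contract
`Fermat.Agent.S14.Artin.LvIndexStmt`.

For a number field `F ∋ ζ_p` and a finite set `S` of primes, the elements of `Fˣ` which are
locally `p`-th powers at every `v ∈ S` (`IsLocalPow`) form a subgroup of finite index at most
`p ^ (2 * |S| + [F : ℚ])`.  The local bound is `LvLocal.index_congrPow_le` together with the
count of `Lib.PTorsionCount`; the global input is `∏_{v ∈ S} N(v) ^ ord_v(p) ∣ N((p)) = p ^ [F : ℚ]`.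
-/
import Mathlib
import Fermat.Agent.Lib.PTorsionCount
import Fermat.Agent.S14.Artin.Plan
import Fermat.Agent.S14.Artin.LvLocal

open scoped NumberField nonZeroDivisors
open IsDedekindDomain WithZero

namespace Fermat.Agent.S14.Artin

namespace LvGlobal

/-- Discreteness of the value group: `z < exp n` implies `z ≤ exp (n - 1)`. -/
theorem le_exp_sub_one_of_lt_exp {z : ℤᵐ⁰} {n : ℤ} (h : z < exp n) : z ≤ exp (n - 1) := by
  rcases eq_or_ne z 0 with rfl | hz
  · exact zero_le
  · rw [← log_lt_iff_lt_exp hz] at h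
    rw [← log_le_iff_le_exp hz]
    omega

/-- The index of a finite intersection is at most the product of the indices. -/
theorem index_biInf_le {G ι : Type*} [Group G] (s : Finset ι) (f : ι → Subgroup G) :
    (⨅ i ∈ s, f i).index ≤ ∏ i ∈ s, (f i).index := by
  classical
  induction s using Finset.induction_on with
  | empty => simp
  | insert a s ha ih =>
    rw [Finset.iInf_insert, Finset.prod_insert ha]
    exact Subgroup.index_inf_le.trans (Nat.mul_le_mul_left _ ih)

section NumberField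

variable {F : Type} [Field F] [NumberField F]

/-- `IsLocalPow` is membership in `LvLocal.congrPow` with the modulus `v ^ (p * ord_v(1 - ζ) + 1)`. -/
theorem mem_congrPow_iff_isLocalPow {p : ℕ} {ζ : F} {ζ' : 𝓞 F} (hζ : algebraMap (𝓞 F) F ζ' = ζ)
    (v : HeightOneSpectrum (𝓞 F)) {c : ℕ} (hc : v.intValuation (ζ' - 1) = exp (-(c : ℤ)))
    (x : Fˣ) : x ∈ LvLocal.congrPow v F p (p * c + 1) ↔ IsLocalPow p ζ v (x : F) := by
  have hval : v.valuation F (1 - ζ) ^ p = exp (-((p * c : ℕ) : ℤ)) := by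
    rw [← hζ, ← map_one (algebraMap (𝓞 F) F), ← map_sub, v.valuation_of_algebraMap,
      Valuation.map_sub_swap, hc, ← exp_nsmul]
    congr 1
    push_cast
    simp
  have hk : 0 < p * c + 1 := Nat.succ_pos _
  rw [LvLocal.mem_congrPow_iff]
  unfold IsLocalPow
  rw [hval]
  constructor
  · rintro ⟨y, hy⟩
    rw [LvLocal.mem_principalUnits_iff_of_pos v hk] at hy
    refine ⟨(y : F), y.ne_zero, ?_⟩
    have hcoe : ((x * (y ^ p)⁻¹ : Fˣ) : F) = (x : F) / (y : F) ^ p := by
      simp [div_eq_mul_inv]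
    rw [hcoe] at hy
    refine lt_of_le_of_lt hy ?_
    rw [exp_lt_exp]
    push_cast
    omega
  · rintro ⟨y, hy0, hy⟩
    refine ⟨Units.mk0 y hy0, ?_⟩
    rw [LvLocal.mem_principalUnits_iff_of_pos v hk]
    have hcoe : ((x * ((Units.mk0 y hy0) ^ p)⁻¹ : Fˣ) : F) = (x : F) / y ^ p := by
      simp [div_eq_mul_inv]
    rw [hcoe]
    have := le_exp_sub_one_of_lt_exp hy
    refine this.trans (le_of_eq ?_)
    congr 1
    push_cast
    ring

/-- `∏_{v ∈ S} N(v) ^ e_v ≤ p ^ [F : ℚ]` whenever `p ∈ v ^ e_v` for all `v ∈ S`. -/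
theorem prod_card_quotient_pow_le (p : ℕ) (hp : p ≠ 0)
    (S : Finset (HeightOneSpectrum (𝓞 F))) (e : HeightOneSpectrum (𝓞 F) → ℕ)
    (he : ∀ v ∈ S, (p : 𝓞 F) ∈ v.asIdeal ^ e v) :
    ∏ v ∈ S, Nat.card (𝓞 F ⧸ v.asIdeal) ^ e v ≤ p ^ Module.finrank ℚ F := by
  classical
  have hdvd : (∏ v ∈ S, v.asIdeal ^ e v) ∣ Ideal.span {(p : 𝓞 F)} := by
    refine Finset.prod_dvd_of_coprime ?_ ?_
    · intro v _ w _ hvw
      have hv : v.asIdeal.IsMaximal := v.isMaximal
      have hw : w.asIdeal.IsMaximal := w.isMaximal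
      have hne : v.asIdeal ≠ w.asIdeal := fun h => hvw (HeightOneSpectrum.ext h)
      exact (Ideal.isCoprime_of_isMaximal hne).pow
    · intro v hv
      rw [Ideal.dvd_iff_le, Ideal.span_singleton_le_iff_mem]
      exact he v hv
  have h1 := Ideal.absNorm_dvd_absNorm_of_le (Ideal.le_of_dvd hdvd)
  rw [Ideal.absNorm_span_natCast, NumberField.RingOfIntegers.rank, map_prod] at h1
  have h2 : ∏ v ∈ S, Ideal.absNorm (v.asIdeal ^ e v)
      = ∏ v ∈ S, Nat.card (𝓞 F ⧸ v.asIdeal) ^ e v := by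
    refine Finset.prod_congr rfl fun v _ => ?_
    rw [map_pow, Ideal.absNorm_apply, Submodule.cardQuot_apply]
  rw [h2] at h1
  exact Nat.le_of_dvd (pow_pos (Nat.pos_of_ne_zero hp) _) h1

end NumberField

end LvGlobal

/-- **[L_v index]** (Route A contract `LvIndexStmt`). -/
theorem lvIndexStmt (p : ℕ) : LvIndexStmt p := by
  intro hp F _ _ ζ hζ S
  classical
  have : NeZero p := ⟨hp.ne_zero⟩
  have hζ' : IsPrimitiveRoot hζ.toInteger p := hζ.toInteger_isPrimitiveRoot
  have hcoe : algebraMap (𝓞 F) F hζ.toInteger = ζ := rfl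
  have hne : hζ.toInteger - 1 ≠ 0 := sub_ne_zero.mpr (hζ'.ne_one hp.one_lt)
  have hfin : ∀ v : HeightOneSpectrum (𝓞 F), Finite (𝓞 F ⧸ v.asIdeal) := fun v =>
    Ideal.finiteQuotientOfFreeOfNeBot v.asIdeal v.ne_bot
  choose c hc using fun v : HeightOneSpectrum (𝓞 F) =>
    Fermat.Agent.Lib.PTorsionCount.exists_intValuation_eq_exp v hne
  refine ⟨⨅ v ∈ S, LvLocal.congrPow v F p (p * c v + 1), ?_, ?_, ?_⟩
  · intro x
    simp only [Subgroup.mem_iInf]
    exact forall₂_congr fun v _ => LvGlobal.mem_congrPow_iff_isLocalPow hcoe v (hc v) x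
  · have : (⨅ v ∈ S, LvLocal.congrPow v F p (p * c v + 1)).FiniteIndex :=
      Subgroup.finiteIndex_iInf' _ fun v _ =>
        LvLocal.finiteIndex_congrPow v F hp.ne_zero (Nat.succ_pos _)
    exact Subgroup.FiniteIndex.index_ne_zero
  · refine (LvGlobal.index_biInf_le S _).trans ?_
    have hloc : ∀ v ∈ S, (LvLocal.congrPow v F p (p * c v + 1)).index
        ≤ p ^ 2 * Nat.card (𝓞 F ⧸ v.asIdeal) ^ ((p - 1) * c v) := by
      intro v _
      have := hfin v
      refine (LvLocal.index_congrPow_le v F hp.ne_zero (Nat.succ_pos _)).trans ?_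
      rw [Fermat.Agent.Lib.PTorsionCount.card_units_pow_eq_one v hp hζ' (hc v)
        (Nat.lt_succ_self _)]
      exact le_of_eq (by ring)
    refine (Finset.prod_le_prod' hloc).trans ?_
    rw [Finset.prod_mul_distrib, Finset.prod_const, ← pow_mul, pow_add]
    refine Nat.mul_le_mul_left _ ?_
    refine LvGlobal.prod_card_quotient_pow_le p hp.ne_zero S (fun v => (p - 1) * c v) ?_
    intro v _
    rw [← v.intValuation_le_pow_iff_mem,
      Fermat.Agent.Lib.PTorsionCount.intValuation_natCast_prime v hp hζ' (hc v)]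

end Fermat.Agent.S14.Artin
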