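/-
S14, Route A, [SI] leaf contract [LV]: the local index count in the vocabulary of
`Fermat.Agent.S14.Artin.SI` (`Lv F p ζ v`, `Ucong`), universe-polymorphic in the number field.

`SI.Lv F p ζ v` is `LvLocal.congrPow v F p (p * ord_v(1 - ζ) + 1)`; the index bound is
`LvLocal.index_congrPow_le` + `Lib.PTorsionCount.card_units_pow_eq_one` + the norm of `(p)`.
-/
import Mathlib
import Fermat.Agent.Lib.PTorsionCount
import Fermat.Agent.S14.Artin.LvLocal
import Fermat.Agent.S14.Artin.SI.Plan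

open scoped NumberField
open IsDedekindDomain WithZero

namespace Fermat.Agent.S14.Artin.LvIndexSI

/-- Discreteness of the value group: `z < exp n` implies `z ≤ exp (n - 1)`. -/
theorem le_exp_pred_of_lt_exp {z : ℤᵐ⁰} {n : ℤ} (h : z < exp n) : z ≤ exp (n - 1) := by
  rcases eq_or_ne z 0 with rfl | hz
  · exact zero_le
  · rw [← log_lt_iff_lt_exp hz] at h
    rw [← log_le_iff_le_exp hz]
    omega

/-- The index of a finite intersection is at most the product of the indices. -/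
theorem index_finset_iInf_le {G ι : Type*} [Group G] (s : Finset ι) (f : ι → Subgroup G) :
    (⨅ i ∈ s, f i).index ≤ ∏ i ∈ s, (f i).index := by
  classical
  induction s using Finset.induction_on with
  | empty => simp
  | insert a s ha ih =>
    rw [Finset.iInf_insert, Finset.prod_insert ha]
    exact Subgroup.index_inf_le.trans (Nat.mul_le_mul_left _ ih)

variable {F : Type*} [Field F] [NumberField F]

/-- `∏_{v ∈ S} N(v) ^ e_v ≤ p ^ [F : ℚ]` whenever `p ∈ v ^ e_v` for all `v ∈ S`. -/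
theorem prod_card_quotient_pow_le (p : ℕ) (hp : p ≠ 0)
    (S : Finset (HeightOneSpectrum (𝓞 F))) (e : HeightOneSpectrum (𝓞 F) → ℕ)
    (he : ∀ v ∈ S, (p : 𝓞 F) ∈ v.asIdeal ^ e v) :
    ∏ v ∈ S, Nat.card (𝓞 F ⧸ v.asIdeal) ^ e v ≤ p ^ Module.finrank ℚ F := by
  classical
  have hdvd : (∏ v ∈ S, v.asIdeal ^ e v) ∣ Ideal.span {(p : 𝓞 F)} := by
    refine Finset.prod_dvd_of_coprime ?_ ?_
    · intro v _ w _ hvw
      have hv : v.asIdeal.IsMaximal := v.isMaximal
      have hw : w.asIdeal.IsMaximal := w.isMaximal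
      have hne : v.asIdeal ≠ w.asIdeal := fun h => hvw (HeightOneSpectrum.ext h)
      exact (Ideal.isCoprime_of_isMaximal hne).pow
    · intro v hv
      rw [Ideal.dvd_iff_le, Ideal.span_singleton_le_iff_mem]
      exact he v hv
  have h1 := Ideal.absNorm_dvd_absNorm_of_le (Ideal.le_of_dvd hdvd)
  rw [Ideal.absNorm_span_natCast, NumberField.RingOfIntegers.rank, map_prod] at h1
  have h2 : ∏ v ∈ S, Ideal.absNorm (v.asIdeal ^ e v)
      = ∏ v ∈ S, Nat.card (𝓞 F ⧸ v.asIdeal) ^ e v := by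
    refine Finset.prod_congr rfl fun v _ => ?_
    rw [map_pow, Ideal.absNorm_apply, Submodule.cardQuot_apply]
  rw [h2] at h1
  exact Nat.le_of_dvd (pow_pos (Nat.pos_of_ne_zero hp) _) h1

/-- Dictionary: `SI.Ucong F v (exp (-k))` is the group of `v`-units congruent to `1` modulo
`v ^ (k + 1)`. -/
theorem Ucong_eq_principalUnits (v : HeightOneSpectrum (𝓞 F)) (k : ℕ) :
    SI.Ucong F v (exp (-(k : ℤ))) = LvLocal.principalUnits v F (k + 1) := by
  ext u
  have hle : (exp (-(k : ℤ)) : ℤᵐ⁰) ≤ 1 := by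
    rw [← exp_zero, exp_le_exp]
    omega
  rw [SI.mem_Ucong exp_ne_zero hle, LvLocal.mem_principalUnits_iff_of_pos v (Nat.succ_pos k)]
  constructor
  · intro h
    refine (le_exp_pred_of_lt_exp h).trans (le_of_eq ?_)
    congr 1
    push_cast
    ring
  · intro h
    refine lt_of_le_of_lt h ?_
    rw [exp_lt_exp]
    push_cast
    omega

/-- Dictionary: `SI.Lv F p ζ v = LvLocal.congrPow v F p (p * ord_v(1 - ζ) + 1)`. -/
theorem Lv_eq_congrPow {p : ℕ} {ζ : F} {ζ' : 𝓞 F} (hζ : algebraMap (𝓞 F) F ζ' = ζ)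
    (v : HeightOneSpectrum (𝓞 F)) {c : ℕ} (hc : v.intValuation (ζ' - 1) = exp (-(c : ℤ))) :
    SI.Lv F p ζ v = LvLocal.congrPow v F p (p * c + 1) := by
  have hval : v.valuation F (1 - ζ) ^ p = exp (-((p * c : ℕ) : ℤ)) := by
    rw [← hζ, ← map_one (algebraMap (𝓞 F) F), ← map_sub, v.valuation_of_algebraMap,
      Valuation.map_sub_swap, hc, ← exp_nsmul]
    congr 1
    push_cast
    simp
  unfold SI.Lv LvLocal.congrPow
  rw [hval, Ucong_eq_principalUnits, sup_comm]

/-- The index count for explicit moduli: `[Fˣ : ⋂_{v ∈ S} congrPow v F p (p * c_v + 1)]` is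
finite and at most `p ^ (2 * |S| + [F : ℚ])`, where `c_v = ord_v(ζ - 1)`. -/
theorem index_iInf_congrPow {p : ℕ} (hp : p.Prime) {ζ' : 𝓞 F} (hζ' : IsPrimitiveRoot ζ' p)
    (c : HeightOneSpectrum (𝓞 F) → ℕ)
    (hc : ∀ v : HeightOneSpectrum (𝓞 F), v.intValuation (ζ' - 1) = exp (-(c v : ℤ)))
    (S : Finset (HeightOneSpectrum (𝓞 F))) :
    (⨅ v ∈ S, LvLocal.congrPow v F p (p * c v + 1)).index ≠ 0 ∧
      (⨅ v ∈ S, LvLocal.congrPow v F p (p * c v + 1)).index
        ≤ p ^ (2 * S.card + Module.finrank ℚ F) := by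
  classical
  have hfin : ∀ v : HeightOneSpectrum (𝓞 F), Finite (𝓞 F ⧸ v.asIdeal) := fun v =>
    Ideal.finiteQuotientOfFreeOfNeBot v.asIdeal v.ne_bot
  refine ⟨?_, ?_⟩
  · have : (⨅ v ∈ S, LvLocal.congrPow v F p (p * c v + 1)).FiniteIndex :=
      Subgroup.finiteIndex_iInf' _ fun v _ =>
        LvLocal.finiteIndex_congrPow v F hp.ne_zero (Nat.succ_pos _)
    exact Subgroup.FiniteIndex.index_ne_zero
  · refine (index_finset_iInf_le S _).trans ?_
    have hloc : ∀ v ∈ S, (LvLocal.congrPow v F p (p * c v + 1)).index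
        ≤ p ^ 2 * Nat.card (𝓞 F ⧸ v.asIdeal) ^ ((p - 1) * c v) := by
      intro v _
      have := hfin v
      refine (LvLocal.index_congrPow_le v F hp.ne_zero (Nat.succ_pos _)).trans ?_
      rw [Fermat.Agent.Lib.PTorsionCount.card_units_pow_eq_one v hp hζ' (hc v)
        (Nat.lt_succ_self _)]
      exact le_of_eq (by ring)
    refine (Finset.prod_le_prod' hloc).trans ?_
    rw [Finset.prod_mul_distrib, Finset.prod_const, ← pow_mul, pow_add]
    refine Nat.mul_le_mul_left _ ?_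
    refine prod_card_quotient_pow_le p hp.ne_zero S (fun v => (p - 1) * c v) ?_
    intro v _
    rw [← v.intValuation_le_pow_iff_mem,
      Fermat.Agent.Lib.PTorsionCount.intValuation_natCast_prime v hp hζ' (hc v)]

/-- **[LV]**: the leaf contract `SI.LvIndexStmt F p` of the second inequality, for `p` prime. -/
theorem lvIndexStmt {p : ℕ} (hp : p.Prime) : SI.LvIndexStmt F p := by
  intro ζ hζ S
  have : NeZero p := ⟨hp.ne_zero⟩
  have hζ' : IsPrimitiveRoot hζ.toInteger p := hζ.toInteger_isPrimitiveRoot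
  have hcoe : algebraMap (𝓞 F) F hζ.toInteger = ζ := rfl
  have hne : hζ.toInteger - 1 ≠ 0 := sub_ne_zero.mpr (hζ'.ne_one hp.one_lt)
  choose c hc using fun v : HeightOneSpectrum (𝓞 F) =>
    Fermat.Agent.Lib.PTorsionCount.exists_intValuation_eq_exp v hne
  have hH : (⨅ v ∈ S, SI.Lv F p ζ v) = ⨅ v ∈ S, LvLocal.congrPow v F p (p * c v + 1) :=
    iInf_congr fun v => iInf_congr fun _ => Lv_eq_congrPow hcoe v (hc v)
  rw [hH]
  exact index_iInf_congrPow hp hζ' c hc S

end Fermat.Agent.S14.Artin.LvIndexSI
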