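import Fermat.Agent.S14.Artin.Final
import Fermat.Agent.S14.Artin.NSArt

/-!
# S14, Route A: the Artin contract of the S14 plan from the two remaining Route A contracts

`artinCycStmt_of_core_fi : XCoreStmt p → FIStmt p → Plan.ArtinCycStmt p`.
-/

set_option autoImplicit false

namespace Fermat.Agent.S14.Artin.Main

open Fermat.Agent.S14.Artin

theorem artinCycStmt_of_core_fi (p : ℕ) [Fact p.Prime] (hX : XCoreStmt p) (hFI : FIStmt p) :
    Fermat.Agent.S14.Plan.ArtinCycStmt p :=
  Final.artinCycStmt_of p hX hFI (NSArt.nsStmt p)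

end Fermat.Agent.S14.Artin.Main
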