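import Fermat.Agent.S14.Artin.Plan
import Fermat.Agent.Lib.KummerNonResidue

/-!
# S14, Route A: the Kummer form of the non-split statement

`nsKummerStmt p : NSKummerStmt p`: an integer of a number field `F ∋ ζ_p` which is not a `p`-th
power in `F` is a `p`-th power non-residue at a prime outside every finite set.  This is a
restatement of `Fermat.Agent.Lib.KummerNonResidue.exists_prime_not_pow_residue`.
-/

set_option autoImplicit false

open scoped NumberField nonZeroDivisors

namespace Fermat.Agent.S14.Artin.NSKummer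

open Fermat.Agent.S14.Artin

/-- A primitive root of unity of a number field, as an element of its ring of integers. -/
theorem exists_integer_primitiveRoot {F : Type} [Field F] [NumberField F] {p : ℕ} (hp : 0 < p)
    {ζ : F} (hζ : IsPrimitiveRoot ζ p) : ∃ ζ₀ : 𝓞 F, IsPrimitiveRoot ζ₀ p := by
  have hint : IsIntegral ℤ ζ := hζ.isIntegral hp
  refine ⟨⟨ζ, hint⟩, ?_⟩
  have hinj : Function.Injective (algebraMap (𝓞 F) F) :=
    FaithfulSMul.algebraMap_injective (𝓞 F) F
  exact IsPrimitiveRoot.of_map_of_injective (f := algebraMap (𝓞 F) F) (k := p) hζ hinj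

/-- The Kummer form of the non-split statement (the contract `NSKummerStmt` of the plan). -/
theorem nsKummerStmt (p : ℕ) : NSKummerStmt p := by
  intro hp F _ _ hζ ε hε T hT
  obtain ⟨ζ, hζ⟩ := hζ
  obtain ⟨ζ₀, hζ₀⟩ := exists_integer_primitiveRoot hp.pos hζ
  have : Fact p.Prime := ⟨hp⟩
  obtain ⟨Q, hQ, hQ0, hQT, -, -, hres⟩ :=
    Fermat.Agent.Lib.KummerNonResidue.exists_prime_not_pow_residue p hζ₀ (x := ε)
      (fun y hy => hε ⟨y, hy⟩) T hT
  exact ⟨Q, hQ, hQ0, hQT, hres⟩

end Fermat.Agent.S14.Artin.NSKummer
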