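import Fermat.Agent.S14.Artin.Basic
import Fermat.Agent.S14.Artin.SI.Plan
import Fermat.Agent.Lib.KummerGen
import Fermat.Agent.Lib.KummerSplit

/-!
# Route A, [SI-TR]: from the `F^×`-form of the second inequality to `SIStmt`

`siStmt_of_core : (p.Prime → ∀ F, SI.CoreStmt F p) → NSStmt p → SIStmt p`.

Setting of `SIStmt`: `M / F` unramified Galois of prime degree `p`, `F ∋ ζ_p`, `art` the Artin map
on nonzero ideals, `r ≠ p` a prime number with the cyclotomic hypothesis `CycHyp p art r`.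

* `ordZ v x`, `divHom g` : for `g` a function on the primes with values in a commutative group,
  `divHom g x = ∏_v g(v)^(ord_v x)` is a homomorphism on `F^×`; `map_eq_fp`, `divHom_toU`:
  a homomorphism `f` on nonzero ideals is recovered on principal ideals from its values on primes.
* `exists_crt`, `exists_ord_eq`, `exists_denominator`, `exists_approx` : approximation lemmas
  (Chinese remainder theorem in `𝓞 F`).
* `divHom_eq_one_of_mem_Lv` : the cyclotomic hypothesis extends to `⋂_{v ∣ r} L_v`.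
* `core` : abstract form of the statement, for a homomorphism to a group of order `p`.
* `siStmt_of_core` : the Kummer generator of `M`, the splitting of the primes of `W`
  (`Lib/KummerSplit`), a non-split prime from `NSStmt`, and `core`.
-/

set_option autoImplicit false
set_option linter.unusedSectionVars false
set_option linter.style.haveILetI false

open scoped NumberField nonZeroDivisors
open IsDedekindDomain HeightOneSpectrum

namespace Fermat.Agent.S14.Artin.SITrans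

section Ord

variable {F : Type*} [Field F] [NumberField F]

/-- `ord_v x` as an integer: `v(x) = exp (-ord_v x)`. -/
noncomputable def ordZ (v : HeightOneSpectrum (𝓞 F)) (x : Fˣ) : ℤ :=
  -WithZero.log (v.valuation F (x : F))

theorem valuation_ne_zero' (v : HeightOneSpectrum (𝓞 F)) (x : Fˣ) : v.valuation F (x : F) ≠ 0 :=
  (Valuation.ne_zero_iff _).2 x.ne_zero

theorem valuation_eq_exp (v : HeightOneSpectrum (𝓞 F)) (x : Fˣ) :
    v.valuation F (x : F) = WithZero.exp (-ordZ v x) := by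
  rw [ordZ, neg_neg, WithZero.exp_log (valuation_ne_zero' v x)]

theorem ordZ_eq_iff (v : HeightOneSpectrum (𝓞 F)) (x : Fˣ) (n : ℤ) :
    ordZ v x = n ↔ v.valuation F (x : F) = WithZero.exp (-n) := by
  rw [valuation_eq_exp, WithZero.exp_inj, neg_inj]

theorem ordZ_eq_zero_iff (v : HeightOneSpectrum (𝓞 F)) (x : Fˣ) :
    ordZ v x = 0 ↔ v.valuation F (x : F) = 1 := by
  rw [ordZ_eq_iff, neg_zero, WithZero.exp_zero]

@[simp] theorem ordZ_one (v : HeightOneSpectrum (𝓞 F)) : ordZ v (1 : Fˣ) = 0 := by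
  rw [ordZ_eq_zero_iff, Units.val_one, map_one]

theorem ordZ_mul (v : HeightOneSpectrum (𝓞 F)) (x y : Fˣ) :
    ordZ v (x * y) = ordZ v x + ordZ v y := by
  rw [ordZ, ordZ, ordZ, Units.val_mul, map_mul,
    WithZero.log_mul (valuation_ne_zero' v x) (valuation_ne_zero' v y)]
  ring

theorem ordZ_inv (v : HeightOneSpectrum (𝓞 F)) (x : Fˣ) : ordZ v x⁻¹ = -ordZ v x := by
  have h := ordZ_mul v x x⁻¹
  rw [mul_inv_cancel, ordZ_one] at h
  linarith

theorem ordZ_pow (v : HeightOneSpectrum (𝓞 F)) (x : Fˣ) (n : ℕ) :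
    ordZ v (x ^ n) = n * ordZ v x := by
  induction n with
  | zero => simp
  | succ k ih => rw [pow_succ, ordZ_mul, ih]; push_cast; ring

theorem ordZ_zpow (v : HeightOneSpectrum (𝓞 F)) (x : Fˣ) (n : ℤ) :
    ordZ v (x ^ n) = n * ordZ v x := by
  cases n with
  | ofNat k => rw [Int.ofNat_eq_natCast, zpow_natCast, ordZ_pow]
  | negSucc k => rw [zpow_negSucc, ordZ_inv, ordZ_pow, Int.negSucc_eq]; push_cast; ring

theorem ordZ_prod {ι : Type*} (v : HeightOneSpectrum (𝓞 F)) (s : Finset ι) (x : ι → Fˣ) :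
    ordZ v (∏ i ∈ s, x i) = ∑ i ∈ s, ordZ v (x i) := by
  classical
  induction s using Finset.induction_on with
  | empty => simp
  | insert a s ha ih => rw [Finset.prod_insert ha, Finset.sum_insert ha, ordZ_mul, ih]

/-- finiteness of the support of the divisor of `x` -/
theorem finite_ordZ_ne_zero (x : Fˣ) : {v : HeightOneSpectrum (𝓞 F) | ordZ v x ≠ 0}.Finite := by
  have h1 := HeightOneSpectrum.Support.finite (𝓞 F) (x : F)
  have h2 := HeightOneSpectrum.Support.finite (𝓞 F) ((x⁻¹ : Fˣ) : F)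
  refine (h1.union h2).subset ?_
  intro v hv
  have hv' : v.valuation F (x : F) ≠ 1 := fun h => hv ((ordZ_eq_zero_iff v x).2 h)
  rcases lt_or_gt_of_ne hv' with h | h
  · right
    show 1 < v.valuation F ((x⁻¹ : Fˣ) : F)
    rw [Units.val_inv_eq_inv_val, map_inv₀]
    exact (one_lt_inv₀ (zero_lt_iff.2 (valuation_ne_zero' v x))).2 h
  · left
    exact h

/-- the unit of `F` attached to a nonzero integer -/
noncomputable def toU (b : 𝓞 F) (hb : b ≠ 0) : Fˣ :=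
  Units.mk0 (algebraMap (𝓞 F) F b) (by
    rwa [Ne, FaithfulSMul.algebraMap_eq_zero_iff])

@[simp] theorem toU_val (b : 𝓞 F) (hb : b ≠ 0) : ((toU b hb : Fˣ) : F) = algebraMap (𝓞 F) F b := rfl

/-- the multiplicity of `v` in a nonzero ideal -/
noncomputable def cnt (v : HeightOneSpectrum (𝓞 F)) (I : Ideal (𝓞 F)) : ℕ :=
  (Associates.mk v.asIdeal).count (Associates.mk I).factors

theorem ordZ_toU (v : HeightOneSpectrum (𝓞 F)) (b : 𝓞 F) (hb : b ≠ 0) :
    ordZ v (toU b hb) = cnt v (Ideal.span {b}) := by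
  rw [ordZ_eq_iff, toU_val, valuation_of_algebraMap, intValuation_if_neg v hb]
  rfl

theorem intValuation_eq_exp_cnt (v : HeightOneSpectrum (𝓞 F)) (b : 𝓞 F) (hb : b ≠ 0) :
    v.intValuation b = WithZero.exp (-(cnt v (Ideal.span {b}) : ℤ)) :=
  intValuation_if_neg v hb

end Ord

section FP

variable {Ω : Type*} {H : Type*} [CommGroup H]

/-- `∏ᶠ v, g v ^ n v` -/
noncomputable def fp (g : Ω → H) (n : Ω → ℤ) : H := ∏ᶠ v, g v ^ n v

theorem fp_mulSupport_subset (g : Ω → H) (n : Ω → ℤ) :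
    Function.mulSupport (fun v => g v ^ n v) ⊆ {v | n v ≠ 0} := by
  intro v hv h0
  apply hv
  show g v ^ n v = 1
  rw [h0, zpow_zero]

theorem fp_add (g : Ω → H) {n m : Ω → ℤ} (hn : {v | n v ≠ 0}.Finite)
    (hm : {v | m v ≠ 0}.Finite) : fp g (fun v => n v + m v) = fp g n * fp g m := by
  unfold fp
  rw [← finprod_mul_distrib (hn.subset (fp_mulSupport_subset g n))
    (hm.subset (fp_mulSupport_subset g m))]
  exact finprod_congr (fun v => zpow_add _ _ _)

theorem fp_congr {g g' : Ω → H} {n n' : Ω → ℤ} (h : ∀ v, g v ^ n v = g' v ^ n' v) :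
    fp g n = fp g' n' := finprod_congr h

theorem fp_eq_one {g : Ω → H} {n : Ω → ℤ} (h : ∀ v, g v ^ n v = 1) : fp g n = 1 := by
  unfold fp
  rw [finprod_congr h, finprod_one]

theorem fp_split [DecidableEq Ω] (g : Ω → H) {n : Ω → ℤ} (hn : {v | n v ≠ 0}.Finite)
    (T : Finset Ω) :
    fp g n = (∏ v ∈ T, g v ^ n v) * fp (fun v => if v ∈ T then 1 else g v) n := by
  unfold fp
  have h1 : ∏ v ∈ T, g v ^ n v = ∏ᶠ v, (if v ∈ T then g v ^ n v else 1) := by
    rw [finprod_eq_prod_of_mulSupport_subset (s := T)]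
    · exact Finset.prod_congr rfl (fun v hv => by rw [if_pos hv])
    · intro v hv
      by_contra h
      exact hv (if_neg h)
  rw [h1, ← finprod_mul_distrib]
  · refine finprod_congr (fun v => ?_)
    by_cases hv : v ∈ T <;> simp [hv]
  · refine T.finite_toSet.subset ?_
    intro v hv
    by_contra h
    exact hv (if_neg h)
  · exact hn.subset (fp_mulSupport_subset _ n)

end FP

section Div

variable {F : Type*} [Field F] [NumberField F] {H : Type*} [CommGroup H]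

/-- the homomorphism `x ↦ ∏_v g(v)^(ord_v x)` -/
noncomputable def divHom (g : HeightOneSpectrum (𝓞 F) → H) : Fˣ →* H where
  toFun x := fp g (fun v => ordZ v x)
  map_one' := fp_eq_one (fun v => by rw [ordZ_one, zpow_zero])
  map_mul' x y := by
    rw [← fp_add g (finite_ordZ_ne_zero x) (finite_ordZ_ne_zero y)]
    exact fp_congr (fun v => by rw [ordZ_mul])

theorem divHom_apply (g : HeightOneSpectrum (𝓞 F) → H) (x : Fˣ) :
    divHom g x = fp g (fun v => ordZ v x) := rfl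

/-- the prime `v` as a nonzero ideal -/
noncomputable def pI (v : HeightOneSpectrum (𝓞 F)) : (Ideal (𝓞 F))⁰ :=
  ⟨v.asIdeal, mem_nonZeroDivisors_iff_ne_zero.2 v.ne_bot⟩

@[simp] theorem pI_val (v : HeightOneSpectrum (𝓞 F)) : ((pI v : (Ideal (𝓞 F))⁰) : Ideal (𝓞 F)) = v.asIdeal := rfl

/-- a nonzero principal ideal -/
noncomputable def spanI (b : 𝓞 F) (hb : b ≠ 0) : (Ideal (𝓞 F))⁰ :=
  ⟨Ideal.span {b}, mem_nonZeroDivisors_iff_ne_zero.2
    (by simpa [Ideal.span_singleton_eq_bot] using hb)⟩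

@[simp] theorem spanI_val (b : 𝓞 F) (hb : b ≠ 0) :
    ((spanI b hb : (Ideal (𝓞 F))⁰) : Ideal (𝓞 F)) = Ideal.span {b} := rfl

theorem finite_cnt_ne_zero (I : (Ideal (𝓞 F))⁰) :
    {v : HeightOneSpectrum (𝓞 F) | (cnt v (I : Ideal (𝓞 F)) : ℤ) ≠ 0}.Finite :=
  Filter.eventually_cofinite.mp (Associates.finite_factors (nonZeroDivisors.coe_ne_zero I))

/-- factorisation of a homomorphism on nonzero ideals along the primes -/
theorem map_eq_fp (f : (Ideal (𝓞 F))⁰ →* H) (I : (Ideal (𝓞 F))⁰) :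
    f I = fp (fun v => f (pI v)) (fun v => (cnt v (I : Ideal (𝓞 F)) : ℤ)) := by
  have hI : (I : Ideal (𝓞 F)) ≠ 0 := nonZeroDivisors.coe_ne_zero I
  have hfin : (Function.mulSupport
      fun v : HeightOneSpectrum (𝓞 F) => pI v ^ cnt v (I : Ideal (𝓞 F))).Finite := by
    refine (finite_cnt_ne_zero I).subset ?_
    intro v hv h0
    apply hv
    have h0' : cnt v (I : Ideal (𝓞 F)) = 0 := by exact_mod_cast h0
    show pI v ^ cnt v (I : Ideal (𝓞 F)) = 1
    rw [h0', pow_zero]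
  have hprod : ∏ᶠ v : HeightOneSpectrum (𝓞 F), pI v ^ cnt v (I : Ideal (𝓞 F)) = I := by
    apply Subtype.ext
    have h := MonoidHom.map_finprod (Submonoid.subtype (Ideal (𝓞 F))⁰) hfin
    rw [Submonoid.subtype_apply] at h
    rw [h]
    exact Ideal.finprod_heightOneSpectrum_factorization hI
  conv_lhs => rw [← hprod]
  rw [MonoidHom.map_finprod f hfin]
  exact finprod_congr (fun v => by rw [map_pow, zpow_natCast])

theorem divHom_toU (f : (Ideal (𝓞 F))⁰ →* H) (b : 𝓞 F) (hb : b ≠ 0) :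
    divHom (fun v => f (pI v)) (toU b hb) = f (spanI b hb) := by
  rw [divHom_apply, map_eq_fp f (spanI b hb)]
  exact fp_congr (fun v => by rw [ordZ_toU, spanI_val])

end Div

section CRT

variable {F : Type*} [Field F] [NumberField F]

/-- Chinese remainder theorem with a nonzero solution. -/
theorem exists_crt (s : Finset (HeightOneSpectrum (𝓞 F))) (e : HeightOneSpectrum (𝓞 F) → ℕ)
    (t : HeightOneSpectrum (𝓞 F) → 𝓞 F) :
    ∃ y : 𝓞 F, y ≠ 0 ∧ ∀ v ∈ s, y - t v ∈ v.asIdeal ^ e v := by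
  obtain ⟨y, hy⟩ := IsDedekindDomain.exists_forall_sub_mem_ideal (s := s) (fun v => v.asIdeal) e
    (fun v _ => v.prime) (fun v _ w _ hvw h => hvw (HeightOneSpectrum.ext h)) (fun i => t i.1)
  by_cases hy0 : y ≠ 0
  · exact ⟨y, hy0, hy⟩
  · rw [not_not] at hy0
    have hprod : (∏ v ∈ s, v.asIdeal ^ e v) ≠ ⊥ := by
      rw [← Ideal.zero_eq_bot, Finset.prod_ne_zero_iff]
      intro v _
      exact pow_ne_zero _ v.ne_bot
    obtain ⟨z, hz, hz0⟩ := Submodule.exists_mem_ne_zero_of_ne_bot hprod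
    refine ⟨y + z, by rwa [hy0, zero_add], ?_⟩
    intro v hv
    have h1 : z ∈ v.asIdeal ^ e v :=
      Ideal.le_of_dvd (Finset.dvd_prod_of_mem (fun v => v.asIdeal ^ e v) hv) hz
    have h2 : y + z - t v = (y - t v) + z := by ring
    rw [h2]
    exact Ideal.add_mem _ (hy v hv) h1

/-- an element with prescribed residues `1` on `B` and prescribed orders on `S \ B` -/
theorem exists_ord_eq (B S : Finset (HeightOneSpectrum (𝓞 F)))
    (n : HeightOneSpectrum (𝓞 F) → ℕ) :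
    ∃ x₀ : 𝓞 F, x₀ ≠ 0 ∧ (∀ v ∈ B, x₀ - 1 ∈ v.asIdeal) ∧
      ∀ v ∈ S, v ∉ B → v.intValuation x₀ = WithZero.exp (-(n v : ℤ)) := by
  classical
  have hπ : ∀ v : HeightOneSpectrum (𝓞 F), ∃ π : 𝓞 F, v.intValuation π = WithZero.exp (-1 : ℤ) :=
    fun v => v.intValuation_exists_uniformizer
  choose π hπ using hπ
  obtain ⟨x₀, hx₀, h⟩ := exists_crt (B ∪ S) (fun v => if v ∈ B then 1 else n v + 1)
    (fun v => if v ∈ B then 1 else π v ^ n v)
  refine ⟨x₀, hx₀, ?_, ?_⟩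
  · intro v hv
    have := h v (Finset.mem_union_left _ hv)
    rwa [if_pos hv, if_pos hv, pow_one] at this
  · intro v hv hvB
    have h1 := h v (Finset.mem_union_right _ hv)
    rw [if_neg hvB, if_neg hvB] at h1
    have h2 : v.intValuation (x₀ - π v ^ n v) ≤ WithZero.exp (-((n v + 1 : ℕ) : ℤ)) :=
      (v.intValuation_le_pow_iff_mem _ _).2 h1
    have h3 : v.intValuation (π v ^ n v) = WithZero.exp (-(n v : ℤ)) := by
      rw [map_pow, hπ, ← WithZero.exp_nsmul]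
      simp
    have h4 : v.intValuation (x₀ - π v ^ n v) < v.intValuation (π v ^ n v) := by
      rw [h3]
      refine lt_of_le_of_lt h2 ?_
      rw [WithZero.exp_lt_exp]
      push_cast
      linarith
    have h5 := Valuation.map_add_eq_of_lt_left v.intValuation h4
    rw [add_sub_cancel] at h5
    rw [h5, h3]

/-- denominators prime to `B`: `u = b₁ / b₂` with `b₂ ≡ 1` on `B` -/
theorem exists_denominator (B : Finset (HeightOneSpectrum (𝓞 F))) (u : F)
    (hu : ∀ v ∈ B, v.valuation F u ≤ 1) :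
    ∃ b₁ b₂ : 𝓞 F, b₂ ≠ 0 ∧ (∀ v ∈ B, b₂ - 1 ∈ v.asIdeal) ∧
      algebraMap (𝓞 F) F b₁ = u * algebraMap (𝓞 F) F b₂ := by
  classical
  obtain ⟨⟨n, ⟨d, hd⟩⟩, hnd⟩ := IsLocalization.surj (nonZeroDivisors (𝓞 F)) u
  have hd0 : d ≠ 0 := nonZeroDivisors.ne_zero hd
  simp only at hnd
  obtain ⟨b₂, hb₂, h⟩ := exists_crt ((Ideal.finite_factors (I := Ideal.span {d})
      (by simpa [Ideal.span_singleton_eq_bot] using hd0)).toFinset ∪ B)
    (fun v => if v ∈ B then 1 else cnt v (Ideal.span {d})) (fun v => if v ∈ B then 1 else 0)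
  have hB : ∀ v ∈ B, b₂ - 1 ∈ v.asIdeal := by
    intro v hv
    have := h v (Finset.mem_union_right _ hv)
    rwa [if_pos hv, if_pos hv, pow_one] at this
  have hnB : ∀ v : HeightOneSpectrum (𝓞 F), v ∉ B → v.intValuation b₂ ≤ v.intValuation d := by
    intro v hv
    by_cases hvd : d ∈ v.asIdeal
    · have hmem : v ∈ (Ideal.finite_factors (I := Ideal.span {d})
          (by simpa [Ideal.span_singleton_eq_bot] using hd0)).toFinset := by
        rw [Set.Finite.mem_toFinset]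
        exact Ideal.dvd_span_singleton.2 hvd
      have := h v (Finset.mem_union_left _ hmem)
      rw [if_neg hv, if_neg hv, sub_zero] at this
      rw [intValuation_eq_exp_cnt v d hd0]
      exact (v.intValuation_le_pow_iff_mem _ _).2 this
    · have : v.intValuation d = 1 := by
        rw [intValuation_eq_one_iff_mem_primeCompl]
        exact hvd
      rw [this]
      exact v.intValuation_le_one _
  have hint : ∀ v : HeightOneSpectrum (𝓞 F), v.valuation F (u * algebraMap (𝓞 F) F b₂) ≤ 1 := by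
    intro v
    by_cases hv : v ∈ B
    · rw [map_mul]
      exact mul_le_one' (hu v hv) (v.valuation_le_one _)
    · have hdv : v.valuation F (algebraMap (𝓞 F) F d) ≠ 0 := by
        rw [valuation_of_algebraMap]
        exact v.intValuation_ne_zero d hd0
      have e1 : v.valuation F (u * algebraMap (𝓞 F) F b₂) * v.valuation F (algebraMap (𝓞 F) F d)
          = v.valuation F (algebraMap (𝓞 F) F n) * v.valuation F (algebraMap (𝓞 F) F b₂) := by
        rw [← map_mul, ← map_mul, ← hnd]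
        congr 1
        ring
      have e2 : v.valuation F (algebraMap (𝓞 F) F n) * v.valuation F (algebraMap (𝓞 F) F b₂)
          ≤ 1 * v.valuation F (algebraMap (𝓞 F) F d) := by
        rw [valuation_of_algebraMap, valuation_of_algebraMap, valuation_of_algebraMap]
        exact mul_le_mul' (v.intValuation_le_one n) (hnB v hv)
      rw [← e1] at e2
      exact le_of_mul_le_mul_right e2 (zero_lt_iff.2 hdv)
  obtain ⟨b₁, hb₁⟩ := HeightOneSpectrum.mem_integers_of_valuation_le_one F _ hint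
  exact ⟨b₁, b₂, hb₂, hB, hb₁⟩

/-- weak approximation: a global element close to given local ones -/
theorem exists_approx (B : Finset (HeightOneSpectrum (𝓞 F)))
    (y : HeightOneSpectrum (𝓞 F) → Fˣ) :
    ∃ z : Fˣ, ∀ v ∈ B, z * (y v)⁻¹ ∈ SI.Ucong F v 1 := by
  classical
  obtain ⟨⟨d, hd⟩, hdint⟩ := IsLocalization.exist_integer_multiples_of_finset
    (nonZeroDivisors (𝓞 F)) (B.image (fun v => ((y v : Fˣ) : F)))
  have hd0 : d ≠ 0 := nonZeroDivisors.ne_zero hd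
  have hm : ∀ v ∈ B, ∃ m : 𝓞 F, algebraMap (𝓞 F) F m = algebraMap (𝓞 F) F d * (y v : F) := by
    intro v hv
    obtain ⟨m, hm⟩ := hdint _ (Finset.mem_image_of_mem _ hv)
    exact ⟨m, by rw [hm, Algebra.smul_def]⟩
  choose! m hm using hm
  have hdF : algebraMap (𝓞 F) F d ≠ 0 := by
    rwa [Ne, FaithfulSMul.algebraMap_eq_zero_iff]
  have hm0 : ∀ v ∈ B, m v ≠ 0 := by
    intro v hv h0
    have := hm v hv
    rw [h0, map_zero] at this
    exact mul_ne_zero hdF (y v).ne_zero this.symm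
  obtain ⟨a, ha0, ha⟩ := exists_crt B (fun v => cnt v (Ideal.span {m v}) + 1) m
  refine ⟨toU a ha0 * (toU d hd0)⁻¹, ?_⟩
  intro v hv
  rw [SI.mem_Ucong one_ne_zero le_rfl]
  have hmv : algebraMap (𝓞 F) F (m v) ≠ 0 := by
    rw [Ne, FaithfulSMul.algebraMap_eq_zero_iff]
    exact hm0 v hv
  have e : (((toU a ha0 * (toU d hd0)⁻¹ * (y v)⁻¹ : Fˣ) : F)) - 1 =
      algebraMap (𝓞 F) F (a - m v) / algebraMap (𝓞 F) F (m v) := by
    rw [eq_div_iff hmv, Units.val_mul, Units.val_mul, Units.val_inv_eq_inv_val,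
      Units.val_inv_eq_inv_val, toU_val, toU_val, map_sub, hm v hv]
    have hy : ((y v : Fˣ) : F) ≠ 0 := (y v).ne_zero
    field_simp
  rw [e, map_div₀, valuation_of_algebraMap, valuation_of_algebraMap,
    div_lt_one₀ (zero_lt_iff.2 (v.intValuation_ne_zero _ (hm0 v hv))),
    intValuation_eq_exp_cnt v (m v) (hm0 v hv)]
  refine lt_of_le_of_lt ((v.intValuation_le_pow_iff_mem _ _).2 (ha v hv)) ?_
  rw [WithZero.exp_lt_exp]
  push_cast
  linarith

end CRT

section Cyc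

variable {F : Type*} [Field F] [NumberField F] {H : Type*} [CommGroup H]

theorem spanI_mul (a b : 𝓞 F) (ha : a ≠ 0) (hb : b ≠ 0) :
    spanI (a * b) (mul_ne_zero ha hb) = spanI a ha * spanI b hb := by
  apply Subtype.ext
  show Ideal.span {a * b} = Ideal.span {a} * Ideal.span {b}
  rw [Ideal.span_singleton_mul_span_singleton]

theorem spanI_pow (a : 𝓞 F) (ha : a ≠ 0) (n : ℕ) :
    spanI (a ^ n) (pow_ne_zero n ha) = spanI a ha ^ n := by
  apply Subtype.ext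
  show Ideal.span {a ^ n} = Ideal.span {a} ^ n
  rw [Ideal.span_singleton_pow]

/-- the "cyclotomic hypothesis" extends to fractions congruent to `1` on `B` -/
theorem divHom_eq_one_of_cong {p : ℕ} (hp : 0 < p) (f : (Ideal (𝓞 F))⁰ →* H)
    (hexp : ∀ h : H, h ^ p = 1) (B : Finset (HeightOneSpectrum (𝓞 F)))
    (hcyc : ∀ (x : 𝓞 F) (hx : x ≠ 0),
      (∀ v ∈ B, x ∉ v.asIdeal ∧ ∃ z : 𝓞 F, x - z ^ p ∈ v.asIdeal) → f (spanI x hx) = 1)
    (u : Fˣ) (hu : ∀ v ∈ B, u ∈ SI.Ucong F v 1) : divHom (fun v => f (pI v)) u = 1 := by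
  have hu1 : ∀ v ∈ B, v.valuation F ((u : F) - 1) < 1 := fun v hv =>
    (SI.mem_Ucong one_ne_zero le_rfl u).1 (hu v hv)
  obtain ⟨b₁, b₂, hb₂, hB, hb⟩ := exists_denominator B (u : F)
    (fun v hv => (SI.valuation_eq_one_of_sub_one_lt (hu1 v hv)).le)
  have hb₂F : algebraMap (𝓞 F) F b₂ ≠ 0 := by
    rwa [Ne, FaithfulSMul.algebraMap_eq_zero_iff]
  have hb₁ : b₁ ≠ 0 := by
    intro h0
    rw [h0, map_zero] at hb
    exact mul_ne_zero u.ne_zero hb₂F hb.symm
  have hu' : u = toU b₁ hb₁ * (toU b₂ hb₂)⁻¹ := by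
    apply Units.ext
    rw [Units.val_mul, Units.val_inv_eq_inv_val, toU_val, toU_val, hb]
    field_simp
  have h12 : ∀ v ∈ B, b₁ - b₂ ∈ v.asIdeal := by
    intro v hv
    rw [← valuation_lt_one_iff_mem (K := F)]
    show v.valuation F (algebraMap (𝓞 F) F (b₁ - b₂)) < 1
    rw [map_sub, hb]
    have e : (u : F) * algebraMap (𝓞 F) F b₂ - algebraMap (𝓞 F) F b₂ =
        ((u : F) - 1) * algebraMap (𝓞 F) F b₂ := by ring
    rw [e, map_mul]
    exact mul_lt_one_of_lt_of_le (hu1 v hv) (v.valuation_le_one _)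
  have h2 : ∀ v ∈ B, b₂ ∉ v.asIdeal := by
    intro v hv h
    have h1 : (1 : 𝓞 F) ∈ v.asIdeal := by
      have := v.asIdeal.sub_mem h (hB v hv)
      rwa [sub_sub_cancel] at this
    exact v.isPrime.ne_top ((Ideal.eq_top_iff_one _).2 h1)
  have h1 : ∀ v ∈ B, b₁ ∉ v.asIdeal := by
    intro v hv h
    apply h2 v hv
    have := v.asIdeal.sub_mem h (h12 v hv)
    rwa [sub_sub_cancel] at this
  have hx0 : b₁ * b₂ ^ (p - 1) ≠ 0 := mul_ne_zero hb₁ (pow_ne_zero _ hb₂)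
  have key := hcyc (b₁ * b₂ ^ (p - 1)) hx0 (by
    intro v hv
    refine ⟨?_, b₂, ?_⟩
    · intro h
      rcases v.isPrime.mem_or_mem h with h' | h'
      · exact h1 v hv h'
      · exact h2 v hv (v.isPrime.mem_of_pow_mem _ h')
    · have e : b₁ * b₂ ^ (p - 1) - b₂ ^ p = (b₁ - b₂) * b₂ ^ (p - 1) := by
        have : b₂ ^ p = b₂ * b₂ ^ (p - 1) := by
          rw [← pow_succ', Nat.sub_add_cancel hp]
        rw [this]
        ring
      rw [e]
      exact Ideal.mul_mem_right _ _ (h12 v hv))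
  rw [spanI_mul b₁ (b₂ ^ (p - 1)) hb₁ (pow_ne_zero _ hb₂), spanI_pow b₂ hb₂, map_mul, map_pow] at key
  have h3 : f (spanI b₂ hb₂) ^ (p - 1) = (f (spanI b₂ hb₂))⁻¹ := by
    apply eq_inv_of_mul_eq_one_left
    rw [← pow_succ, Nat.sub_add_cancel hp, hexp]
  rw [h3] at key
  rw [hu', map_mul, map_inv, divHom_toU, divHom_toU]
  exact key

/-- the "cyclotomic hypothesis" extends to `⋂_{v ∈ B} L_v` -/
theorem divHom_eq_one_of_mem_Lv {p : ℕ} (hp : 0 < p) (f : (Ideal (𝓞 F))⁰ →* H)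
    (hexp : ∀ h : H, h ^ p = 1) (B : Finset (HeightOneSpectrum (𝓞 F)))
    (hcyc : ∀ (x : 𝓞 F) (hx : x ≠ 0),
      (∀ v ∈ B, x ∉ v.asIdeal ∧ ∃ z : 𝓞 F, x - z ^ p ∈ v.asIdeal) → f (spanI x hx) = 1)
    (ζ : F) (hζ : ζ ≠ 1) (l : Fˣ) (hl : ∀ v ∈ B, l ∈ SI.Lv F p ζ v) :
    divHom (fun v => f (pI v)) l = 1 := by
  have h := fun v (hv : v ∈ B) => (SI.mem_Lv_iff p ζ v l).1 (hl v hv)
  choose! y u hu hyu using h
  have hu1 : ∀ v ∈ B, u v ∈ SI.Ucong F v 1 := by
    intro v hv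
    have hc : v.valuation F (1 - ζ) ^ p ≠ 0 :=
      pow_ne_zero _ ((Valuation.ne_zero_iff _).2 (sub_ne_zero.2 (Ne.symm hζ)))
    rcases hu v hv with h | h
    · exact Or.inl (lt_of_lt_of_le h (le_inf inf_le_right inf_le_right))
    · exact absurd h hc
  obtain ⟨z, hz⟩ := exists_approx B y
  have hlz : l = z ^ p * (l * (z ^ p)⁻¹) := by
    rw [mul_comm l, mul_inv_cancel_left]
  rw [hlz, map_mul, map_pow, hexp, one_mul]
  apply divHom_eq_one_of_cong hp f hexp B hcyc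
  intro v hv
  have e : l * (z ^ p)⁻¹ = ((z * (y v)⁻¹)⁻¹) ^ p * u v := by
    rw [hyu v hv, mul_inv_rev, inv_inv, mul_pow, inv_pow]
    rw [mul_comm (y v ^ p) (u v), mul_assoc, mul_comm (u v)]
  rw [e]
  exact mul_mem (pow_mem (inv_mem (hz v hv)) _) (hu1 v hv)

end Cyc

section Core

variable {F : Type*} [Field F] [NumberField F] {H : Type*} [CommGroup H]

/-- every unit of `F` is a quotient of nonzero integers -/
theorem exists_toU_div (y : Fˣ) :
    ∃ (b₁ b₂ : 𝓞 F) (hb₁ : b₁ ≠ 0) (hb₂ : b₂ ≠ 0), y = toU b₁ hb₁ * (toU b₂ hb₂)⁻¹ := by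
  obtain ⟨b₁, b₂, hb₂, -, hb⟩ := exists_denominator ∅ (y : F) (by simp)
  have hb₂F : algebraMap (𝓞 F) F b₂ ≠ 0 := by
    rwa [Ne, FaithfulSMul.algebraMap_eq_zero_iff]
  have hb₁ : b₁ ≠ 0 := by
    intro h0
    rw [h0, map_zero] at hb
    exact mul_ne_zero y.ne_zero hb₂F hb.symm
  refine ⟨b₁, b₂, hb₁, hb₂, ?_⟩
  apply Units.ext
  rw [Units.val_mul, Units.val_inv_eq_inv_val, toU_val, toU_val, hb]
  field_simp

/-- the class of a principal divisor is trivial -/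
theorem divHom_mk0 (y : Fˣ) :
    divHom (fun v : HeightOneSpectrum (𝓞 F) => ClassGroup.mk0 (pI v)) y = 1 := by
  obtain ⟨b₁, b₂, hb₁, hb₂, rfl⟩ := exists_toU_div y
  have h : ∀ (b : 𝓞 F) (hb : b ≠ 0), ClassGroup.mk0 (spanI b hb) = 1 := by
    intro b hb
    exact (ClassGroup.mk0_eq_one_iff (spanI b hb).2).2 ⟨⟨b, rfl⟩⟩
  rw [map_mul, map_inv, divHom_toU ClassGroup.mk0, divHom_toU ClassGroup.mk0, h, h, inv_one,
    one_mul]

theorem ordZ_eq_zero_of_mem_Ucong {v : HeightOneSpectrum (𝓞 F)} {c : WithZero (Multiplicative ℤ)}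
    (hc : c ≠ 0) {u : Fˣ} (hu : u ∈ SI.Ucong F v c) : ordZ v u = 0 := by
  rw [ordZ_eq_zero_iff]
  rcases hu with h | h
  · exact SI.valuation_eq_one_of_sub_one_lt (lt_of_lt_of_le h inf_le_right)
  · exact absurd h hc

theorem dvd_ordZ_of_mem_Lv {p : ℕ} {ζ : F} (hζ : ζ ≠ 1) {v : HeightOneSpectrum (𝓞 F)} {l : Fˣ}
    (hl : l ∈ SI.Lv F p ζ v) : (p : ℤ) ∣ ordZ v l := by
  obtain ⟨y, u, hu, rfl⟩ := (SI.mem_Lv_iff p ζ v l).1 hl
  have hc : v.valuation F (1 - ζ) ^ p ≠ 0 :=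
    pow_ne_zero _ ((Valuation.ne_zero_iff _).2 (sub_ne_zero.2 (Ne.symm hζ)))
  rw [ordZ_mul, ordZ_pow, ordZ_eq_zero_of_mem_Ucong hc hu, add_zero]
  exact dvd_mul_right _ _

/-- from `ClGen`: an element with prescribed orders outside `S` -/
theorem exists_ordZ_eq_of_clGen (S : Finset (HeightOneSpectrum (𝓞 F))) (hcl : SI.ClGen F S)
    (n : HeightOneSpectrum (𝓞 F) → ℤ) (hn : {v | n v ≠ 0}.Finite) :
    ∃ x : Fˣ, ∀ v ∉ S, ordZ v x = n v := by
  classical
  have h : ∀ v : HeightOneSpectrum (𝓞 F), ∃ x : Fˣ, v ∉ S →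
      (ordZ v x = 1 ∧ ∀ w ∉ S, w ≠ v → ordZ w x = 0) := by
    intro v
    by_cases hv : v ∈ S
    · exact ⟨1, fun h => absurd hv h⟩
    · obtain ⟨x, hx1, hx2⟩ := hcl v hv
      exact ⟨x, fun _ => ⟨(ordZ_eq_iff v x 1).2 hx1,
        fun w hw hwv => (ordZ_eq_zero_iff w x).2 (hx2 w hw hwv)⟩⟩
  choose g hg using h
  refine ⟨∏ v ∈ hn.toFinset.filter (fun v => v ∉ S), g v ^ n v, ?_⟩
  intro w hw
  rw [ordZ_prod, Finset.sum_eq_single w]
  · rw [ordZ_zpow, (hg w hw).1, mul_one]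
  · intro v hv hvw
    have hvS : v ∉ S := (Finset.mem_filter.1 hv).2
    rw [ordZ_zpow, (hg v hvS).2 w hw (Ne.symm hvw), mul_zero]
  · intro hwn
    have : n w = 0 := by
      by_contra h0
      exact hwn (Finset.mem_filter.2 ⟨(Set.Finite.mem_toFinset hn).2 h0, hw⟩)
    rw [ordZ_zpow, this, zero_mul]

/-- **Core of [SI-TR].**  Abstract form: `f` a homomorphism from the nonzero ideals to a group of
prime order `p` satisfying the cyclotomic hypothesis on `B ⊆ S`, trivial on `W`, nontrivial at a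
prime outside `S ∪ W`; if `E_{S ∪ W} · ⋂_{v ∈ S} L_v` has index at most `p`, then the class of
every ideal prime to `B` in the kernel of `f` lies in any subgroup `N` of the class group
containing the `p`-th powers and the classes of the primes of `W`. -/
theorem core {p : ℕ} (hp : p.Prime) (hH : Nat.card H = p) (ζ : F) (hζ : ζ ≠ 1)
    (f : (Ideal (𝓞 F))⁰ →* H) (S W B : Finset (HeightOneSpectrum (𝓞 F))) (hBS : B ⊆ S)
    (hdisj : Disjoint S W) (hcl : SI.ClGen F S)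
    (hcyc : ∀ (x : 𝓞 F) (hx : x ≠ 0),
      (∀ v ∈ B, x ∉ v.asIdeal ∧ ∃ z : 𝓞 F, x - z ^ p ∈ v.asIdeal) → f (spanI x hx) = 1)
    (hW : ∀ w ∈ W, f (pI w) = 1)
    (hidx0 : (((S : Set (HeightOneSpectrum (𝓞 F))) ∪ (W : Set (HeightOneSpectrum (𝓞 F)))).unit F ⊔
      ⨅ v ∈ S, SI.Lv F p ζ v).index ≠ 0)
    (hidx : (((S : Set (HeightOneSpectrum (𝓞 F))) ∪ (W : Set (HeightOneSpectrum (𝓞 F)))).unit F ⊔
      ⨅ v ∈ S, SI.Lv F p ζ v).index ≤ p)
    (𝔮 : HeightOneSpectrum (𝓞 F)) (h𝔮S : 𝔮 ∉ S) (h𝔮W : 𝔮 ∉ W) (h𝔮 : f (pI 𝔮) ≠ 1)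
    (N : Subgroup (ClassGroup (𝓞 F))) (hNp : ∀ c : ClassGroup (𝓞 F), c ^ p ∈ N)
    (hNW : ∀ w ∈ W, ClassGroup.mk0 (pI w) ∈ N)
    (𝔞 : (Ideal (𝓞 F))⁰) (h𝔞B : ∀ v ∈ B, cnt v (𝔞 : Ideal (𝓞 F)) = 0) (h𝔞 : f 𝔞 = 1) :
    ClassGroup.mk0 𝔞 ∈ N := by
  classical
  have hexp : ∀ h : H, h ^ p = 1 := fun h => by rw [← hH]; exact pow_card_eq_one'
  have hexpz : ∀ (h : H) (k : ℤ), h ^ ((p : ℤ) * k) = 1 := fun h k => by
    rw [zpow_mul, zpow_natCast, hexp, one_zpow]
  set T : Finset (HeightOneSpectrum (𝓞 F)) := S ∪ W with hT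
  set g : HeightOneSpectrum (𝓞 F) → H := fun v => f (pI v) with hg
  set κ : HeightOneSpectrum (𝓞 F) → ClassGroup (𝓞 F) := fun v => ClassGroup.mk0 (pI v) with hκ
  set ψ : Fˣ →* H := divHom (fun v => if v ∈ T then 1 else g v) with hψ
  set D : Subgroup Fˣ :=
    ((S : Set (HeightOneSpectrum (𝓞 F))) ∪ (W : Set (HeightOneSpectrum (𝓞 F)))).unit F ⊔
      ⨅ v ∈ S, SI.Lv F p ζ v with hD
  have hsplit : ∀ x : Fˣ, divHom g x = (∏ v ∈ T, g v ^ ordZ v x) * ψ x :=
    fun x => fp_split g (finite_ordZ_ne_zero x) T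
  have hTS : ∀ n : HeightOneSpectrum (𝓞 F) → ℤ, ∏ v ∈ T, g v ^ n v = ∏ v ∈ S, g v ^ n v := by
    intro n
    rw [hT, Finset.prod_union hdisj, Finset.prod_eq_one (s := W), mul_one]
    intro w hw
    rw [hg]
    simp only
    rw [hW w hw, one_zpow]
  have hnotT : ∀ v, v ∉ T → v ∉ (S : Set (HeightOneSpectrum (𝓞 F))) ∪
      (W : Set (HeightOneSpectrum (𝓞 F))) := by
    intro v hv h
    apply hv
    rw [hT, Finset.mem_union]
    exact h
  -- (d) `ψ` kills the `S ∪ W`-units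
  have hd : ∀ x ∈ ((S : Set (HeightOneSpectrum (𝓞 F))) ∪
      (W : Set (HeightOneSpectrum (𝓞 F)))).unit F, ψ x = 1 := by
    intro x hx
    apply fp_eq_one
    intro v
    by_cases hv : v ∈ T
    · rw [if_pos hv, one_zpow]
    · have : ordZ v x = 0 := (ordZ_eq_zero_iff v x).2 (hx v (hnotT v hv))
      rw [this, zpow_zero]
  -- (e) `ψ` kills `⋂ L_v`
  have hLv : ∀ l ∈ (⨅ v ∈ S, SI.Lv F p ζ v), ∀ v ∈ S, l ∈ SI.Lv F p ζ v := by
    intro l hl v hv
    have := hl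
    simp only [Subgroup.mem_iInf] at this
    exact this v hv
  have he : ∀ l ∈ (⨅ v ∈ S, SI.Lv F p ζ v), ψ l = 1 := by
    intro l hl
    have h1 : divHom g l = 1 := divHom_eq_one_of_mem_Lv hp.pos f hexp B hcyc ζ hζ l
      (fun v hv => hLv l hl v (hBS hv))
    have h2 := hsplit l
    rw [h1, hTS, Finset.prod_eq_one, one_mul] at h2
    · exact h2.symm
    · intro v hv
      obtain ⟨k, hk⟩ := dvd_ordZ_of_mem_Lv hζ (hLv l hl v hv)
      rw [hk, hexpz]
  have hDker : D ≤ ψ.ker := by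
    rw [hD, sup_le_iff]
    exact ⟨fun x hx => MonoidHom.mem_ker.2 (hd x hx), fun x hx => MonoidHom.mem_ker.2 (he x hx)⟩
  -- (f) `ψ` is nontrivial
  obtain ⟨x𝔮, hx1, hx2⟩ := hcl 𝔮 h𝔮S
  have h𝔮T : 𝔮 ∉ T := by
    rw [hT, Finset.mem_union]
    exact fun h => h.elim h𝔮S h𝔮W
  have hψ𝔮 : ψ x𝔮 = g 𝔮 := by
    show fp _ _ = _
    unfold fp
    rw [finprod_eq_single _ 𝔮]
    · beta_reduce
      rw [if_neg h𝔮T, (ordZ_eq_iff 𝔮 x𝔮 1).2 hx1, zpow_one]
    · intro v hv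
      beta_reduce
      by_cases hvT : v ∈ T
      · rw [if_pos hvT, one_zpow]
      · have hvS : v ∉ S := fun h => hvT (Finset.mem_union_left _ h)
        rw [(ordZ_eq_zero_iff v x𝔮).2 (hx2 v hvS hv), zpow_zero]
  have hker : ψ.ker ≤ D := by
    have hrange : ψ.range = ⊤ := by
      haveI : Fact (Nat.card H).Prime := ⟨hH ▸ hp⟩
      rcases Subgroup.eq_bot_or_eq_top_of_prime_card ψ.range with h | h
      · exfalso
        apply h𝔮
        have : ψ x𝔮 ∈ ψ.range := ⟨x𝔮, rfl⟩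
        rw [h, Subgroup.mem_bot, hψ𝔮] at this
        exact this
      · exact h
    have hkidx : ψ.ker.index = p := by
      rw [Subgroup.index_ker, hrange, Subgroup.card_top, hH]
    have hrel := Subgroup.relIndex_mul_index hDker
    rw [hkidx] at hrel
    have h2 : D.relIndex ψ.ker ≠ 0 := by
      intro h0
      rw [h0, zero_mul] at hrel
      exact hidx0 hrel.symm
    have h1 : D.relIndex ψ.ker * p ≤ 1 * p := by
      rw [hrel, one_mul]
      exact hidx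
    have h3 : D.relIndex ψ.ker ≤ 1 := Nat.le_of_mul_le_mul_right h1 hp.pos
    exact Subgroup.relIndex_eq_one.1 (by omega)
  -- (g) the ideal `𝔞`
  obtain ⟨x₀, hx₀, hx₀B, hx₀S⟩ :=
    exists_ord_eq B S (fun v => (p - 1) * cnt v (𝔞 : Ideal (𝓞 F)))
  have hx₀v : ∀ v ∈ B, x₀ ∉ v.asIdeal := by
    intro v hv h
    have h1 : (1 : 𝓞 F) ∈ v.asIdeal := by
      have := v.asIdeal.sub_mem h (hx₀B v hv)
      rwa [sub_sub_cancel] at this
    exact v.isPrime.ne_top ((Ideal.eq_top_iff_one _).2 h1)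
  have hfx₀ : f (spanI x₀ hx₀) = 1 := hcyc x₀ hx₀
    (fun v hv => ⟨hx₀v v hv, 1, by rw [one_pow]; exact hx₀B v hv⟩)
  obtain ⟨x, hx⟩ := exists_ordZ_eq_of_clGen S hcl
    (fun v => (cnt v (𝔞 : Ideal (𝓞 F)) : ℤ)) (finite_cnt_ne_zero 𝔞)
  have hord₀B : ∀ v ∈ B, ordZ v (toU x₀ hx₀) = 0 := by
    intro v hv
    rw [ordZ_eq_zero_iff, toU_val, valuation_of_algebraMap,
      intValuation_eq_one_iff_mem_primeCompl]
    exact hx₀v v hv
  have hord₀S : ∀ v ∈ S, v ∉ B →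
      ordZ v (toU x₀ hx₀) = (((p - 1) * cnt v (𝔞 : Ideal (𝓞 F)) : ℕ) : ℤ) := by
    intro v hv hvB
    rw [ordZ_eq_iff, toU_val, valuation_of_algebraMap, hx₀S v hv hvB]
  have hsum : ∀ v ∈ S, (p : ℤ) ∣ (cnt v (𝔞 : Ideal (𝓞 F)) : ℤ) + ordZ v (toU x₀ hx₀) := by
    intro v hv
    by_cases hvB : v ∈ B
    · rw [h𝔞B v hvB, hord₀B v hvB]
      simp
    · rw [hord₀S v hv hvB]
      refine ⟨cnt v (𝔞 : Ideal (𝓞 F)), ?_⟩
      push_cast [Nat.cast_sub hp.one_le]
      ring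
  have hψx : ψ x = (∏ v ∈ S, g v ^ (cnt v (𝔞 : Ideal (𝓞 F)) : ℤ))⁻¹ := by
    have h1 := map_eq_fp f 𝔞
    rw [h𝔞, fp_split (fun v => f (pI v)) (finite_cnt_ne_zero 𝔞) T, hTS] at h1
    have h2 : ψ x = fp (fun v => if v ∈ T then 1 else g v)
        (fun v => (cnt v (𝔞 : Ideal (𝓞 F)) : ℤ)) := by
      apply fp_congr
      intro v
      by_cases hv : v ∈ T
      · simp only [if_pos hv, one_zpow]
      · rw [hx v (fun h => hv (Finset.mem_union_left _ h))]
    rw [h2]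
    exact eq_inv_of_mul_eq_one_right h1.symm
  have hψx₀ : ψ (toU x₀ hx₀) = (∏ v ∈ S, g v ^ ordZ v (toU x₀ hx₀))⁻¹ := by
    have h1 := hsplit (toU x₀ hx₀)
    rw [divHom_toU, hfx₀, hTS] at h1
    exact eq_inv_of_mul_eq_one_right h1.symm
  have hψprod : ψ (x * toU x₀ hx₀) = 1 := by
    rw [map_mul, hψx, hψx₀, ← mul_inv, inv_eq_one, ← Finset.prod_mul_distrib]
    apply Finset.prod_eq_one
    intro v hv
    rw [← zpow_add]
    obtain ⟨k, hk⟩ := hsum v hv
    rw [hk, hexpz]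
  have hmemD : x * toU x₀ hx₀ ∈ D := hker (MonoidHom.mem_ker.2 hψprod)
  obtain ⟨ε, hε, l, hl, hεl⟩ := Subgroup.mem_sup.1 hmemD
  -- the class computation
  have hNz : ∀ (c : ClassGroup (𝓞 F)) (k : ℤ), c ^ ((p : ℤ) * k) ∈ N := fun c k => by
    rw [mul_comm, zpow_mul, zpow_natCast]
    exact hNp _
  have hκsplit : ∀ (y : Fˣ) (U : Finset (HeightOneSpectrum (𝓞 F))),
      (∏ v ∈ U, κ v ^ ordZ v y) * fp (fun v => if v ∈ U then 1 else κ v) (fun v => ordZ v y) = 1 := by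
    intro y U
    rw [← fp_split κ (finite_ordZ_ne_zero y) U]
    exact divHom_mk0 y
  have h𝔞κ : ClassGroup.mk0 𝔞 =
      (∏ v ∈ S, κ v ^ (cnt v (𝔞 : Ideal (𝓞 F)) : ℤ)) * (∏ v ∈ S, κ v ^ ordZ v x)⁻¹ := by
    have h1 := map_eq_fp (ClassGroup.mk0 (R := 𝓞 F)) 𝔞
    rw [fp_split (fun v => ClassGroup.mk0 (pI v)) (finite_cnt_ne_zero 𝔞) S] at h1
    have h2 : fp (fun v => if v ∈ S then 1 else κ v) (fun v => (cnt v (𝔞 : Ideal (𝓞 F)) : ℤ)) =
        fp (fun v => if v ∈ S then 1 else κ v) (fun v => ordZ v x) := by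
      apply fp_congr
      intro v
      by_cases hv : v ∈ S
      · simp only [if_pos hv, one_zpow]
      · rw [hx v hv]
    rw [h1]
    congr 1
    rw [h2]
    exact eq_inv_of_mul_eq_one_right (hκsplit x S)
  have hprodrel : (∏ v ∈ S, κ v ^ ordZ v x) * (∏ v ∈ S, κ v ^ ordZ v (toU x₀ hx₀)) =
      (∏ v ∈ S, κ v ^ ordZ v ε) * (∏ v ∈ S, κ v ^ ordZ v l) := by
    rw [← Finset.prod_mul_distrib, ← Finset.prod_mul_distrib]
    refine Finset.prod_congr rfl (fun v _ => ?_)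
    rw [← zpow_add, ← zpow_add, ← ordZ_mul, ← ordZ_mul, hεl]
  have hA : (∏ v ∈ S, κ v ^ (cnt v (𝔞 : Ideal (𝓞 F)) : ℤ)) *
      (∏ v ∈ S, κ v ^ ordZ v (toU x₀ hx₀)) ∈ N := by
    rw [← Finset.prod_mul_distrib]
    refine Subgroup.prod_mem N (fun v hv => ?_)
    rw [← zpow_add]
    obtain ⟨k, hk⟩ := hsum v hv
    rw [hk]
    exact hNz _ _
  have hL : (∏ v ∈ S, κ v ^ ordZ v l) ∈ N := by
    refine Subgroup.prod_mem N (fun v hv => ?_)
    obtain ⟨k, hk⟩ := dvd_ordZ_of_mem_Lv hζ (hLv l hl v hv)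
    rw [hk]
    exact hNz _ _
  have hE : (∏ v ∈ S, κ v ^ ordZ v ε) ∈ N := by
    have h1 := hκsplit ε T
    rw [fp_eq_one, mul_one, hT, Finset.prod_union hdisj] at h1
    · rw [eq_inv_of_mul_eq_one_left h1]
      refine N.inv_mem (Subgroup.prod_mem N (fun w hw => ?_))
      exact N.zpow_mem (hNW w hw) _
    · intro v
      by_cases hv : v ∈ T
      · rw [if_pos hv, one_zpow]
      · have : ordZ v ε = 0 := (ordZ_eq_zero_iff v ε).2 (hε v (hnotT v hv))
        rw [this, zpow_zero]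
  have hfinal : ClassGroup.mk0 𝔞 =
      ((∏ v ∈ S, κ v ^ (cnt v (𝔞 : Ideal (𝓞 F)) : ℤ)) *
        (∏ v ∈ S, κ v ^ ordZ v (toU x₀ hx₀))) *
      ((∏ v ∈ S, κ v ^ ordZ v ε) * (∏ v ∈ S, κ v ^ ordZ v l))⁻¹ := by
    rw [h𝔞κ, ← hprodrel, mul_inv_rev, mul_assoc, mul_inv_cancel_left]
  rw [hfinal]
  exact N.mul_mem hA (N.inv_mem (N.mul_mem hE hL))

end Core

section Wrapper

open Fermat.Agent.S14.Artin

/-- the identity is a Frobenius element at a prime of residue degree one -/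
theorem isArithFrobAt_one_of_absNorm_eq {F M : Type} [Field F] [Field M] [NumberField F]
    [NumberField M] [Algebra F M] [IsGalois F M] {P : Ideal (𝓞 M)} (hP : P.IsPrime) (hP0 : P ≠ ⊥)
    (hnorm : Ideal.absNorm P = Ideal.absNorm (P.under (𝓞 F))) :
    IsArithFrobAt (𝓞 F) (1 : M ≃ₐ[F] M) P := by
  intro x
  haveI : P.IsMaximal := hP.isMaximal hP0
  letI : Field (𝓞 M ⧸ P) := Ideal.Quotient.field P
  haveI : Finite (𝓞 M ⧸ P) := Ideal.finiteQuotientOfFreeOfNeBot P hP0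
  letI : Fintype (𝓞 M ⧸ P) := Fintype.ofFinite _
  have hcard : Nat.card (𝓞 F ⧸ P.under (𝓞 F)) = Fintype.card (𝓞 M ⧸ P) := by
    rw [← Nat.card_eq_fintype_card, ← Submodule.cardQuot_apply, ← Submodule.cardQuot_apply,
      ← Ideal.absNorm_apply, ← Ideal.absNorm_apply, hnorm]
  have h1 : (MulSemiringAction.toAlgHom (𝓞 F) (𝓞 M) (1 : M ≃ₐ[F] M)) x = x := by
    show (1 : M ≃ₐ[F] M) • x = x
    rw [one_smul]
  rw [h1, ← Ideal.Quotient.eq_zero_iff_mem, map_sub, map_pow, hcard, FiniteField.pow_card,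
    sub_self]

/-- **[SI-TR]**: the `F^×`-form of the second inequality (`SI.CoreStmt`) and the existence of
non-split primes give the ideal-theoretic second inequality `SIStmt`. -/
theorem siStmt_of_core (p : ℕ)
    (hcore : p.Prime → ∀ (F : Type) [Field F] [NumberField F], SI.CoreStmt F p)
    (hNS : NSStmt p) : SIStmt p := by
  intro hp _h3 F M _ _ _ _ _ _ hζex hdeg hun art hart r hr hrp hcyc 𝔞 h𝔞r h𝔞
  classical
  haveI : Fact p.Prime := ⟨hp⟩
  obtain ⟨ζ₀, hζ₀⟩ := hζex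
  -- a Kummer generator, scaled to an integer
  obtain ⟨α₀, β₀, hgen⟩ := Fermat.Agent.Lib.KummerGen.exists_kummer hp hdeg hζ₀
  obtain ⟨⟨n, ⟨d, hd⟩⟩, hnd⟩ := IsLocalization.surj (nonZeroDivisors (𝓞 F)) α₀
  simp only at hnd
  have hd0 : d ≠ 0 := nonZeroDivisors.ne_zero hd
  have hdF : algebraMap (𝓞 F) F d ≠ 0 := by
    rwa [Ne, FaithfulSMul.algebraMap_eq_zero_iff]
  set a : 𝓞 F := n * d ^ (p - 1) with ha
  have haF : algebraMap (𝓞 F) F a = α₀ * (algebraMap (𝓞 F) F d) ^ p := by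
    rw [ha, map_mul, map_pow, ← hnd, mul_assoc, ← pow_succ', Nat.sub_add_cancel hp.pos]
  have ha_not : ∀ x : F, x ^ p ≠ (a : F) := by
    intro x hx
    apply hgen.not_pow
    refine ⟨x / algebraMap (𝓞 F) F d, ?_⟩
    have hx' : x ^ p = algebraMap (𝓞 F) F a := hx
    rw [div_pow, hx', haF, mul_div_assoc, div_self (pow_ne_zero _ hdF), mul_one]
  set β : M := β₀ * algebraMap F M (algebraMap (𝓞 F) F d) with hβdef
  have hβ : β ^ p = algebraMap F M (algebraMap (𝓞 F) F a) := by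
    rw [hβdef, mul_pow, hgen.pow_eq, ← map_pow, ← map_mul, haF]
  have hβint : IsIntegral ℤ β := by
    rw [← IsIntegral.pow_iff hp.pos, hβ]
    exact ((NumberField.RingOfIntegers.isIntegral_coe a).map (algebraMap F M).toIntAlgHom)
  set α : 𝓞 M := ⟨β, hβint⟩ with hαdef
  have hα : α ^ p = algebraMap (𝓞 F) (𝓞 M) a := by
    apply FaithfulSMul.algebraMap_injective (𝓞 M) M
    rw [map_pow, ← IsScalarTower.algebraMap_apply (𝓞 F) (𝓞 M) M,
      IsScalarTower.algebraMap_apply (𝓞 F) F M]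
    exact hβ
  -- `ζ` as an integer
  have hζint : IsIntegral ℤ ζ₀ := by
    rw [← IsIntegral.pow_iff hp.pos, hζ₀.pow_eq_one]
    exact isIntegral_one
  set ζ : 𝓞 F := ⟨ζ₀, hζint⟩ with hζdef
  have hζ : IsPrimitiveRoot ζ p :=
    IsPrimitiveRoot.of_map_of_injective (f := algebraMap (𝓞 F) F) hζ₀
      (FaithfulSMul.algebraMap_injective (𝓞 F) F)
  -- the primes above `r`
  have hr0 : ((r : 𝓞 F)) ≠ 0 := Nat.cast_ne_zero.2 hr.ne_zero
  have hrspan : Ideal.span {(r : 𝓞 F)} ≠ 0 := by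
    simpa [Ideal.span_singleton_eq_bot] using hr0
  set B : Finset (HeightOneSpectrum (𝓞 F)) := (Ideal.finite_factors hrspan).toFinset with hBdef
  have hB : ∀ v : HeightOneSpectrum (𝓞 F), v ∈ B ↔ (r : 𝓞 F) ∈ v.asIdeal := by
    intro v
    rw [hBdef, Set.Finite.mem_toFinset]
    exact Ideal.dvd_span_singleton
  obtain ⟨S, W, hBS, hdisj, hcl, hWprop, hidx0, hidx⟩ := hcore hp F ζ₀ hζ₀ a ha_not B
  -- a commutative target
  have hcardG : Nat.card (M ≃ₐ[F] M) = p := Basic.card_gal hdeg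
  have hcycG : IsCyclic (M ≃ₐ[F] M) := isCyclic_of_prime_card hcardG
  let e : (M ≃ₐ[F] M) ≃* Multiplicative (ZMod (Nat.card (M ≃ₐ[F] M))) :=
    (zmodCyclicMulEquiv hcycG).symm
  set f : (Ideal (𝓞 F))⁰ →* Multiplicative (ZMod (Nat.card (M ≃ₐ[F] M))) :=
    e.toMonoidHom.comp art with hfdef
  have hf1 : ∀ I, f I = 1 ↔ art I = 1 := fun I => by
    rw [hfdef, MonoidHom.comp_apply]
    exact e.map_eq_one_iff
  have hHcard : Nat.card (Multiplicative (ZMod (Nat.card (M ≃ₐ[F] M)))) = p := by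
    rw [← Nat.card_congr e.toEquiv, hcardG]
  -- the primes of `W` split
  have hWart : ∀ w ∈ W, art (pI w) = 1 := by
    intro w hw
    obtain ⟨hpw, haw, c, hc⟩ := hWprop w hw
    haveI := w.isPrime
    obtain ⟨s, hs, hsP⟩ := Fermat.Agent.Lib.KummerSplit.exists_primes_over hdeg hζ ha_not hα
      w.asIdeal w.ne_bot hpw haw hc
    have hsne : s.Nonempty := by
      rw [← Finset.card_pos, hs]
      exact hp.pos
    obtain ⟨P, hP⟩ := hsne
    obtain ⟨hPprime, hPunder, hPnorm⟩ := hsP P hP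
    have hP0 : P ≠ ⊥ := Basic.ne_bot_of_under w.ne_bot hPunder
    have hfrob1 : IsArithFrobAt (𝓞 F) (1 : M ≃ₐ[F] M) P :=
      isArithFrobAt_one_of_absNorm_eq hPprime hP0 (by rw [hPunder, hPnorm])
    exact Basic.frob_unique hun hPprime hP0 (hart (pI w) P w.isPrime hPprime hPunder) hfrob1
  -- a non-split prime outside `S ∪ W`
  obtain ⟨𝔮I, h𝔮prime, h𝔮T, h𝔮art⟩ := hNS hp F M hdeg hun art hart
    ((fun v : HeightOneSpectrum (𝓞 F) => v.asIdeal) '' ((S ∪ W : Finset _) : Set _))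
    (Set.Finite.image _ (Finset.finite_toSet _))
  set 𝔮 : HeightOneSpectrum (𝓞 F) := ⟨𝔮I, h𝔮prime, nonZeroDivisors.coe_ne_zero 𝔮I⟩ with h𝔮def
  have h𝔮notin : 𝔮 ∉ S ∪ W := fun h => h𝔮T ⟨𝔮, h, rfl⟩
  have hpI𝔮 : pI 𝔮 = 𝔮I := Subtype.ext rfl
  refine core hp hHcard ζ₀ (hζ₀.ne_one hp.one_lt) f S W B hBS hdisj hcl ?_ ?_ hidx0 hidx 𝔮
    (fun h => h𝔮notin (Finset.mem_union_left _ h)) (fun h => h𝔮notin (Finset.mem_union_right _ h))
    ?_ (nmClasses F M p) ?_ ?_ 𝔞 ?_ ((hf1 𝔞).2 h𝔞)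
  · intro x hx hxB
    rw [hf1]
    refine hcyc x hx (fun v hv hrv => ?_)
    have hv0 : v ≠ ⊥ := by
      rintro rfl
      exact hr0 ((Ideal.mem_bot).1 hrv)
    exact hxB ⟨v, hv, hv0⟩ ((hB _).2 hrv)
  · intro w hw
    rw [hf1]
    exact hWart w hw
  · rw [hpI𝔮, Ne, hf1]
    exact h𝔮art
  · intro c
    exact Subgroup.subset_closure (Or.inr ⟨c, rfl⟩)
  · intro w hw
    exact Subgroup.subset_closure (Or.inl ⟨pI w, w.isPrime,
      (Basic.art_eq_one_iff_isSplit hun hart (pI w) w.isPrime).1 (hWart w hw), rfl⟩)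
  · intro v hv
    by_contra hne
    have hdvd : v.asIdeal ∣ (𝔞 : Ideal (𝓞 F)) :=
      (Associates.count_ne_zero_iff_dvd (nonZeroDivisors.coe_ne_zero 𝔞) v.irreducible).1 hne
    exact h𝔞r v.asIdeal v.isPrime ((hB v).1 hv) (Ideal.le_of_dvd hdvd)

end Wrapper

end Fermat.Agent.S14.Artin.SITrans
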