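import Fermat.Agent.S14.Artin.Basic

/-!
# S14, Route A: assembly

* `xStmt_of_core : XCoreStmt p → NSStmt p → XStmt p` (chain through one inert prime of fresh
  residue characteristic).
* `artinStmt_of : XStmt p → FIStmt p → NSStmt p → ArtExistsStmt p → ArtinStmt p`
  (the squeeze: the Artin map kills principal ideals, hence factors through the class group).
-/

set_option autoImplicit false
set_option linter.unusedSectionVars false

open scoped NumberField nonZeroDivisors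

namespace Fermat.Agent.S14.Artin.Top

open Fermat.Agent.S14.Artin Fermat.Agent.S14.Artin.Basic

variable {K L : Type} [Field K] [Field L] [NumberField K] [NumberField L] [Algebra K L]
  [IsGalois K L]

theorem pow_mem_nmClasses {p : ℕ} (c : ClassGroup (𝓞 K)) (j : ℕ) :
    c ^ (j * p) ∈ nmClasses K L p := by
  rw [pow_mul]
  exact Subgroup.subset_closure (Or.inr ⟨c ^ j, rfl⟩)

theorem dvd_of_pow_eq_one {p : ℕ} (hp : p.Prime) (hdeg : Module.finrank K L = p)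
    {τ : L ≃ₐ[K] L} (hτ : τ ≠ 1) {k : ℕ} (hk : τ ^ k = 1) : p ∣ k := by
  have h1 : orderOf τ ∣ p := orderOf_dvd_of_pow_eq_one (gal_pow_eq_one hdeg τ)
  have h2 : orderOf τ ≠ 1 := fun h => hτ (orderOf_eq_one_iff.1 h)
  have h3 : orderOf τ = p := (Nat.dvd_prime hp).1 h1 |>.resolve_left h2
  rw [← h3]
  exact orderOf_dvd_of_pow_eq_one hk

/-- the chain argument: every ideal whose prime factors have residue characteristics different
from that of the non-split prime `P₀` is, modulo the norm classes, a power of `P₀` determined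
by its Artin symbol. -/
theorem chain {p : ℕ} (hp : p.Prime) (hdeg : Module.finrank K L = p) (hun : IsUnram K L)
    {art : (Ideal (𝓞 K))⁰ →* (L ≃ₐ[K] L)} (hart : IsArt K L art) (P₀ : (Ideal (𝓞 K))⁰)
    (hτ : art P₀ ≠ 1)
    (hcore : ∀ P : (Ideal (𝓞 K))⁰, (P : Ideal (𝓞 K)).IsPrime → art P ≠ 1 →
      (∀ ℓ : ℕ, ℓ.Prime → (ℓ : 𝓞 K) ∈ (P : Ideal (𝓞 K)) → (ℓ : 𝓞 K) ∉ (P₀ : Ideal (𝓞 K))) →
      ∀ b : ℕ, art P * art P₀ ^ b = 1 →
        ClassGroup.mk0 P * ClassGroup.mk0 P₀ ^ b ∈ nmClasses K L p)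
    (I : (Ideal (𝓞 K))⁰) :
    (∀ P : (Ideal (𝓞 K))⁰, (P : Ideal (𝓞 K)).IsPrime → (P : Ideal (𝓞 K)) ∣ (I : Ideal (𝓞 K)) →
      ∀ ℓ : ℕ, ℓ.Prime → (ℓ : 𝓞 K) ∈ (P : Ideal (𝓞 K)) → (ℓ : 𝓞 K) ∉ (P₀ : Ideal (𝓞 K))) →
    ∀ k : ℕ, art I * art P₀ ^ k = 1 →
      ClassGroup.mk0 I * ClassGroup.mk0 P₀ ^ k ∈ nmClasses K L p := by
  induction I using ideal_induction with
  | h1 =>
    intro _ k hk
    rw [map_one, one_mul] at hk
    obtain ⟨j, rfl⟩ := dvd_of_pow_eq_one hp hdeg hτ hk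
    rw [map_one, one_mul, mul_comm p j]
    exact pow_mem_nmClasses _ j
  | hmul P I hP ih =>
    intro hres k hk
    have hresI : ∀ P' : (Ideal (𝓞 K))⁰, (P' : Ideal (𝓞 K)).IsPrime →
        (P' : Ideal (𝓞 K)) ∣ (I : Ideal (𝓞 K)) →
        ∀ ℓ : ℕ, ℓ.Prime → (ℓ : 𝓞 K) ∈ (P' : Ideal (𝓞 K)) → (ℓ : 𝓞 K) ∉ (P₀ : Ideal (𝓞 K)) :=
      fun P' hP' hd => hres P' hP' (by
        rw [Submonoid.coe_mul]; exact Dvd.dvd.mul_left hd _)
    have hresP := hres P hP (by rw [Submonoid.coe_mul]; exact Dvd.intro _ rfl)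
    rw [map_mul] at hk
    by_cases h1 : art P = 1
    · rw [h1, one_mul] at hk
      have hI := ih hresI k hk
      have hPm : ClassGroup.mk0 P ∈ nmClasses K L p :=
        Subgroup.subset_closure
          (Or.inl ⟨P, hP, (art_eq_one_iff_isSplit hun hart P hP).1 h1, rfl⟩)
      rw [map_mul, mul_assoc]
      exact mul_mem hPm hI
    · obtain ⟨j, hj⟩ := gal_eq_pow_of_ne_one hp hdeg hτ (art P)
      have hb : art P * art P₀ ^ (j * (p - 1)) = 1 := by
        rw [hj, ← pow_add]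
        have : j + j * (p - 1) = j * p := by
          have hp1 : 1 ≤ p := hp.one_lt.le
          conv_lhs => rw [← mul_one j, mul_assoc, one_mul, ← mul_add, Nat.add_sub_cancel' hp1]
        rw [this, mul_comm, pow_mul, gal_pow_eq_one hdeg, one_pow]
      have hPm := hcore P hP h1 hresP (j * (p - 1)) hb
      have hk' : art I * art P₀ ^ (k + j) = 1 := by
        rw [hj] at hk
        rw [pow_add, ← mul_assoc, ← hk]
        rw [gal_comm hp hdeg (art I * art P₀ ^ k) (art P₀ ^ j), mul_assoc]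
      have hI := ih hresI (k + j) hk'
      have hprod := mul_mem hPm hI
      have hpow : ClassGroup.mk0 P₀ ^ (j * p) ∈ nmClasses K L p := pow_mem_nmClasses _ j
      have hfinal := mul_mem hprod (inv_mem hpow)
      have hexp : j * (p - 1) + (k + j) = k + j * p := by
        have hp1 : 1 ≤ p := hp.one_lt.le
        have : j * (p - 1) + j = j * p := by
          conv_lhs => rw [← mul_one j, mul_assoc, one_mul, ← mul_add, Nat.sub_add_cancel hp1]
        omega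
      have heq : ClassGroup.mk0 (P * I) * ClassGroup.mk0 P₀ ^ k =
          ClassGroup.mk0 P * ClassGroup.mk0 P₀ ^ (j * (p - 1)) *
            (ClassGroup.mk0 I * ClassGroup.mk0 P₀ ^ (k + j)) *
            (ClassGroup.mk0 P₀ ^ (j * p))⁻¹ := by
        rw [map_mul]
        have : ClassGroup.mk0 P * ClassGroup.mk0 P₀ ^ (j * (p - 1)) *
            (ClassGroup.mk0 I * ClassGroup.mk0 P₀ ^ (k + j)) =
            ClassGroup.mk0 P * ClassGroup.mk0 I * ClassGroup.mk0 P₀ ^ k *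
              ClassGroup.mk0 P₀ ^ (j * p) := by
          have e : ClassGroup.mk0 P₀ ^ (j * (p - 1)) * ClassGroup.mk0 P₀ ^ (k + j) =
              ClassGroup.mk0 P₀ ^ k * ClassGroup.mk0 P₀ ^ (j * p) := by
            rw [← pow_add, ← pow_add, hexp]
          calc ClassGroup.mk0 P * ClassGroup.mk0 P₀ ^ (j * (p - 1)) *
                (ClassGroup.mk0 I * ClassGroup.mk0 P₀ ^ (k + j))
              = ClassGroup.mk0 P * ClassGroup.mk0 I *
                (ClassGroup.mk0 P₀ ^ (j * (p - 1)) * ClassGroup.mk0 P₀ ^ (k + j)) := by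
                  rw [mul_mul_mul_comm]
            _ = _ := by rw [e, ← mul_assoc]
        rw [this, mul_inv_cancel_right]
      rw [heq]
      exact hfinal

theorem xStmt_of_core {p : ℕ} (hX : XCoreStmt p) (hNS : NSStmt p) : XStmt p := by
  intro hp h3 K L _ _ _ _ _ _ _ hdeg hun art hart 𝔞 h𝔞
  classical
  set N : ℕ := Ideal.absNorm (𝔞 : Ideal (𝓞 K)) with hN
  have hN0 : N ≠ 0 := by
    rw [hN, Ne, Ideal.absNorm_eq_zero_iff]
    exact nonZeroDivisors.coe_ne_zero 𝔞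
  set B : ℕ := Ideal.absNorm (Ideal.span {(N : 𝓞 K)}) with hB
  have hB0 : B ≠ 0 := by
    rw [hB, Ne, Ideal.absNorm_eq_zero_iff, Ideal.span_singleton_eq_bot]
    exact_mod_cast hN0
  obtain ⟨P₀, hP₀, hP₀T, hτ⟩ := hNS hp K L hdeg hun art hart
    {I : Ideal (𝓞 K) | Ideal.absNorm I ≤ B} (Ideal.finite_setOfPred_absNorm_le B)
  have hres : ∀ P : (Ideal (𝓞 K))⁰, (P : Ideal (𝓞 K)).IsPrime →
      (P : Ideal (𝓞 K)) ∣ (𝔞 : Ideal (𝓞 K)) →
      ∀ ℓ : ℕ, ℓ.Prime → (ℓ : 𝓞 K) ∈ (P : Ideal (𝓞 K)) → (ℓ : 𝓞 K) ∉ (P₀ : Ideal (𝓞 K)) := by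
    intro P hP hdvd ℓ hℓ hℓP hℓP₀
    have hNP : (N : 𝓞 K) ∈ (P : Ideal (𝓞 K)) :=
      Ideal.le_of_dvd hdvd (Ideal.absNorm_mem _)
    have hℓN : ℓ ∣ N := by
      by_contra hnd
      have hcop : Nat.Coprime ℓ N := (Nat.Prime.coprime_iff_not_dvd hℓ).2 hnd
      have h1 : ((Nat.gcd ℓ N : ℤ) : 𝓞 K) ∈ (P : Ideal (𝓞 K)) := by
        rw [Nat.gcd_eq_gcd_ab]
        push_cast
        exact add_mem (Ideal.mul_mem_right _ _ hℓP) (Ideal.mul_mem_right _ _ hNP)
      rw [hcop.gcd_eq_one] at h1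
      apply hP.ne_top
      rw [Ideal.eq_top_iff_one]
      simpa using h1
    obtain ⟨m, hm⟩ := hℓN
    have hNP₀ : (N : 𝓞 K) ∈ (P₀ : Ideal (𝓞 K)) := by
      rw [hm]; push_cast
      exact Ideal.mul_mem_right _ _ hℓP₀
    apply hP₀T
    show Ideal.absNorm (P₀ : Ideal (𝓞 K)) ≤ B
    apply Nat.le_of_dvd (Nat.pos_of_ne_zero hB0)
    exact Ideal.absNorm_dvd_absNorm_of_le ((Ideal.span_singleton_le_iff_mem _).2 hNP₀)
  have hcore : ∀ P : (Ideal (𝓞 K))⁰, (P : Ideal (𝓞 K)).IsPrime → art P ≠ 1 →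
      (∀ ℓ : ℕ, ℓ.Prime → (ℓ : 𝓞 K) ∈ (P : Ideal (𝓞 K)) → (ℓ : 𝓞 K) ∉ (P₀ : Ideal (𝓞 K))) →
      ∀ b : ℕ, art P * art P₀ ^ b = 1 →
        ClassGroup.mk0 P * ClassGroup.mk0 P₀ ^ b ∈ nmClasses K L p :=
    fun P hP h1 hres' b hb => hX hp h3 K L hdeg hun art hart P P₀ hP hP₀ h1 hτ hres' b hb
  have := chain hp hdeg hun hart P₀ hτ hcore 𝔞 hres 0 (by rw [pow_zero, mul_one]; exact h𝔞)
  simpa using this

/-- the squeeze: under `XStmt` and `FIStmt` the Artin map kills the principal ideals -/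
theorem art_span_eq_one {p : ℕ} (hXS : XStmt p) (hFI : FIStmt p) (hp : p.Prime) (h3 : 3 ≤ p)
    [IsCyclotomicExtension {p} ℚ K] (hdeg : Module.finrank K L = p) (hun : IsUnram K L)
    {art : (Ideal (𝓞 K))⁰ →* (L ≃ₐ[K] L)} (hart : IsArt K L art) (X : (Ideal (𝓞 K))⁰)
    (hX : ClassGroup.mk0 X = 1) : art X = 1 := by
  by_contra hne
  apply hFI hp h3 K L hdeg hun
  rw [eq_top_iff]
  intro c _
  obtain ⟨I, rfl⟩ := ClassGroup.mk0_surjective c
  obtain ⟨k, hk⟩ := gal_eq_pow_of_ne_one hp hdeg hne (art I)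
  have h1 : art (I * X ^ (k * (p - 1))) = 1 := by
    rw [map_mul, map_pow, hk, ← pow_add]
    have : k + k * (p - 1) = k * p := by
      have hp1 : 1 ≤ p := hp.one_lt.le
      conv_lhs => rw [← mul_one k, mul_assoc, one_mul, ← mul_add, Nat.add_sub_cancel' hp1]
    rw [this, mul_comm, pow_mul, gal_pow_eq_one hdeg, one_pow]
  have h2 := hXS hp h3 K L hdeg hun art hart _ h1
  rwa [map_mul, map_pow, hX, one_pow, mul_one] at h2

theorem artinStmt_of {p : ℕ} (hXS : XStmt p) (hFI : FIStmt p) (hNS : NSStmt p)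
    (hAE : ArtExistsStmt p) : ArtinStmt p := by
  intro hp h3 K L _ _ _ _ _ _ _ hdeg hun
  obtain ⟨art, hart⟩ := hAE hp K L hdeg hun
  have hprin : ∀ X : (Ideal (𝓞 K))⁰, ClassGroup.mk0 X = 1 → art X = 1 :=
    fun X hX => art_span_eq_one hXS hFI hp h3 hdeg hun hart X hX
  -- well-definedness on classes
  have hwd : ∀ I J : (Ideal (𝓞 K))⁰, ClassGroup.mk0 I = ClassGroup.mk0 J → art I = art J := by
    intro I J h
    obtain ⟨x, y, hx, hy, hxy⟩ := ClassGroup.mk0_eq_mk0_iff.1 h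
    have hxm : Ideal.span {x} ∈ (Ideal (𝓞 K))⁰ :=
      mem_nonZeroDivisors_iff_ne_zero.2 (by simpa [Ideal.span_singleton_eq_bot] using hx)
    have hym : Ideal.span {y} ∈ (Ideal (𝓞 K))⁰ :=
      mem_nonZeroDivisors_iff_ne_zero.2 (by simpa [Ideal.span_singleton_eq_bot] using hy)
    have hX1 : ClassGroup.mk0 ⟨Ideal.span {x}, hxm⟩ = 1 :=
      (ClassGroup.mk0_eq_one_iff hxm).2 ⟨⟨x, rfl⟩⟩
    have hY1 : ClassGroup.mk0 ⟨Ideal.span {y}, hym⟩ = 1 :=
      (ClassGroup.mk0_eq_one_iff hym).2 ⟨⟨y, rfl⟩⟩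
    have he : (⟨Ideal.span {x}, hxm⟩ : (Ideal (𝓞 K))⁰) * I = ⟨Ideal.span {y}, hym⟩ * J :=
      Subtype.ext hxy
    have := congrArg art he
    rwa [map_mul, map_mul, hprin _ hX1, hprin _ hY1, one_mul, one_mul] at this
  let f : ClassGroup (𝓞 K) → (L ≃ₐ[K] L) :=
    fun c => art (Classical.choose (ClassGroup.mk0_surjective c))
  have hf : ∀ I : (Ideal (𝓞 K))⁰, f (ClassGroup.mk0 I) = art I :=
    fun I => hwd _ _ (Classical.choose_spec (ClassGroup.mk0_surjective (ClassGroup.mk0 I)))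
  have hf1 : f 1 = 1 := by
    have := hf 1
    rwa [map_one, map_one] at this
  have hfm : ∀ c d : ClassGroup (𝓞 K), f (c * d) = f c * f d := by
    intro c d
    obtain ⟨I, rfl⟩ := ClassGroup.mk0_surjective c
    obtain ⟨J, rfl⟩ := ClassGroup.mk0_surjective d
    rw [← map_mul, hf, hf, hf, map_mul]
  refine ⟨⟨⟨f, hf1⟩, hfm⟩, ?_, ?_⟩
  · intro σ
    obtain ⟨P, -, -, hP1⟩ := hNS hp K L hdeg hun art hart ∅ Set.finite_empty
    obtain ⟨k, hk⟩ := gal_eq_pow_of_ne_one hp hdeg hP1 σ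
    refine ⟨ClassGroup.mk0 (P ^ k), ?_⟩
    show f (ClassGroup.mk0 (P ^ k)) = σ
    rw [hf, map_pow, hk]
  · intro P Q hP hQ hQP
    show IsArithFrobAt (𝓞 K) (f (ClassGroup.mk0 P)) Q
    rw [hf]
    exact hart P Q hP hQ hQP

end Fermat.Agent.S14.Artin.Top
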