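import Fermat.Agent.S14.Artin.UnitIndex

/-!
# S14, Route A, package [H]: bridges for `UnitIndex.unit_norm_index`

* `IsPIDSet.mono`, `exists_isPIDSet`: every finite set of primes lies in a PID set;
* `exists_above`: the finite set of primes of `N` above a finite set of primes of `F`;
* `valuation_algebraMap_of_inertia_eq_bot`: the hypothesis `hunr` from trivial inertia;
* `norm_mem_sunits`: the norm of an `S`-unit is an `S`-unit;
* `unit_norm_index_of_isUnram`: `[H]` for an everywhere unramified extension.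
-/

set_option autoImplicit false
set_option linter.unusedSectionVars false
set_option linter.style.haveILetI false

namespace Fermat.Agent.S14.Artin.UnitIndex

open NumberField IsDedekindDomain HeightOneSpectrum
open Fermat.Agent.CFT.Herbrand
open Fermat.Agent.CFT.Global.SUnitLattice
open Fermat.Agent.CFT.Global.SUnitHerbrand
open scoped nonZeroDivisors

variable {F N : Type} [Field F] [Field N] [NumberField F] [NumberField N] [Algebra F N]

theorem IsPIDSet.mono {S S' : Finset (HeightOneSpectrum (𝓞 F))} (h : IsPIDSet S)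
    (hSS' : S ⊆ S') : IsPIDSet S' := by
  intro v hv
  obtain ⟨x, hx1, hx2⟩ := h v (fun hh => hv (hSS' hh))
  exact ⟨x, hx1, fun v' hv' hne => hx2 v' (fun hh => hv' (hSS' hh)) hne⟩

open scoped Classical in
/-- The primes of `N` above a finite set of primes of `F`. -/
theorem exists_above (S : Finset (HeightOneSpectrum (𝓞 F))) :
    ∃ SN : Finset (HeightOneSpectrum (𝓞 N)), ∀ w, w ∈ SN ↔ w.under (𝓞 F) ∈ S := by
  have hfib : ∀ v : HeightOneSpectrum (𝓞 F),
      {w : HeightOneSpectrum (𝓞 N) | w.under (𝓞 F) = v}.Finite := by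
    intro v
    haveI := v.isPrime
    haveI : v.asIdeal.IsMaximal := v.isMaximal
    have h1 := IsDedekindDomain.primesOver_finite v.asIdeal (𝓞 N)
    refine Set.Finite.of_finite_image (f := fun w : HeightOneSpectrum (𝓞 N) => w.asIdeal)
      (h1.subset ?_) (fun a _ b _ hab => HeightOneSpectrum.ext hab)
    rintro _ ⟨w, hw, rfl⟩
    refine ⟨w.isPrime, ⟨?_⟩⟩
    have : w.under (𝓞 F) = v := hw
    rw [← this]
    rfl
  have hfin : {w : HeightOneSpectrum (𝓞 N) | w.under (𝓞 F) ∈ S}.Finite := by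
    have : {w : HeightOneSpectrum (𝓞 N) | w.under (𝓞 F) ∈ S}
        = ⋃ v ∈ S, {w : HeightOneSpectrum (𝓞 N) | w.under (𝓞 F) = v} := by
      ext w; simp
    rw [this]
    exact Set.Finite.biUnion S.finite_toSet (fun v _ => hfib v)
  exact ⟨hfin.toFinset, fun w => by simp⟩

theorem intValuation_eq_exp_neg_one {R : Type*} [CommRing R] [IsDedekindDomain R]
    (v : HeightOneSpectrum R) (x : R) (h1 : x ∈ v.asIdeal)
    (h2 : x ∉ v.asIdeal ^ 2) : v.intValuation x = WithZero.exp (-1 : ℤ) := by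
  have hxne : x ≠ 0 := by
    rintro rfl
    exact h2 (Ideal.zero_mem _)
  have e1 : v.intValuation x ≤ WithZero.exp (-((1 : ℕ) : ℤ)) := by
    rw [intValuation_le_pow_iff_mem, pow_one]; exact h1
  have e2 : ¬ v.intValuation x ≤ WithZero.exp (-((2 : ℕ) : ℤ)) := by
    rw [intValuation_le_pow_iff_mem]; exact h2
  have hne : v.intValuation x ≠ 0 := v.intValuation_ne_zero x hxne
  obtain ⟨k, hk⟩ : ∃ k : ℤ, v.intValuation x = WithZero.exp k :=
    ⟨_, (WithZero.exp_log hne).symm⟩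
  rw [hk] at e1 e2 ⊢
  rw [WithZero.exp_le_exp] at e1 e2
  rw [WithZero.exp_inj]
  push_cast at e1 e2
  omega

theorem intValuation_eq_one_of_notMem {R : Type*} [CommRing R] [IsDedekindDomain R]
    (v : HeightOneSpectrum R) (x : R) (h : x ∉ v.asIdeal) :
    v.intValuation x = 1 := by
  have h1 : ¬ v.intValuation x < 1 := by
    rw [intValuation_lt_one_iff_mem]; exact h
  exact le_antisymm (v.intValuation_le_one x) (not_lt.1 h1)

/-- Every finite set of primes is contained in a PID set. -/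
theorem exists_isPIDSet (S₀ : Finset (HeightOneSpectrum (𝓞 F))) :
    ∃ S, S₀ ⊆ S ∧ IsPIDSet S := by
  classical
  choose rep hrep using (ClassGroup.mk0_surjective (R := 𝓞 F))
  have hfin : ∀ c : ClassGroup (𝓞 F),
      {v : HeightOneSpectrum (𝓞 F) | v.asIdeal ∣ (rep c : Ideal (𝓞 F))}.Finite := fun c =>
    Ideal.finite_factors (nonZeroDivisors.coe_ne_zero (rep c))
  haveI : Finite (ClassGroup (𝓞 F)) := inferInstance
  have hB : (⋃ c : ClassGroup (𝓞 F),
      {v : HeightOneSpectrum (𝓞 F) | v.asIdeal ∣ (rep c : Ideal (𝓞 F))}).Finite :=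
    Set.finite_iUnion hfin
  obtain ⟨S, hS⟩ : ∃ S : Finset (HeightOneSpectrum (𝓞 F)), S = S₀ ∪ hB.toFinset := ⟨_, rfl⟩
  have hmemS : ∀ (v : HeightOneSpectrum (𝓞 F)) (c : ClassGroup (𝓞 F)),
      v.asIdeal ∣ (rep c : Ideal (𝓞 F)) → v ∈ S := by
    intro v c hc
    rw [hS, Finset.mem_union, Set.Finite.mem_toFinset, Set.mem_iUnion]
    exact Or.inr ⟨c, hc⟩
  refine ⟨S, by rw [hS]; exact Finset.subset_union_left, ?_⟩
  intro v hv
  have hv0 : v.asIdeal ∈ (Ideal (𝓞 F))⁰ := mem_nonZeroDivisors_iff_ne_zero.2 v.ne_bot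
  obtain ⟨J, hJ⟩ : ∃ J : (Ideal (𝓞 F))⁰, J = rep (ClassGroup.mk0 ⟨v.asIdeal, hv0⟩)⁻¹ := ⟨_, rfl⟩
  have hJv : ¬ v.asIdeal ∣ (J : Ideal (𝓞 F)) := fun h => hv (hmemS v _ (hJ ▸ h))
  have hJS : ∀ v' : HeightOneSpectrum (𝓞 F), v'.asIdeal ∣ (J : Ideal (𝓞 F)) → v' ∈ S :=
    fun v' h => hmemS v' _ (hJ ▸ h)
  have hJv0 : (J : Ideal (𝓞 F)) * v.asIdeal ∈ (Ideal (𝓞 F))⁰ := mul_mem J.2 hv0
  have hmul : ClassGroup.mk0 ⟨(J : Ideal (𝓞 F)) * v.asIdeal, hJv0⟩ = 1 := by
    have : (⟨(J : Ideal (𝓞 F)) * v.asIdeal, hJv0⟩ : (Ideal (𝓞 F))⁰) = J * ⟨v.asIdeal, hv0⟩ :=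
      Subtype.ext rfl
    rw [this, map_mul, hJ, hrep, inv_mul_cancel]
  obtain ⟨x, hx⟩ := (ClassGroup.mk0_eq_one_iff hJv0).1 hmul
  have hx' : (J : Ideal (𝓞 F)) * v.asIdeal = Ideal.span {x} := hx
  have hle1 : (J : Ideal (𝓞 F)) * v.asIdeal ≤ v.asIdeal := Ideal.mul_le_right
  have hJne : (J : Ideal (𝓞 F)) ≠ 0 := nonZeroDivisors.coe_ne_zero J
  have hxne : x ≠ 0 := by
    rintro rfl
    rw [Ideal.span_singleton_eq_bot.2 rfl] at hx'
    exact (mul_ne_zero hJne v.ne_bot) hx'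
  have hxF : (algebraMap (𝓞 F) F x) ≠ 0 :=
    fun h => hxne ((map_eq_zero_iff _ (IsFractionRing.injective (𝓞 F) F)).1 h)
  have hxmem : x ∈ Ideal.span {x} := Ideal.mem_span_singleton_self x
  refine ⟨Units.mk0 _ hxF, ?_, ?_⟩
  · rw [Units.val_mk0, valuation_of_algebraMap]
    apply intValuation_eq_exp_neg_one
    · rw [← hx'] at hxmem
      exact hle1 hxmem
    · intro hmem
      have hle : Ideal.span {x} ≤ v.asIdeal ^ 2 := (Ideal.span_singleton_le_iff_mem _).2 hmem
      rw [← hx', ← Ideal.dvd_iff_le, pow_two] at hle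
      exact hJv ((mul_dvd_mul_iff_right v.ne_bot).1 hle)
  · intro v' hv' hne
    rw [Units.val_mk0, valuation_of_algebraMap]
    apply intValuation_eq_one_of_notMem
    intro hmem
    have hle : Ideal.span {x} ≤ v'.asIdeal := (Ideal.span_singleton_le_iff_mem _).2 hmem
    rw [← hx', ← Ideal.dvd_iff_le] at hle
    rcases v'.prime.dvd_or_dvd hle with h | h
    · exact hv' (hJS v' h)
    · rw [Ideal.dvd_iff_le] at h
      apply hne
      apply HeightOneSpectrum.ext
      exact (v.isMaximal.eq_of_le v'.isPrime.ne_top h).symm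

theorem valuation_algebraMap_of_ramificationIdx' (w : HeightOneSpectrum (𝓞 N))
    (h : Ideal.ramificationIdx' (w.under (𝓞 F)).asIdeal w.asIdeal = 1) (x : F) :
    w.valuation N (algebraMap F N x) = (w.under (𝓞 F)).valuation F x := by
  haveI : w.asIdeal.LiesOver (w.under (𝓞 F)).asIdeal := ⟨rfl⟩
  have := valuation_liesOver N (w.under (𝓞 F)) w x
  rw [h, pow_one] at this
  exact this.symm

theorem valuation_algebraMap_of_inertia_eq_bot [IsGalois F N] (w : HeightOneSpectrum (𝓞 N))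
    (h : w.asIdeal.inertia (N ≃ₐ[F] N) = ⊥) (x : F) :
    w.valuation N (algebraMap F N x) = (w.under (𝓞 F)).valuation F x := by
  apply valuation_algebraMap_of_ramificationIdx'
  haveI : w.asIdeal.LiesOver (w.under (𝓞 F)).asIdeal := ⟨rfl⟩
  haveI := w.isPrime
  haveI := (w.under (𝓞 F)).isPrime
  rw [Ideal.ramificationIdx'_eq_ramificationIdx _ _ (w.under (𝓞 F)).ne_bot,
    ← Ideal.ramificationIdxIn_eq_ramificationIdx (w.under (𝓞 F)).asIdeal w.asIdeal (N ≃ₐ[F] N),
    ← Ideal.card_inertia_eq_ramificationIdxIn (G := N ≃ₐ[F] N) (w.under (𝓞 F)).asIdeal w.asIdeal,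
    h]
  simp

/-- The norm of an `S`-unit of `N` is an `S`-unit of `F`. -/
theorem norm_mem_sunits [IsGalois F N]
    (S : Finset (HeightOneSpectrum (𝓞 F))) (SN : Finset (HeightOneSpectrum (𝓞 N)))
    (hSN : ∀ w : HeightOneSpectrum (𝓞 N), w ∈ SN ↔ w.under (𝓞 F) ∈ S)
    (hunr : ∀ w : HeightOneSpectrum (𝓞 N), w ∉ SN → ∀ x : F,
      w.valuation N (algebraMap F N x) = (w.under (𝓞 F)).valuation F x)
    {u : Nˣ} (hu : u ∈ SUnits N SN) :
    Units.map (Algebra.norm F : N →* F) u ∈ SUnits F S := by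
  have hS : IsStable (N ≃ₐ[F] N) SN := by
    refine isStable_of_forall_mem _ fun g w hw => ?_
    rw [hSN] at hw ⊢
    have := under_primeMap g w
    rw [show primeMap (aut N g) w = primeMap g.toRingEquiv w from rfl, this]
    exact hw
  intro v hv
  obtain ⟨w, hw⟩ := exists_under_eq (N := N) v
  have hwSN : w ∉ SN := by
    rw [hSN, hw]; simpa using hv
  have h1 := psi_nEnd SN hS ⟨u, hu⟩
  -- the left side is an `SN`-unit
  have h2 : w.valuation N
      (((Additive.toMul (psi SN (nEnd (sunitRho SN hS) (Additive.ofMul ⟨u, hu⟩))) : Nˣ)) : N) = 1 :=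
    Set.unit_valuation_eq_one _ N
      (Additive.toMul (nEnd (sunitRho SN hS) (Additive.ofMul ⟨u, hu⟩))) (by simpa using hwSN)
  rw [h1] at h2
  have h3 : w.valuation N (algebraMap F N (Algebra.norm F (u : N))) = 1 := h2
  rw [hunr w hwSN, hw] at h3
  exact h3

open scoped Classical in
/-- **[H]** for an extension which is unramified at every finite prime (all inertia groups
trivial, the hypothesis `IsUnram` of `S14/Artin/Plan`). -/
theorem unit_norm_index_of_isUnram [IsGalois F N] {p : ℕ} (hp : p.Prime) (hp2 : p ≠ 2)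
    (hdeg : Module.finrank F N = p)
    (hU : ∀ Q : Ideal (𝓞 N), Q.IsPrime → Q ≠ ⊥ → Q.inertia (N ≃ₐ[F] N) = ⊥)
    (S : Finset (HeightOneSpectrum (𝓞 F))) (SN : Finset (HeightOneSpectrum (𝓞 N)))
    (hSN : ∀ w : HeightOneSpectrum (𝓞 N), w ∈ SN ↔ w.under (𝓞 F) ∈ S)
    (hpid : IsPIDSet S) :
    ((SUnits N SN).map (Units.map (Algebra.norm F : N →* F))).relIndex (SUnits F S) * p
      = p ^ (S.filter (fun v => IsNonsplit N v)).card :=
  unit_norm_index hp hp2 hdeg S SN hSN
    (fun w _ x => valuation_algebraMap_of_inertia_eq_bot w (hU w.asIdeal w.isPrime w.ne_bot) x)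
    hpid

end Fermat.Agent.S14.Artin.UnitIndex
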